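import Mathlib
import Fermat.Agent.S55.LocalBrauerDefs
import Fermat.Agent.S55.Alg.CohomDefs3

/-!
# S55 / Global: the finite-level tower language of the core (definitions only, sorry-free)

* `GlUnramOutside S K F`: the extension `F / K` of number fields is unramified outside the finite
  set `S` of rational primes.  An "`S`-field over `K`" is a finite Galois `F / K` with this property.
* multiplicative cochain calculus in degrees `≤ 3` for a group `G` acting on a commutative group `X`
  (same conventions as Mathlib's `IsMulCocycle₂ / IsMulCoboundary₂` and helper29's `dd0 … dd3`):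
  `glD0, glD1, glD2`; the predicates `IsMulCocycle₃`, `IsMulCoboundary₃` and `pullCochain₃` are
  helper25's (`Alg/CohomDefs3.lean`).
* inflation along a tower `K ⊆ F ⊆ F'`: `glInfl₁, glInfl₂, glInfl₃`.
* `GlMuValued p c`: the cochain takes values in the `p`-th roots of unity.
-/

set_option autoImplicit false

noncomputable section

namespace Fermat.Agent.S55

open scoped NumberField
open NumberField

/-- `F / K` is unramified outside the finite set `S` of rational primes: every nonzero prime of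
`𝓞 F` not containing a prime number of `S` is unramified over `𝓞 K`. -/
def GlUnramOutside (S : Finset Nat.Primes) (K F : Type) [Field K] [NumberField K] [Field F]
    [NumberField F] [Algebra K F] : Prop :=
  ∀ (P : Ideal (𝓞 F)) [P.IsPrime], P ≠ ⊥ → (∀ q ∈ S, (((q : Nat.Primes) : ℕ) : 𝓞 F) ∉ P) →
    Algebra.IsUnramifiedAt (𝓞 K) P

section Cochains

variable {G : Type} [Group G] {X : Type} [CommGroup X] [MulDistribMulAction G X]

/-- `(d⁰ m)(g) = g • m / m`. -/
def glD0 (m : X) : G → X := fun g => g • m / m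

/-- `(d¹ x)(g,h) = g • x h / x (g h) * x g` (Mathlib's `IsMulCoboundary₂` shape). -/
def glD1 (x : G → X) : G × G → X := fun p => p.1 • x p.2 / x (p.1 * p.2) * x p.1

/-- `(d² c)(g,h,j) = g • c(h,j) / c(gh,j) * c(g,hj) / c(g,h)`. -/
def glD2 (c : G × G → X) : G × G × G → X :=
  fun p => p.1 • c (p.2.1, p.2.2) / c (p.1 * p.2.1, p.2.2) * c (p.1, p.2.1 * p.2.2) / c (p.1, p.2.1)

/-- the cochain takes values in the `p`-th roots of unity -/
def GlMuValued {A : Type} (p : ℕ) (c : A → X) : Prop := ∀ a, c a ^ p = 1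

lemma isMulCoboundary₂_iff_glD1 (c : G × G → X) :
    groupCohomology.IsMulCoboundary₂ c ↔ ∃ x : G → X, glD1 x = c := by
  constructor
  · rintro ⟨x, hx⟩
    exact ⟨x, funext fun p => hx p.1 p.2⟩
  · rintro ⟨x, rfl⟩
    exact ⟨x, fun g h => rfl⟩

lemma isMulCoboundary₃_iff_glD2 (f : G × G × G → X) :
    IsMulCoboundary₃ f ↔ ∃ c : G × G → X, glD2 c = f := by
  constructor
  · rintro ⟨c, hc⟩
    exact ⟨c, funext fun p => hc p.1 p.2.1 p.2.2⟩
  · rintro ⟨c, rfl⟩
    exact ⟨c, fun g h j => rfl⟩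

end Cochains

section Tower

variable (K F F' : Type) [Field K] [Field F] [Field F'] [Algebra K F] [Algebra F F']
  [Algebra K F'] [IsScalarTower K F F'] [Normal K F]

/-- inflation of `1`-cochains from `Gal(F/K)` to `Gal(F'/K)`. -/
def glInfl₁ (x : (F ≃ₐ[K] F) → Fˣ) : (F' ≃ₐ[K] F') → F'ˣ :=
  pullCochain₁ (AlgEquiv.restrictNormalHom F) (Units.map (algebraMap F F' : F →* F')) x

/-- inflation of `2`-cochains from `Gal(F/K)` to `Gal(F'/K)`. -/
def glInfl₂ (c : (F ≃ₐ[K] F) × (F ≃ₐ[K] F) → Fˣ) : (F' ≃ₐ[K] F') × (F' ≃ₐ[K] F') → F'ˣ :=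
  pullCochain₂ (AlgEquiv.restrictNormalHom F) (Units.map (algebraMap F F' : F →* F')) c

/-- inflation of `3`-cochains from `Gal(F/K)` to `Gal(F'/K)`. -/
def glInfl₃ (f : (F ≃ₐ[K] F) × (F ≃ₐ[K] F) × (F ≃ₐ[K] F) → Fˣ) :
    (F' ≃ₐ[K] F') × (F' ≃ₐ[K] F') × (F' ≃ₐ[K] F') → F'ˣ :=
  pullCochain₃ (AlgEquiv.restrictNormalHom F) (Units.map (algebraMap F F' : F →* F')) f

end Tower

end Fermat.Agent.S55
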