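import Mathlib
import Fermat.Agent.S14.FracAut

/-!
# S55 / Global: finite-level definitions (classical language)

For a finite set `S` of rational primes and a Galois extension `F / K` of number fields:

* `GlAS S = ∏_{q ∈ S} ℚ_q`, `GlFS S F = F ⊗_ℚ A_S` (semilocal algebra of `F` at `S`);
* `GlJ S F = (F ⊗_ℚ A_S)ˣ`  (the `S`-component of the ideles), a `Gal(F/K)`-module;
* `GlI F` = invertible fractional ideals of `𝓞 F`, a `Gal(F/K)`-module (via `S14.fracAut`);
* `GlIdele S F = GlJ S F × GlI F` (the ideles modulo the units outside `S`);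
* `glPrinc S F` = (diagonal image of `Fˣ`) · (ideals supported on `S`);
* `GlC S F = GlIdele S F ⧸ glPrinc S F` (the `S`-idele class group `J_F / Fˣ U_S`).

No completions and no restricted products are used.
-/

set_option autoImplicit false

noncomputable section

namespace Fermat.Agent.S55

open scoped TensorProduct NumberField nonZeroDivisors
open NumberField IsDedekindDomain

/-- `Fact` instance for the rational primes of `Nat.Primes`. -/
instance glFactPrime (q : Nat.Primes) : Fact (q : ℕ).Prime := ⟨q.2⟩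

/-- `A_S = ∏_{q ∈ S} ℚ_q` (a `def` with explicit instances: instance search through the dependent
product of `p`-adic fields is fragile). -/
def GlAS (S : Finset Nat.Primes) : Type := ∀ q : S, ℚ_[((q : Nat.Primes) : ℕ)]

instance (S : Finset Nat.Primes) : CommRing (GlAS S) :=
  inferInstanceAs (CommRing (∀ q : S, ℚ_[((q : Nat.Primes) : ℕ)]))

instance (S : Finset Nat.Primes) : Algebra ℚ (GlAS S) :=
  inferInstanceAs (Algebra ℚ (∀ q : S, ℚ_[((q : Nat.Primes) : ℕ)]))

/-- the component of an element of `A_S` at `q ∈ S`. -/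
def GlAS.proj (S : Finset Nat.Primes) (q : S) : GlAS S →ₐ[ℚ] ℚ_[((q : Nat.Primes) : ℕ)] :=
  Pi.evalAlgHom ℚ (fun q : S => ℚ_[((q : Nat.Primes) : ℕ)]) q

/-- The semilocal algebra `F_S = F ⊗_ℚ A_S`. -/
abbrev GlFS (S : Finset Nat.Primes) (F : Type*) [Field F] [NumberField F] : Type _ :=
  F ⊗[ℚ] GlAS S

section Aut

variable (S : Finset Nat.Primes) {K F : Type*} [Field K] [NumberField K] [Field F] [NumberField F]
  [Algebra K F]

/-- the ring endomorphism of `F_S` induced by `σ ∈ Gal(F/K)`. -/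
def glFSAut (σ : F ≃ₐ[K] F) : GlFS S F →ₐ[ℚ] GlFS S F :=
  Algebra.TensorProduct.map ((σ.restrictScalars ℚ : F ≃ₐ[ℚ] F) : F →ₐ[ℚ] F) (AlgHom.id ℚ (GlAS S))

@[simp] lemma glFSAut_tmul (σ : F ≃ₐ[K] F) (x : F) (a : GlAS S) :
    glFSAut S σ (x ⊗ₜ[ℚ] a) = σ x ⊗ₜ[ℚ] a := rfl

lemma glFSAut_one : glFSAut S (1 : F ≃ₐ[K] F) = AlgHom.id ℚ (GlFS S F) := by
  apply Algebra.TensorProduct.ext'
  intro x a
  rfl

lemma glFSAut_mul (σ τ : F ≃ₐ[K] F) :
    glFSAut S (σ * τ) = (glFSAut S σ).comp (glFSAut S τ) := by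
  apply Algebra.TensorProduct.ext'
  intro x a
  rfl

end Aut

/-- `J_S(F) = (F ⊗_ℚ A_S)ˣ`, the `S`-component of the idele group of `F`. -/
abbrev GlJ (S : Finset Nat.Primes) (F : Type*) [Field F] [NumberField F] : Type _ := (GlFS S F)ˣ

/-- the group of invertible fractional ideals of `𝓞 F`. -/
abbrev GlI (F : Type*) [Field F] [NumberField F] : Type _ := (FractionalIdeal (𝓞 F)⁰ F)ˣ

section Action

variable (S : Finset Nat.Primes) {K F : Type*} [Field K] [NumberField K] [Field F] [NumberField F]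
  [Algebra K F]

instance glJAction : MulDistribMulAction (F ≃ₐ[K] F) (GlJ S F) where
  smul σ x := Units.map (glFSAut S σ : GlFS S F →* GlFS S F) x
  one_smul x := by
    show Units.map (glFSAut S (1 : F ≃ₐ[K] F) : GlFS S F →* GlFS S F) x = x
    rw [glFSAut_one]; exact Units.ext rfl
  mul_smul σ τ x := by
    show Units.map (glFSAut S (σ * τ) : GlFS S F →* GlFS S F) x =
      Units.map (glFSAut S σ : GlFS S F →* GlFS S F)
        (Units.map (glFSAut S τ : GlFS S F →* GlFS S F) x)
    rw [glFSAut_mul]; exact Units.ext rfl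
  smul_mul σ x y := map_mul (Units.map (glFSAut S σ : GlFS S F →* GlFS S F)) x y
  smul_one σ := map_one (Units.map (glFSAut S σ : GlFS S F →* GlFS S F))

lemma glJ_smul_def (σ : F ≃ₐ[K] F) (x : GlJ S F) :
    σ • x = Units.map (glFSAut S σ : GlFS S F →* GlFS S F) x := rfl

instance glIAction : MulDistribMulAction (F ≃ₐ[K] F) (GlI F) where
  smul σ I := Fermat.Agent.S14.fracAut σ I
  one_smul I := Fermat.Agent.S14.fracAut_one I
  mul_smul σ τ I := Fermat.Agent.S14.fracAut_mul σ τ I
  smul_mul σ I J := map_mul (Fermat.Agent.S14.fracAut σ) I J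
  smul_one σ := map_one (Fermat.Agent.S14.fracAut σ)

lemma glI_smul_def (σ : F ≃ₐ[K] F) (I : GlI F) : σ • I = Fermat.Agent.S14.fracAut σ I := rfl

end Action

/-- the `S`-truncated idele group `J_F / U_S = J_S(F) × I(F)`. -/
abbrev GlIdele (S : Finset Nat.Primes) (F : Type*) [Field F] [NumberField F] : Type _ :=
  GlJ S F × GlI F

section Maps

variable (S : Finset Nat.Primes) (F : Type*) [Field F] [NumberField F]

/-- a finite place of `F` lies above `S`. -/
def GlAbove (v : HeightOneSpectrum (𝓞 F)) : Prop :=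
  ∃ q ∈ S, (((q : Nat.Primes) : ℕ) : 𝓞 F) ∈ v.asIdeal

/-- the diagonal embedding `Fˣ → J_S(F)`, `x ↦ x ⊗ 1`. -/
def glDiagJ : Fˣ →* GlJ S F :=
  Units.map ((algebraMap F (GlFS S F) : F →+* GlFS S F) : F →* GlFS S F)

/-- the principal fractional ideal map `Fˣ → I(F)`. -/
def glDiagI : Fˣ →* GlI F := toPrincipalIdeal (𝓞 F) F

/-- the diagonal embedding `Fˣ → J_S(F) × I(F)`. -/
def glDiag : Fˣ →* GlIdele S F := (glDiagJ S F).prod (glDiagI F)

/-- the group of fractional ideals supported on the primes above `S`. -/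
def glIdealsOn : Subgroup (GlI F) where
  carrier := {I | ∀ v : HeightOneSpectrum (𝓞 F), ¬ GlAbove S F v →
    FractionalIdeal.count F v (I : FractionalIdeal (𝓞 F)⁰ F) = 0}
  one_mem' := fun v _ => by
    show FractionalIdeal.count F v ((1 : (FractionalIdeal (𝓞 F)⁰ F)ˣ) : FractionalIdeal (𝓞 F)⁰ F) = 0
    rw [Units.val_one, FractionalIdeal.count_one]
  mul_mem' := fun {I J} hI hJ v hv => by
    show FractionalIdeal.count F v ((I * J : (FractionalIdeal (𝓞 F)⁰ F)ˣ) :
      FractionalIdeal (𝓞 F)⁰ F) = 0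
    rw [Units.val_mul, FractionalIdeal.count_mul F v (Units.ne_zero I) (Units.ne_zero J),
      hI v hv, hJ v hv, add_zero]
  inv_mem' := fun {I} hI v hv => by
    show FractionalIdeal.count F v ((I⁻¹ : (FractionalIdeal (𝓞 F)⁰ F)ˣ) :
      FractionalIdeal (𝓞 F)⁰ F) = 0
    have h : ((I⁻¹ : (FractionalIdeal (𝓞 F)⁰ F)ˣ) : FractionalIdeal (𝓞 F)⁰ F) =
        ((I : (FractionalIdeal (𝓞 F)⁰ F)ˣ) : FractionalIdeal (𝓞 F)⁰ F)⁻¹ := by
      rw [eq_comm, inv_eq_iff_eq_inv, ← Units.val_inv_eq_inv_val]; simp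
    rw [h, FractionalIdeal.count_inv, hI v hv, neg_zero]

/-- the subgroup of "principal" elements of the `S`-truncated ideles: the diagonal image of `Fˣ`
times the ideals supported on `S`. -/
def glPrinc : Subgroup (GlIdele S F) :=
  (glDiag S F).range ⊔ (Subgroup.prod ⊥ (glIdealsOn S F))

/-- the `S`-idele class group `C_S(F) = J_F / Fˣ U_S`. -/
abbrev GlC : Type _ := GlIdele S F ⧸ glPrinc S F

end Maps

end Fermat.Agent.S55
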