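import Fermat.Agent.S55.Global.ObGlue
import Fermat.Agent.S55.KummerRam
import Fermat.Agent.S14.AuxRam

/-!
# S55 / Global, leaf OB-K2: a Galois extension generated by `p`-th roots of elements whose
divisors outside `S` are divisible by `p` is unramified outside `S ∋ p`.

Inertia-group argument: `τ` in the inertia group of a prime `𝔓` outside `S` restricts to the
identity on the `S`-field `F`, multiplies each generator `γ` by a `p`-th root of unity `ζ`, and
`ζ ≡ 1 mod 𝔓` forces `ζ = 1` because `p ∉ 𝔓`.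
-/

set_option autoImplicit false
set_option linter.unusedSectionVars false

noncomputable section

namespace Fermat.Agent.S55

open scoped NumberField
open NumberField IsDedekindDomain

section Val

variable {M Γ₀ : Type*} [Field M] [LinearOrderedCommGroupWithZero Γ₀] (v : Valuation M Γ₀)

/-- a root of unity has valuation one -/
theorem globku_valuation_eq_one {ζ : M} {n : ℕ} (hn : n ≠ 0) (h : ζ ^ n = 1) : v ζ = 1 := by
  have h1 : v ζ ^ n = 1 := by rw [← map_pow, h, map_one]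
  rcases lt_trichotomy (v ζ) 1 with hlt | heq | hgt
  · exact absurd h1 (ne_of_lt (pow_lt_one₀ zero_le hlt hn))
  · exact heq
  · exact absurd h1 (ne_of_gt (one_lt_pow₀ hgt hn))

omit [LinearOrderedCommGroupWithZero Γ₀] in
/-- `p = ∏ (1 - μ)` over the primitive `p`-th roots of unity -/
theorem globku_prod_one_sub {p : ℕ} [Fact p.Prime] {η : M}
    (hη : IsPrimitiveRoot η p) : (p : M) = ∏ μ ∈ primitiveRoots p M, (1 - μ) := by
  have h1 := Polynomial.cyclotomic_eq_prod_X_sub_primitiveRoots hη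
  have h2 := congrArg (Polynomial.eval 1) h1
  rw [Polynomial.eval_one_cyclotomic_prime, Polynomial.eval_prod] at h2
  simpa using h2

/-- if `1 - η` is not a unit for the valuation, neither is `p` -/
theorem globku_valuation_prime_lt_one {p : ℕ} [Fact p.Prime] {η : M}
    (hη : IsPrimitiveRoot η p) (h : v (1 - η) < 1) : v (p : M) < 1 := by
  classical
  have hp : p.Prime := Fact.out
  have hle : ∀ μ ∈ primitiveRoots p M, v (1 - μ) ≤ 1 := by
    intro μ hμ
    have hμ' : μ ^ p = 1 := ((mem_primitiveRoots hp.pos).1 hμ).pow_eq_one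
    refine le_trans (v.map_sub _ _) ?_
    rw [map_one, globku_valuation_eq_one v hp.ne_zero hμ', max_self]
  have hmem : η ∈ primitiveRoots p M := (mem_primitiveRoots hp.pos).2 hη
  rw [globku_prod_one_sub hη, map_prod, ← Finset.mul_prod_erase _ _ hmem]
  have h3 : ∏ μ ∈ (primitiveRoots p M).erase η, v (1 - μ) ≤ 1 :=
    Finset.prod_le_one' fun μ hμ => hle μ (Finset.mem_of_mem_erase hμ)
  calc v (1 - η) * ∏ μ ∈ (primitiveRoots p M).erase η, v (1 - μ) ≤ v (1 - η) * 1 := by gcongr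
    _ < 1 := by simpa using h

end Val

section Inertia

variable {K L : Type} [Field K] [NumberField K] [Field L] [NumberField L] [Algebra K L]
  [IsGalois K L]

/-- at an unramified prime the inertia group is trivial -/
theorem globku_eq_one_of_mem_inertia (𝔮 : Ideal (𝓞 L)) [𝔮.IsPrime]
    (hu : Algebra.IsUnramifiedAt (𝓞 K) 𝔮) (τ : L ≃ₐ[K] L) (hτ : ∀ y : 𝓞 L, τ • y - y ∈ 𝔮) :
    τ = 1 := by
  have hl : 𝔮.LiesOver (𝔮.under (𝓞 K)) := ⟨rfl⟩
  have hcard : Nat.card (𝔮.inertia (L ≃ₐ[K] L)) = 1 := by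
    rw [Fermat.Agent.S14.auxr_card_inertia, Ideal.ramificationIdx_eq_one 𝔮 (𝓞 K)]
  have hsub : Subsingleton (𝔮.inertia (L ≃ₐ[K] L)) :=
    (Nat.card_eq_one_iff_unique.mp hcard).1
  have hmem : τ ∈ 𝔮.inertia (L ≃ₐ[K] L) := hτ
  have := Subsingleton.elim (⟨τ, hmem⟩ : 𝔮.inertia (L ≃ₐ[K] L)) 1
  exact congrArg Subtype.val this

/-- a prime with trivial inertia group is unramified -/
theorem globku_isUnramifiedAt_of_inertia (𝔓 : Ideal (𝓞 L)) [𝔓.IsPrime]
    (h : ∀ τ : L ≃ₐ[K] L, (∀ y : 𝓞 L, τ • y - y ∈ 𝔓) → τ = 1) :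
    Algebra.IsUnramifiedAt (𝓞 K) 𝔓 := by
  rw [← Ideal.ramificationIdx_eq_one_iff, ← Fermat.Agent.S14.auxr_card_inertia,
    Nat.card_eq_one_iff_unique]
  refine ⟨⟨fun a b => ?_⟩, ⟨1⟩⟩
  apply Subtype.ext
  rw [h a.1 a.2, h b.1 b.2]

end Inertia

/-- (OB-K2) -/
theorem glob_unramOutside_of_kummer {p : ℕ} [Fact p.Prime] (S : Finset Nat.Primes)
    (hpS : ∃ q ∈ S, ((q : Nat.Primes) : ℕ) = p)
    (K F F' : Type) [Field K] [NumberField K] [Field F] [NumberField F] [Field F'] [NumberField F']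
    [Algebra K F] [Algebra K F'] [Algebra F F'] [IsScalarTower K F F'] [IsGalois K F]
    [IsGalois K F'] (hur : GlUnramOutside S K F) (Γ : Set F')
    (hΓ : IntermediateField.adjoin F Γ = ⊤)
    (hΓp : ∀ γ ∈ Γ, ∃ b : F, b ≠ 0 ∧ γ ^ p = algebraMap F F' b ∧
      ∀ w : HeightOneSpectrum (𝓞 F), ¬ GlAbove S F w →
        (p : ℤ) ∣ WithZero.log (w.valuation F b)) :
    GlUnramOutside S K F' := by
  have hp : p.Prime := Fact.out
  intro 𝔓 h𝔓 h𝔓0 h𝔓S
  apply globku_isUnramifiedAt_of_inertia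
  intro τ hτ
  -- the place of `F'` and the place of `F` below it
  let w' : HeightOneSpectrum (𝓞 F') := ⟨𝔓, h𝔓, h𝔓0⟩
  have hw' : ¬ GlAbove S F' w' := fun ⟨q, hq, hmem⟩ => h𝔓S q hq hmem
  let w : HeightOneSpectrum (𝓞 F) := w'.under (𝓞 F)
  have hw : ¬ GlAbove S F w := fun h => hw' ((glob_above_under_iff S w').1 h)
  -- (i) `τ` restricts to the identity of `F`
  have hres : AlgEquiv.restrictNormalHom F τ = 1 := by
    have hu : Algebra.IsUnramifiedAt (𝓞 K) w.asIdeal :=
      hur w.asIdeal w.ne_bot (fun q hq hmem => hw ⟨q, hq, hmem⟩)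
    exact globku_eq_one_of_mem_inertia w.asIdeal hu _
      (fun y => Fermat.Agent.S14.auxr_restrictNormal_mem_inertia 𝔓 τ hτ y)
  have hF : ∀ y : F, τ (algebraMap F F' y) = algebraMap F F' y := by
    intro y
    have h1 := AlgEquiv.restrictNormal_commutes τ F y
    rw [← h1]
    have h2 : τ.restrictNormal F = 1 := hres
    rw [h2]
    rfl
  -- (ii) `τ` fixes the generators
  have hp𝔓 : w'.valuation F' ((p : ℕ) : F') = 1 := by
    obtain ⟨q, hq, hqp⟩ := hpS
    have h1 : ((q : ℕ) : 𝓞 F') ∉ 𝔓 := h𝔓S q hq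
    rw [hqp] at h1
    have h2 : ¬ w'.valuation F' (algebraMap (𝓞 F') F' ((p : ℕ) : 𝓞 F')) < 1 :=
      (HeightOneSpectrum.valuation_lt_one_iff_mem (K := F') w' ((p : ℕ) : 𝓞 F')).not.2 h1
    have h3 : w'.valuation F' (algebraMap (𝓞 F') F' ((p : ℕ) : 𝓞 F')) ≤ 1 :=
      HeightOneSpectrum.valuation_le_one (K := F') w' ((p : ℕ) : 𝓞 F')
    rw [map_natCast] at h2 h3
    exact le_antisymm h3 (not_lt.1 h2)
  have hΓfix : ∀ γ ∈ Γ, τ γ = γ := by
    intro γ hγ
    obtain ⟨b, hb0, hγb, hdvd⟩ := hΓp γ hγ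
    obtain ⟨c, hc0, b', hb', hbc⟩ := kumram_exists_unit_rep w hp.ne_zero hb0 (hdvd w hw)
    have hγ0 : γ ≠ 0 := by
      intro h0
      rw [h0, zero_pow hp.ne_zero] at hγb
      exact hb0 ((map_eq_zero _).1 hγb.symm)
    have hcF' : algebraMap F F' c ≠ 0 := (map_ne_zero _).2 hc0
    -- the integral generator `γ' = γ * c`
    have hγ'p : (γ * algebraMap F F' c) ^ p = algebraMap F F' (algebraMap (𝓞 F) F b') := by
      rw [mul_pow, hγb, hbc, map_mul, map_pow]
    have hint : IsIntegral ℤ (γ * algebraMap F F' c) := by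
      apply IsIntegral.of_pow hp.pos
      rw [hγ'p]
      exact (b'.2 : IsIntegral ℤ (b' : F)).map (IsScalarTower.toAlgHom ℤ F F')
    let γ' : 𝓞 F' := ⟨γ * algebraMap F F' c, hint⟩
    have hγ'mem : γ' ∉ 𝔓 := by
      intro hmem
      have h1 : γ' ^ p ∈ 𝔓 := Ideal.pow_mem_of_mem 𝔓 hmem p hp.pos
      have h2 : γ' ^ p = algebraMap (𝓞 F) (𝓞 F') b' := by
        apply RingOfIntegers.ext
        show (γ * algebraMap F F' c) ^ p = algebraMap F F' (algebraMap (𝓞 F) F b')
        exact hγ'p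
      rw [h2] at h1
      exact hb' h1
    by_contra hne
    -- the root of unity `ζ = τ γ / γ`
    have hηp : (τ γ / γ) ^ p = 1 := by
      rw [div_pow, ← map_pow, hγb, hF, div_self]
      exact (map_ne_zero _).2 hb0
    have hη1 : τ γ / γ ≠ 1 := fun h => hne ((div_eq_one_iff_eq hγ0).1 h)
    have hprim : IsPrimitiveRoot (τ γ / γ) p :=
      isPrimitiveRoot_of_mem_nthRootsFinset hp ((Polynomial.mem_nthRootsFinset hp.pos _).2 hηp) hη1
    have h1 : w'.valuation F' (algebraMap (𝓞 F') F' (τ • γ' - γ')) < 1 :=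
      (HeightOneSpectrum.valuation_lt_one_iff_mem (K := F') w' _).2 (hτ γ')
    have h2 : algebraMap (𝓞 F') F' (τ • γ' - γ') = (τ γ / γ - 1) * (γ * algebraMap F F' c) := by
      show τ (γ * algebraMap F F' c) - γ * algebraMap F F' c = _
      rw [map_mul, hF]
      field_simp
    have h3 : w'.valuation F' (γ * algebraMap F F' c) = 1 := by
      have h4 : ¬ w'.valuation F' (algebraMap (𝓞 F') F' γ') < 1 :=
        (HeightOneSpectrum.valuation_lt_one_iff_mem (K := F') w' γ').not.2 hγ'mem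
      have h5 : w'.valuation F' (algebraMap (𝓞 F') F' γ') ≤ 1 :=
        HeightOneSpectrum.valuation_le_one (K := F') w' γ'
      exact le_antisymm h5 (not_lt.1 h4)
    rw [h2, map_mul, h3, mul_one, Valuation.map_sub_swap] at h1
    have h6 := globku_valuation_prime_lt_one (w'.valuation F') hprim h1
    rw [hp𝔓] at h6
    exact lt_irrefl _ h6
  -- (iii) `τ` is the identity
  let τF : F' ≃ₐ[F] F' := AlgEquiv.ofRingEquiv (f := (τ : F' ≃+* F')) hF
  have hst : ∀ γ ∈ Γ, Subgroup.zpowers τF ≤ MulAction.stabilizer (F' ≃ₐ[F] F') γ := by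
    intro γ hγ
    rw [Subgroup.zpowers_le]
    exact hΓfix γ hγ
  have hz : Subgroup.zpowers τF ≤ (IntermediateField.adjoin F Γ).fixingSubgroup := by
    rw [← IntermediateField.le_iff_le, IntermediateField.adjoin_le_iff]
    intro γ hγ
    rw [SetLike.mem_coe, IntermediateField.mem_fixedField_iff]
    intro g hg
    exact hst γ hγ hg
  have hmem := hz (Subgroup.mem_zpowers τF)
  rw [hΓ, IntermediateField.mem_fixingSubgroup_iff] at hmem
  apply AlgEquiv.ext
  intro x
  exact hmem x IntermediateField.mem_top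

end Fermat.Agent.S55
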