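import Fermat.Agent.S55.Global.ObKummerField
import Fermat.Agent.S55.Global.ObKummerUnram

/-!
# S55 / Global, leaf OB-K: adjoining `p`-th roots of finitely many elements whose divisors
outside `S` are divisible by `p` to an `S`-field gives an `S`-field again (= OB-K1 + OB-K2).
-/

set_option autoImplicit false

noncomputable section

namespace Fermat.Agent.S55

open scoped NumberField
open NumberField IsDedekindDomain

/-- (OB-K) -/
theorem glob_exists_kummer_field {p : ℕ} [Fact p.Prime] (S : Finset Nat.Primes)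
    (hpS : ∃ q ∈ S, ((q : Nat.Primes) : ℕ) = p)
    (K F : Type) [Field K] [NumberField K] [Field F] [NumberField F] [Algebra K F] [IsGalois K F]
    (hur : GlUnramOutside S K F) (T : Finset F) (hT0 : ∀ t ∈ T, t ≠ 0)
    (hT : ∀ t ∈ T, ∀ w : HeightOneSpectrum (𝓞 F), ¬ GlAbove S F w →
      (p : ℤ) ∣ WithZero.log (w.valuation F t)) :
    ∃ (F' : Type) (_ : Field F') (_ : NumberField F') (_ : Algebra K F') (_ : Algebra F F')
      (_ : IsScalarTower K F F') (_ : IsGalois K F'),
      GlUnramOutside S K F' ∧ ∀ t ∈ T, ∃ β : F', β ^ p = algebraMap F F' t := by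
  have hp : p.Prime := Fact.out
  obtain ⟨F', i1, i2, i3, i4, i5, i6, Γ, hΓ, hΓ1, hΓ2⟩ :=
    glob_exists_kummer_closure p hp.ne_zero K F T
  refine ⟨F', i1, i2, i3, i4, i5, i6, ?_, ?_⟩
  · apply glob_unramOutside_of_kummer S hpS K F F' hur Γ hΓ
    intro γ hγ
    obtain ⟨σ, t, ht, hγt⟩ := hΓ1 γ hγ
    refine ⟨σ t, (map_ne_zero _).2 (hT0 t ht), hγt, fun w hw => ?_⟩
    rw [glob_log_aut]
    exact hT t ht _ (fun h => hw ((glob_above_primeMap_iff S σ.symm w).1 h))
  · intro t ht
    obtain ⟨γ, -, h⟩ := hΓ2 t ht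
    exact ⟨γ, h⟩

end Fermat.Agent.S55
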