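/-
S55 / Global, leaf GU-3: inflation calculus `glInfl₁/₂/₃` versus `glD0/1/2`, `lfBC`, towers;
cochain identities.
-/
import Mathlib
import Fermat.Agent.S55.Global.TowerDefs

set_option autoImplicit false
set_option linter.unusedSectionVars false
set_option linter.unusedVariables false

noncomputable section

namespace Fermat.Agent.S55

open scoped NumberField
open NumberField IsDedekindDomain groupCohomology

section Infl

variable (K F F' : Type) [Field K] [Field F] [Field F'] [Algebra K F] [Algebra F F']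
  [Algebra K F'] [IsScalarTower K F F'] [Normal K F]

/-- the coefficient map of inflation is equivariant -/
theorem glinfl_map_smul (σ : F' ≃ₐ[K] F') (u : Fˣ) :
    Units.map (algebraMap F F' : F →* F') ((AlgEquiv.restrictNormalHom F σ) • u) =
      σ • Units.map (algebraMap F F' : F →* F') u := by
  apply Units.ext
  exact AlgEquiv.restrictNormal_commutes σ F (u : F)

theorem glInfl₁_apply (x : (F ≃ₐ[K] F) → Fˣ) (σ : F' ≃ₐ[K] F') :
    glInfl₁ K F F' x σ =
      Units.map (algebraMap F F' : F →* F') (x (AlgEquiv.restrictNormalHom F σ)) := rfl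

theorem glInfl₂_apply (c : (F ≃ₐ[K] F) × (F ≃ₐ[K] F) → Fˣ) (σ τ : F' ≃ₐ[K] F') :
    glInfl₂ K F F' c (σ, τ) =
      Units.map (algebraMap F F' : F →* F')
        (c (AlgEquiv.restrictNormalHom F σ, AlgEquiv.restrictNormalHom F τ)) := rfl

theorem glInfl₃_apply (f : (F ≃ₐ[K] F) × (F ≃ₐ[K] F) × (F ≃ₐ[K] F) → Fˣ)
    (σ τ ρ : F' ≃ₐ[K] F') :
    glInfl₃ K F F' f (σ, τ, ρ) =
      Units.map (algebraMap F F' : F →* F')
        (f (AlgEquiv.restrictNormalHom F σ, AlgEquiv.restrictNormalHom F τ,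
          AlgEquiv.restrictNormalHom F ρ)) := rfl

theorem glInfl₂_eq_lfBC (c : (F ≃ₐ[K] F) × (F ≃ₐ[K] F) → Fˣ) :
    glInfl₂ K F F' c = lfBC K F K F' c := by
  funext ⟨σ, τ⟩
  rw [glInfl₂_apply, lfBC_apply]
  have h : ∀ ρ : F' ≃ₐ[K] F', lfGalRes K F K F' ρ = AlgEquiv.restrictNormalHom F ρ := by
    intro ρ
    ext x
    apply (algebraMap F F').injective
    rw [lfGalRes_commutes]
    exact (AlgEquiv.restrictNormal_commutes ρ F x).symm
  rw [h, h]

theorem glInfl₁_mul (x y : (F ≃ₐ[K] F) → Fˣ) :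
    glInfl₁ K F F' (x * y) = glInfl₁ K F F' x * glInfl₁ K F F' y := by
  funext σ
  simp only [glInfl₁_apply, Pi.mul_apply, map_mul]

theorem glInfl₁_div (x y : (F ≃ₐ[K] F) → Fˣ) :
    glInfl₁ K F F' (x / y) = glInfl₁ K F F' x / glInfl₁ K F F' y := by
  funext σ
  simp only [glInfl₁_apply, Pi.div_apply, map_div]

theorem glInfl₁_pow (x : (F ≃ₐ[K] F) → Fˣ) (n : ℕ) :
    glInfl₁ K F F' (x ^ n) = glInfl₁ K F F' x ^ n := by
  funext σ
  simp only [glInfl₁_apply, Pi.pow_apply, map_pow]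

theorem glInfl₂_mul (x y : (F ≃ₐ[K] F) × (F ≃ₐ[K] F) → Fˣ) :
    glInfl₂ K F F' (x * y) = glInfl₂ K F F' x * glInfl₂ K F F' y := by
  funext ⟨σ, τ⟩
  simp only [glInfl₂_apply, Pi.mul_apply, map_mul]

theorem glInfl₂_div (x y : (F ≃ₐ[K] F) × (F ≃ₐ[K] F) → Fˣ) :
    glInfl₂ K F F' (x / y) = glInfl₂ K F F' x / glInfl₂ K F F' y := by
  funext ⟨σ, τ⟩
  simp only [glInfl₂_apply, Pi.div_apply, map_div]

theorem glInfl₂_pow (x : (F ≃ₐ[K] F) × (F ≃ₐ[K] F) → Fˣ) (n : ℕ) :
    glInfl₂ K F F' (x ^ n) = glInfl₂ K F F' x ^ n := by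
  funext ⟨σ, τ⟩
  simp only [glInfl₂_apply, Pi.pow_apply, map_pow]

theorem glInfl₃_pow (x : (F ≃ₐ[K] F) × (F ≃ₐ[K] F) × (F ≃ₐ[K] F) → Fˣ) (n : ℕ) :
    glInfl₃ K F F' (x ^ n) = glInfl₃ K F F' x ^ n := by
  funext ⟨σ, τ, ρ⟩
  simp only [glInfl₃_apply, Pi.pow_apply, map_pow]

theorem glInfl₁_glD0 (u : Fˣ) :
    glInfl₁ K F F' (glD0 u) = glD0 (Units.map (algebraMap F F' : F →* F') u) := by
  funext σ
  rw [glInfl₁_apply]
  simp only [glD0, map_div, glinfl_map_smul]

theorem glInfl₂_glD1 (x : (F ≃ₐ[K] F) → Fˣ) :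
    glInfl₂ K F F' (glD1 x) = glD1 (glInfl₁ K F F' x) := by
  funext ⟨σ, τ⟩
  rw [glInfl₂_apply]
  simp only [glD1, map_div, map_mul, glinfl_map_smul, glInfl₁_apply]

theorem glInfl₃_glD2 (c : (F ≃ₐ[K] F) × (F ≃ₐ[K] F) → Fˣ) :
    glInfl₃ K F F' (glD2 c) = glD2 (glInfl₂ K F F' c) := by
  funext ⟨σ, τ, ρ⟩
  rw [glInfl₃_apply]
  simp only [glD2, map_div, map_mul, glinfl_map_smul, glInfl₂_apply]

theorem glInfl₂_isMulCocycle₂ (c : (F ≃ₐ[K] F) × (F ≃ₐ[K] F) → Fˣ) (hc : IsMulCocycle₂ c) :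
    IsMulCocycle₂ (glInfl₂ K F F' c) := by
  intro σ τ ρ
  have h := congrArg (Units.map (algebraMap F F' : F →* F'))
    (hc (AlgEquiv.restrictNormalHom F σ) (AlgEquiv.restrictNormalHom F τ)
      (AlgEquiv.restrictNormalHom F ρ))
  simp only [map_mul, glinfl_map_smul] at h
  simp only [glInfl₂_apply, map_mul]
  exact h

theorem glInfl₃_isMulCocycle₃ (f : (F ≃ₐ[K] F) × (F ≃ₐ[K] F) × (F ≃ₐ[K] F) → Fˣ)
    (hf : IsMulCocycle₃ f) : IsMulCocycle₃ (glInfl₃ K F F' f) := by
  intro σ τ ρ υ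
  have h := congrArg (Units.map (algebraMap F F' : F →* F'))
    (hf (AlgEquiv.restrictNormalHom F σ) (AlgEquiv.restrictNormalHom F τ)
      (AlgEquiv.restrictNormalHom F ρ) (AlgEquiv.restrictNormalHom F υ))
  simp only [map_mul, glinfl_map_smul] at h
  simp only [glInfl₃_apply, map_mul]
  exact h

theorem glInfl₂_muValued (p : ℕ) (c : (F ≃ₐ[K] F) × (F ≃ₐ[K] F) → Fˣ) (hc : GlMuValued p c) :
    GlMuValued p (glInfl₂ K F F' c) := by
  rintro ⟨σ, τ⟩
  rw [glInfl₂_apply, ← map_pow, hc, map_one]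

theorem glInfl₃_muValued (p : ℕ) (f : (F ≃ₐ[K] F) × (F ≃ₐ[K] F) × (F ≃ₐ[K] F) → Fˣ)
    (hf : GlMuValued p f) : GlMuValued p (glInfl₃ K F F' f) := by
  rintro ⟨σ, τ, ρ⟩
  rw [glInfl₃_apply, ← map_pow, hf, map_one]

/-- restriction in a tower -/
theorem glinfl_restrictNormalHom_trans (F'' : Type) [Field F''] [Algebra K F''] [Algebra F F'']
    [Algebra F' F''] [IsScalarTower K F F''] [IsScalarTower K F' F''] [IsScalarTower F F' F'']
    [Normal K F'] (σ : F'' ≃ₐ[K] F'') :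
    AlgEquiv.restrictNormalHom F (AlgEquiv.restrictNormalHom F' σ) =
      AlgEquiv.restrictNormalHom F σ := by
  ext x
  apply (algebraMap F F'').injective
  have h1 : algebraMap F F'' (AlgEquiv.restrictNormalHom F σ x) = σ (algebraMap F F'' x) :=
    AlgEquiv.restrictNormal_commutes σ F x
  rw [h1, IsScalarTower.algebraMap_apply F F' F'', IsScalarTower.algebraMap_apply F F' F'']
  have h2 : algebraMap F F'
      (AlgEquiv.restrictNormalHom F (AlgEquiv.restrictNormalHom F' σ) x) =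
      (AlgEquiv.restrictNormalHom F' σ) (algebraMap F F' x) :=
    AlgEquiv.restrictNormal_commutes (AlgEquiv.restrictNormalHom F' σ) F x
  rw [h2]
  exact AlgEquiv.restrictNormal_commutes σ F' (algebraMap F F' x)

theorem glinfl_map_map (F'' : Type) [Field F''] [Algebra F F''] [Algebra F' F'']
    [IsScalarTower F F' F''] (u : Fˣ) :
    Units.map (algebraMap F' F'' : F' →* F'') (Units.map (algebraMap F F' : F →* F') u) =
      Units.map (algebraMap F F'' : F →* F'') u := by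
  apply Units.ext
  exact (IsScalarTower.algebraMap_apply F F' F'' (u : F)).symm

/-- transitivity of inflation in a tower `K ⊆ F ⊆ F' ⊆ F''`. -/
theorem glInfl₁_trans (F'' : Type) [Field F''] [Algebra K F''] [Algebra F F''] [Algebra F' F'']
    [IsScalarTower K F F''] [IsScalarTower K F' F''] [IsScalarTower F F' F''] [Normal K F']
    (x : (F ≃ₐ[K] F) → Fˣ) :
    glInfl₁ K F' F'' (glInfl₁ K F F' x) = glInfl₁ K F F'' x := by
  funext σ
  rw [glInfl₁_apply, glInfl₁_apply, glInfl₁_apply, glinfl_map_map,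
    glinfl_restrictNormalHom_trans]

theorem glInfl₂_trans (F'' : Type) [Field F''] [Algebra K F''] [Algebra F F''] [Algebra F' F'']
    [IsScalarTower K F F''] [IsScalarTower K F' F''] [IsScalarTower F F' F''] [Normal K F']
    (c : (F ≃ₐ[K] F) × (F ≃ₐ[K] F) → Fˣ) :
    glInfl₂ K F' F'' (glInfl₂ K F F' c) = glInfl₂ K F F'' c := by
  funext ⟨σ, τ⟩
  rw [glInfl₂_apply, glInfl₂_apply, glInfl₂_apply, glinfl_map_map,
    glinfl_restrictNormalHom_trans, glinfl_restrictNormalHom_trans]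

theorem glInfl₃_trans (F'' : Type) [Field F''] [Algebra K F''] [Algebra F F''] [Algebra F' F'']
    [IsScalarTower K F F''] [IsScalarTower K F' F''] [IsScalarTower F F' F''] [Normal K F']
    (f : (F ≃ₐ[K] F) × (F ≃ₐ[K] F) × (F ≃ₐ[K] F) → Fˣ) :
    glInfl₃ K F' F'' (glInfl₃ K F F' f) = glInfl₃ K F F'' f := by
  funext ⟨σ, τ, ρ⟩
  rw [glInfl₃_apply, glInfl₃_apply, glInfl₃_apply, glinfl_map_map,
    glinfl_restrictNormalHom_trans, glinfl_restrictNormalHom_trans,
    glinfl_restrictNormalHom_trans]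

end Infl

section Cochain

variable {G : Type} [Group G] {X : Type} [CommGroup X] [MulDistribMulAction G X]

theorem glD1_mul (x y : G → X) : glD1 (x * y) = glD1 x * glD1 y := by
  funext ⟨g, h⟩
  simp only [glD1, Pi.mul_apply, smul_mul']
  apply Additive.ofMul.injective
  simp only [ofMul_mul, ofMul_div]
  abel

theorem glD1_div (x y : G → X) : glD1 (x / y) = glD1 x / glD1 y := by
  funext ⟨g, h⟩
  simp only [glD1, Pi.div_apply, smul_div']
  apply Additive.ofMul.injective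
  simp only [ofMul_mul, ofMul_div]
  abel

theorem glD1_pow (x : G → X) (n : ℕ) : glD1 (x ^ n) = glD1 x ^ n := by
  funext ⟨g, h⟩
  simp only [glD1, Pi.pow_apply, smul_pow']
  rw [mul_pow, div_pow]

theorem glD2_mul (x y : G × G → X) : glD2 (x * y) = glD2 x * glD2 y := by
  funext ⟨g, h, j⟩
  simp only [glD2, Pi.mul_apply, smul_mul']
  apply Additive.ofMul.injective
  simp only [ofMul_mul, ofMul_div]
  abel

theorem glD2_div (x y : G × G → X) : glD2 (x / y) = glD2 x / glD2 y := by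
  funext ⟨g, h, j⟩
  simp only [glD2, Pi.div_apply, smul_div']
  apply Additive.ofMul.injective
  simp only [ofMul_mul, ofMul_div]
  abel

theorem glD2_pow (x : G × G → X) (n : ℕ) : glD2 (x ^ n) = glD2 x ^ n := by
  funext ⟨g, h, j⟩
  simp only [glD2, Pi.pow_apply, smul_pow']
  rw [div_pow, mul_pow, div_pow]

theorem glD1_glD0 (u : X) : glD1 (glD0 (G := G) u) = 1 := by
  funext ⟨g, h⟩
  simp only [glD1, glD0, Pi.one_apply, smul_div', mul_smul]
  apply Additive.ofMul.injective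
  simp only [ofMul_mul, ofMul_div, ofMul_one]
  abel

theorem glD2_glD1 (x : G → X) : glD2 (glD1 x) = 1 := by
  funext ⟨g, h, j⟩
  simp only [glD2, glD1, Pi.one_apply, smul_div', smul_mul', mul_smul, mul_assoc]
  apply Additive.ofMul.injective
  simp only [ofMul_mul, ofMul_div, ofMul_one]
  abel

theorem isMulCocycle₂_iff_glD2 (c : G × G → X) : IsMulCocycle₂ c ↔ glD2 c = 1 := by
  have key : ∀ g h j : G, glD2 c (g, h, j) = 1 ↔
      c (g * h, j) * c (g, h) = g • c (h, j) * c (g, h * j) := by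
    intro g h j
    simp only [glD2]
    rw [div_eq_one, div_mul_eq_mul_div, div_eq_iff_eq_mul, eq_comm, mul_comm (c (g, h))]
  constructor
  · intro hc
    funext ⟨g, h, j⟩
    exact (key g h j).mpr (hc g h j)
  · intro hc g h j
    exact (key g h j).mp (congrFun hc (g, h, j))

theorem isMulCocycle₃_glD2 (c : G × G → X) : IsMulCocycle₃ (glD2 c) := by
  intro g h j l
  simp only [glD2, smul_div', smul_mul', mul_smul, mul_assoc]
  apply Additive.ofMul.injective
  simp only [ofMul_mul, ofMul_div]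
  abel

end Cochain

end Fermat.Agent.S55
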