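import Fermat.Agent.S55.Global.CoreFinDefs
import Fermat.Agent.S55.LG.PlaceSpec
import Fermat.Agent.S55.LG.ExistsSpec

/-!
# S55 / Global, leaf GU-0: `GlUnramOutside` in local terms
-/

set_option autoImplicit false
set_option linter.unusedSectionVars false
set_option linter.unusedVariables false

noncomputable section

namespace Fermat.Agent.S55

open scoped NumberField
open NumberField IsDedekindDomain groupCohomology

section UnramLoc

variable (S : Finset Nat.Primes) {K F : Type} [Field K] [NumberField K] [Field F] [NumberField F]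
  [Algebra K F]

/-- two distinct rational primes cannot lie in the same proper ideal -/
theorem glul_eq_of_mem {ℓ ℓ' : ℕ} (hℓ : ℓ.Prime) (hℓ' : ℓ'.Prime) (I : Ideal (𝓞 F))
    (hI : I ≠ ⊤) (h1 : ((ℓ : ℕ) : 𝓞 F) ∈ I) (h2 : ((ℓ' : ℕ) : 𝓞 F) ∈ I) : ℓ = ℓ' := by
  by_contra hne
  have hcop : Nat.Coprime ℓ ℓ' := (Nat.coprime_primes hℓ hℓ').mpr hne
  have hbez : (ℓ : ℤ) * Nat.gcdA ℓ ℓ' + (ℓ' : ℤ) * Nat.gcdB ℓ ℓ' = 1 := by
    have := Nat.gcd_eq_gcd_ab ℓ ℓ'
    rw [hcop.gcd_eq_one] at this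
    exact_mod_cast this.symm
  have hone : (1 : 𝓞 F) ∈ I := by
    have h3 : ((ℓ : ℕ) : 𝓞 F) * ((Nat.gcdA ℓ ℓ' : ℤ) : 𝓞 F) +
        ((ℓ' : ℕ) : 𝓞 F) * ((Nat.gcdB ℓ ℓ' : ℤ) : 𝓞 F) ∈ I :=
      I.add_mem (I.mul_mem_right _ h1) (I.mul_mem_right _ h2)
    have h4 : ((ℓ : ℕ) : 𝓞 F) * ((Nat.gcdA ℓ ℓ' : ℤ) : 𝓞 F) +
        ((ℓ' : ℕ) : 𝓞 F) * ((Nat.gcdB ℓ ℓ' : ℤ) : 𝓞 F) = 1 := by
      have := congrArg (fun z : ℤ => (z : 𝓞 F)) hbez
      simp only [Int.cast_add, Int.cast_mul, Int.cast_natCast, Int.cast_one] at this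
      exact this
    rw [h4] at h3
    exact h3
  exact hI ((Ideal.eq_top_iff_one _).mpr hone)

/-- the rational prime below `lgPlace q j` is `q`: a place induced by a `q`-adic embedding, `q ∉ S`,
is not above `S`. -/
theorem gl_not_glAbove_lgPlace (q : ℕ) [Fact q.Prime] (hq : ∀ s ∈ S, ((s : Nat.Primes) : ℕ) ≠ q)
    (j : F →+* PadicAlgCl q) : ¬ GlAbove S F (lgPlace q j) := by
  rintro ⟨s, hs, hmem⟩
  apply hq s hs
  exact glul_eq_of_mem s.2 (Fact.out : q.Prime) (lgPlace q j).asIdeal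
    (lgPlace q j).isPrime.ne_top hmem (natCast_mem_lgIdeal q j)

/-- conversely a place not above `S` is induced by a `q`-adic embedding with `q ∉ S`. -/
theorem gl_exists_lgPlace_eq (w : HeightOneSpectrum (𝓞 F)) (hw : ¬ GlAbove S F w) :
    ∃ (q : ℕ) (_ : Fact q.Prime) (j : F →+* PadicAlgCl q),
      (∀ s ∈ S, ((s : Nat.Primes) : ℕ) ≠ q) ∧ lgPlace q j = w := by
  have : NeZero w.asIdeal := ⟨w.ne_bot⟩
  have hp : (Ideal.absNorm (w.asIdeal.under ℤ)).Prime := Nat.absNorm_under_prime w.asIdeal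
  have hmem : ((Ideal.absNorm (w.asIdeal.under ℤ) : ℕ) : 𝓞 F) ∈ w.asIdeal :=
    Int.absNorm_under_mem w.asIdeal
  have hfact : Fact (Ideal.absNorm (w.asIdeal.under ℤ)).Prime := ⟨hp⟩
  obtain ⟨j, hj⟩ := exists_lgEmb (Ideal.absNorm (w.asIdeal.under ℤ)) w hmem
  refine ⟨Ideal.absNorm (w.asIdeal.under ℤ), hfact, j, ?_, hj⟩
  intro s hs hsq
  apply hw
  refine ⟨s, hs, ?_⟩
  rw [hsq]
  exact hmem

/-- an `S`-field is locally unramified at all embeddings outside `S`. -/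
theorem gl_lfUnramified_of_unramOutside (hur : GlUnramOutside S K F) (q : ℕ) [Fact q.Prime]
    (hq : ∀ s ∈ S, ((s : Nat.Primes) : ℕ) ≠ q) (j : F →+* PadicAlgCl q) :
    LfUnramified q (lgField q (j.comp (algebraMap K F))) (lgField q j) := by
  have hP : (lgPlace q j).asIdeal.IsPrime := (lgPlace q j).isPrime
  have hnot : ∀ s ∈ S, (((s : Nat.Primes) : ℕ) : 𝓞 F) ∉ (lgPlace q j).asIdeal := by
    intro s hs hmem
    exact gl_not_glAbove_lgPlace S q hq j ⟨s, hs, hmem⟩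
  have hunr : Algebra.IsUnramifiedAt (𝓞 K) (lgPlace q j).asIdeal :=
    hur (lgPlace q j).asIdeal (lgPlace q j).ne_bot hnot
  unfold LfUnramified
  rw [lfRamIdx_lgField]
  exact Ideal.ramificationIdx_eq_one (lgPlace q j).asIdeal (𝓞 K)

/-- and conversely. -/
theorem gl_unramOutside_of_lfUnramified
    (h : ∀ (q : ℕ) [Fact q.Prime], (∀ s ∈ S, ((s : Nat.Primes) : ℕ) ≠ q) →
      ∀ j : F →+* PadicAlgCl q, LfUnramified q (lgField q (j.comp (algebraMap K F))) (lgField q j)) :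
    GlUnramOutside S K F := by
  intro P hP hP0 hPS
  have hw : ¬ GlAbove S F ⟨P, hP, hP0⟩ := by
    rintro ⟨s, hs, hmem⟩
    exact hPS s hs hmem
  obtain ⟨q, hq, j, hqS, hj⟩ := gl_exists_lgPlace_eq S ⟨P, hP, hP0⟩ hw
  have h1 : lfRamIdx q (lgField q (j.comp (algebraMap K F))) (lgField q j) = 1 := h q hqS j
  rw [lfRamIdx_lgField, hj] at h1
  exact Ideal.ramificationIdx_eq_one_iff.mp h1

/-- the valuation of `TowerDefs`/`ObSpec` (`WithZero.log` of the adic valuation) in terms of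
`glOrdAt`: they agree up to sign when `F_j / ℚ_q`... in general up to the sign only:
`log (w.valuation x) = - ord_j x` for `w = lgPlace q j`. -/
theorem gl_log_valuation_eq (q : ℕ) [Fact q.Prime] (j : F →+* PadicAlgCl q) (x : Fˣ) :
    WithZero.log ((lgPlace q j).valuation F ((x : Fˣ) : F)) = - glOrdAt q j x := by
  rw [lg_valuation_eq q j (x : F) x.ne_zero, WithZero.log_exp]
  rfl

end UnramLoc

end Fermat.Agent.S55
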