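import Fermat.Agent.S55.Global.H3MuAux

/-!
# S55 / Global, GU-6 first half: the first correction (steps (a)-(e) of `gl_h3_mu_vanish`)

`gl_h3_mu_first`: for a `μ_p`-valued `3`-cocycle `f` of an `S`-field `F / K` there are an `S`-field
`F₂ ⊇ F`, a `2`-cochain `e₂` and a `1`-cochain `g₂` of `Gal(F₂/K)` with `d² e₂ = infl f` and
`e₂ ^ p = d¹ g₂`.

(a) `gl_h3_vanish` (U1): `infl f = d² e₀` over an `S`-field `F₁`.  (b) `h3mf_stepB`: a power `e` of
`e₀` with `d² e = infl f` such that `b = e ^ p` is a cocycle of `p`-power order.  (c) the invariants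
`β v` of `b` have finite support, sum `0` (`ge_reciprocity_of_pow`) and are `p`-primary.
(d) `h3mf_exists_div`: `β = p β'` with `∑ β' = 0`; a cyclic layer `L` (`gl_exists_cyclic_layer`) and
`ge_realise` give `c₁ = cyc(σ, a₁)` with invariants `β'`.  (e) over the compositum `F₂` of `F₁` and
`L` the cocycle `infl b / (infl c₁) ^ p` has all invariants `0`, hence is `d¹ g₂`
(`ge_hasse_principle_of_pow`); `e₂ := infl e / infl c₁`.
-/

set_option autoImplicit false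
set_option linter.style.haveILetI false

noncomputable section

namespace Fermat.Agent.S55

open scoped NumberField
open NumberField IsDedekindDomain groupCohomology

theorem h3mf_addCircle_divisible (p : ℕ) (hp : p ≠ 0) (x : AddCircle (1 : ℚ)) :
    ∃ y : AddCircle (1 : ℚ), p • y = x := by
  obtain ⟨q, rfl⟩ := QuotientAddGroup.mk_surjective x
  refine ⟨((q / p : ℚ) : AddCircle (1 : ℚ)), ?_⟩
  rw [← AddCircle.coe_nsmul, nsmul_eq_mul]
  congr 1
  field_simp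

/-- division by `p` of a finitely supported family of `p`-primary elements of `ℚ/ℤ` with sum `0`,
keeping the sum `0` -/
theorem h3mf_exists_div {V : Type*} (p : ℕ) (hp : p ≠ 0) (s : ℕ) (β : V → AddCircle (1 : ℚ))
    (hfin : (Function.support β).Finite) (hsum : ∑ᶠ v, β v = 0) (hs : ∀ v, p ^ s • β v = 0) :
    ∃ β' : V → AddCircle (1 : ℚ), (Function.support β').Finite ∧ (∀ v, p • β' v = β v) ∧
      ∑ᶠ v, β' v = 0 ∧ ∀ v, p ^ (s + 1) • β' v = 0 := by
  classical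
  by_cases h0 : ∀ v, β v = 0
  · refine ⟨fun _ => 0, ?_, ?_, ?_, ?_⟩
    · simp [Function.support]
    · intro v
      rw [h0 v, smul_zero]
    · simp
    · intro v
      rw [smul_zero]
  push Not at h0
  obtain ⟨v0, hv0⟩ := h0
  choose y hy using fun v => h3mf_addCircle_divisible p hp (β v)
  set y' : V → AddCircle (1 : ℚ) := fun v => if β v = 0 then 0 else y v with hy'def
  have hy' : ∀ v, p • y' v = β v := by
    intro v
    by_cases h : β v = 0
    · simp [hy'def, h]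
    · simp [hy'def, h, hy v]
  set T : Finset V := hfin.toFinset with hT
  have hv0T : v0 ∈ T := by
    rw [hT, Set.Finite.mem_toFinset]
    exact hv0
  have hy'supp : ∀ v, v ∉ T → y' v = 0 := by
    intro v hv
    have : β v = 0 := by
      by_contra h
      exact hv (by rw [hT, Set.Finite.mem_toFinset]; exact h)
    simp [hy'def, this]
  set β' : V → AddCircle (1 : ℚ) :=
    fun v => if v = v0 then - ∑ u ∈ T.erase v0, y' u else y' v with hβ'def
  have hβ'supp : Function.support β' ⊆ (T : Set V) := by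
    intro v hv
    by_contra hvT
    apply hv
    have hne : v ≠ v0 := fun h => hvT (h ▸ hv0T)
    simp only [hβ'def, if_neg hne]
    exact hy'supp v hvT
  have hsumβ : ∑ u ∈ T, β u = 0 := by
    rw [← hsum]
    symm
    apply finsum_eq_sum_of_support_subset
    rw [hT, Set.Finite.coe_toFinset]
  have hpβ' : ∀ v, p • β' v = β v := by
    intro v
    by_cases h : v = v0
    · subst h
      simp only [hβ'def, if_true]
      rw [smul_neg, Finset.smul_sum]
      have h1 : ∑ u ∈ T.erase v, p • y' u = ∑ u ∈ T.erase v, β u :=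
        Finset.sum_congr rfl fun u _ => hy' u
      rw [h1]
      have h2 := Finset.add_sum_erase T β hv0T
      rw [hsumβ] at h2
      rw [neg_eq_iff_add_eq_zero, add_comm]
      exact h2
    · simp only [hβ'def, if_neg h]
      exact hy' v
  refine ⟨β', (T.finite_toSet).subset hβ'supp, hpβ', ?_, ?_⟩
  · rw [finsum_eq_sum_of_support_subset _ hβ'supp, ← Finset.add_sum_erase T β' hv0T]
    have h1 : ∑ u ∈ T.erase v0, β' u = ∑ u ∈ T.erase v0, y' u := by
      refine Finset.sum_congr rfl fun u hu => ?_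
      have hne : u ≠ v0 := (Finset.mem_erase.1 hu).1
      simp only [hβ'def, if_neg hne]
    rw [h1]
    simp only [hβ'def, if_true]
    exact neg_add_cancel _
  · intro v
    rw [pow_succ, mul_smul, hpβ' v, hs v]

section StepB

variable {G : Type} [Group G] [Finite G] {X : Type} [CommGroup X] [MulDistribMulAction G X]

/-- step (b): replace a `2`-cochain `e₀` with `d² e₀ = f₃` (`f₃` `μ_p`-valued) by a power `e` with the
same coboundary whose `p`-th power is a cocycle of `p`-power order. -/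
theorem h3mf_stepB {p : ℕ} [Fact p.Prime] (e₀ : G × G → X) (f₃ : G × G × G → X)
    (he₀ : glD2 e₀ = f₃) (hμ : GlMuValued p f₃) :
    ∃ (s : ℕ) (e : G × G → X), glD2 e = f₃ ∧ IsMulCocycle₂ (e ^ p) ∧
      IsMulCoboundary₂ ((e ^ p) ^ p ^ s) := by
  have hp : p.Prime := Fact.out
  have hn0 : Nat.card G ≠ 0 := Nat.card_pos.ne'
  obtain ⟨s, n', hn', hn⟩ := Nat.exists_eq_pow_mul_and_not_dvd hn0 p hp.ne_one
  -- `N = n'^(p-1) ≡ 1 mod p`
  set N : ℕ := n' ^ (p - 1) with hN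
  have hNmod : (N : ZMod p) = 1 := by
    rw [hN, Nat.cast_pow]
    apply ZMod.pow_card_sub_one_eq_one
    rwa [Ne, ZMod.natCast_eq_zero_iff]
  have hN1 : 1 ≤ N := Nat.one_le_iff_ne_zero.2 (pow_ne_zero _ (fun h => hn' (h ▸ dvd_zero p)))
  obtain ⟨t, ht⟩ : ∃ t, N = p * t + 1 := by
    have h1 : N ≡ 1 [MOD p] := by
      rw [← ZMod.natCast_eq_natCast_iff, hNmod, Nat.cast_one]
    obtain ⟨t, ht⟩ := (Nat.modEq_iff_dvd' hN1).1 h1.symm
    exact ⟨t, by omega⟩
  have hf3p : f₃ ^ p = 1 := funext fun a => hμ a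
  have hf3N : f₃ ^ N = f₃ := by
    rw [ht, pow_succ, pow_mul, hf3p, one_pow, one_mul]
  -- the cocycle `b₀ = e₀ ^ p`
  have hb₀ : IsMulCocycle₂ (e₀ ^ p) := by
    rw [isMulCocycle₂_iff_glD2, glD2_pow, he₀, hf3p]
  refine ⟨s, e₀ ^ N, ?_, ?_, ?_⟩
  · rw [glD2_pow, he₀, hf3N]
  · rw [← pow_mul, mul_comm, pow_mul]
    exact gei_coc_pow hb₀ N
  · have h1 : ((e₀ ^ N) ^ p) ^ p ^ s = ((e₀ ^ p) ^ Nat.card G) ^ n' ^ (p - 2) := by
      rw [← pow_mul, ← pow_mul, ← pow_mul, ← pow_mul]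
      congr 1
      rw [hn, hN]
      have h2 : p - 1 = (p - 2) + 1 := by have := hp.two_le; omega
      rw [h2, pow_succ]
      ring
    rw [h1]
    exact gei_cob_pow (isMulCoboundary₂_pow_card G X _ hb₀) _

end StepB

/-- inflation of a coboundary is a coboundary -/
theorem h3mf_glInfl₂_cob (K F F' : Type) [Field K] [Field F] [Field F'] [Algebra K F]
    [Algebra F F'] [Algebra K F'] [IsScalarTower K F F'] [Normal K F]
    {c : (F ≃ₐ[K] F) × (F ≃ₐ[K] F) → Fˣ} (hc : IsMulCoboundary₂ c) :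
    IsMulCoboundary₂ (glInfl₂ K F F' c) := by
  obtain ⟨x, rfl⟩ := (isMulCoboundary₂_iff_glD1 c).1 hc
  rw [glInfl₂_glD1]
  exact (isMulCoboundary₂_iff_glD1 _).2 ⟨_, rfl⟩

theorem gl_h3_mu_first {p : ℕ} [Fact p.Prime] (hp2 : p ≠ 2) (S : Finset Nat.Primes)
    (hpS : ∃ q ∈ S, ((q : Nat.Primes) : ℕ) = p)
    (K F : Type) [Field K] [NumberField K] [Field F] [NumberField F] [Algebra K F] [IsGalois K F]
    (hζ : ∃ ζ : K, IsPrimitiveRoot ζ p) (hur : GlUnramOutside S K F)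
    (f : (F ≃ₐ[K] F) × (F ≃ₐ[K] F) × (F ≃ₐ[K] F) → Fˣ) (hf : IsMulCocycle₃ f)
    (hμ : GlMuValued p f) :
    ∃ (F₂ : Type) (_ : Field F₂) (_ : NumberField F₂) (_ : Algebra K F₂) (_ : Algebra F F₂)
      (_ : IsScalarTower K F F₂) (_ : IsGalois K F₂),
      GlUnramOutside S K F₂ ∧
      ∃ (e₂ : (F₂ ≃ₐ[K] F₂) × (F₂ ≃ₐ[K] F₂) → F₂ˣ) (g₂ : (F₂ ≃ₐ[K] F₂) → F₂ˣ),
        glD2 e₂ = glInfl₃ K F F₂ f ∧ e₂ ^ p = glD1 g₂ := by
  have hp : p.Prime := Fact.out
  obtain ⟨ζ, hζ'⟩ := hζ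
  -- (a)
  have hfp : IsMulCoboundary₃ (f ^ p ^ 1) := by
    rw [pow_one]
    have h1 : f ^ p = 1 := funext fun a => hμ a
    rw [h1]
    exact ⟨1, fun g h j => by simp⟩
  obtain ⟨F₁, iF₁, iNF₁, iA₁, iAF₁, iST₁, iG₁, hur₁, hcob⟩ :=
    gl_h3_vanish hp2 S hpS K F ⟨ζ, hζ'⟩ hur f hf 1 hfp
  obtain ⟨e₀, he₀⟩ := (isMulCoboundary₃_iff_glD2 _).1 hcob
  -- (b)
  obtain ⟨s, e, he, hbcoc, hbpow⟩ :=
    h3mf_stepB (p := p) e₀ _ he₀ (glInfl₃_muValued K F F₁ p f hμ)
  -- (c)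
  obtain ⟨𝔧₁⟩ := geChoice_nonempty (K := K) (L := F₁)
  obtain ⟨hβfin, hβsum⟩ := ge_reciprocity_of_pow hp2 hζ' (e ^ p) hbcoc s hbpow 𝔧₁
  have hβs : ∀ v : HeightOneSpectrum (𝓞 K),
      p ^ s • geInv (gePrime K v) (𝔧₁.emb v) (e ^ p) = 0 := by
    intro v
    rw [← geInv_pow _ _ hbcoc]
    exact geInv_eq_zero_of_isMulCoboundary₂ _ _ (gei_coc_pow hbcoc _) hbpow
  -- (d)
  obtain ⟨β', hβ'fin, hβ'p, hβ'sum, hβ's⟩ := h3mf_exists_div p hp.ne_zero s _ hβfin hβsum hβs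
  obtain ⟨L, iL, iNL, iAL, iGL, m, σ, hurL, hdegL, hσ, hlocdeg⟩ :=
    gl_exists_cyclic_layer hp2 S hpS K ⟨ζ, hζ'⟩ hβ'fin.toFinset (s + 1)
  obtain ⟨𝔧L⟩ := geChoice_nonempty (K := K) (L := L)
  have hloc' : ∀ v : HeightOneSpectrum (𝓞 K),
      Module.finrank (lgField (gePrime K v) ((𝔧L.emb v).comp (algebraMap K L)))
        (lgField (gePrime K v) (𝔧L.emb v)) • β' v = 0 := by
    intro v
    by_cases hv : v ∈ hβ'fin.toFinset
    · obtain ⟨t, ht⟩ := hlocdeg (gePrime K v) (𝔧L.emb v) (by rw [𝔧L.place_eq v]; exact hv)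
      rw [ht, mul_comm, mul_smul, hβ's v, smul_zero]
    · have : β' v = 0 := by
        by_contra h
        exact hv (by rw [Set.Finite.mem_toFinset]; exact h)
      rw [this, smul_zero]
  obtain ⟨a₁, ha₁⟩ := ge_realise hp2 hdegL hζ' σ hσ 𝔧L β' hβ'fin hloc' hβ'sum
  have hc₁ : IsMulCocycle₂ (cycCocycle σ (Units.map (algebraMap K L : K →* L) a₁)) :=
    cycCocycle_isMulCocycle₂ σ hσ _ (Units.ext (σ.commutes _))
  have hc₁pow : IsMulCoboundary₂
      (cycCocycle σ (Units.map (algebraMap K L : K →* L) a₁) ^ p ^ m) := by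
    have h1 := isMulCoboundary₂_pow_card (L ≃ₐ[K] L) Lˣ _ hc₁
    rwa [IsGalois.card_aut_eq_finrank, hdegL] at h1
  -- (e)
  obtain ⟨F₂, iF₂, iNF₂, iA₂, iA₁₂, iAL₂, iST₁₂, iSTL₂, iG₂, hur₂⟩ :=
    gl_exists_compositum S K F₁ L hur₁ hurL
  letI iAF₂ : Algebra F F₂ := ((algebraMap F₁ F₂).comp (algebraMap F F₁)).toAlgebra
  haveI iSTF₁₂ : IsScalarTower F F₁ F₂ := IsScalarTower.of_algebraMap_eq (fun _ => rfl)
  haveI iSTKF₂ : IsScalarTower K F F₂ := IsScalarTower.of_algebraMap_eq (fun x => by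
    show algebraMap K F₂ x = algebraMap F₁ F₂ (algebraMap F F₁ (algebraMap K F x))
    rw [← IsScalarTower.algebraMap_apply K F F₁, ← IsScalarTower.algebraMap_apply K F₁ F₂])
  refine ⟨F₂, iF₂, iNF₂, iA₂, iAF₂, iSTKF₂, iG₂, hur₂, ?_⟩
  have hbI : IsMulCocycle₂ (glInfl₂ K F₁ F₂ (e ^ p)) := glInfl₂_isMulCocycle₂ K F₁ F₂ _ hbcoc
  have hcI : IsMulCocycle₂
      (glInfl₂ K L F₂ (cycCocycle σ (Units.map (algebraMap K L : K →* L) a₁))) :=
    glInfl₂_isMulCocycle₂ K L F₂ _ hc₁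
  have hb₂ : IsMulCocycle₂ (glInfl₂ K F₁ F₂ (e ^ p) /
      glInfl₂ K L F₂ (cycCocycle σ (Units.map (algebraMap K L : K →* L) a₁)) ^ p) :=
    lbu_coc_div hbI (gei_coc_pow hcI p)
  -- `p`-primary
  have hb₂pow : IsMulCoboundary₂ ((glInfl₂ K F₁ F₂ (e ^ p) /
      glInfl₂ K L F₂ (cycCocycle σ (Units.map (algebraMap K L : K →* L) a₁)) ^ p) ^
        p ^ (s + m)) := by
    rw [div_pow]
    apply lbu_cob_div
    · rw [pow_add, pow_mul, ← glInfl₂_pow]
      exact gei_cob_pow (h3mf_glInfl₂_cob K F₁ F₂ hbpow) _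
    · have h1 : (glInfl₂ K L F₂ (cycCocycle σ (Units.map (algebraMap K L : K →* L) a₁)) ^ p) ^
          p ^ (s + m) =
          (glInfl₂ K L F₂ (cycCocycle σ (Units.map (algebraMap K L : K →* L) a₁) ^ p ^ m)) ^
            p ^ (s + 1) := by
        rw [glInfl₂_pow, ← pow_mul, ← pow_mul]
        congr 1
        ring
      rw [h1]
      exact gei_cob_pow (h3mf_glInfl₂_cob K L F₂ hc₁pow) _
  -- locally trivial
  have hloc₂ : ∀ (q : ℕ) [Fact q.Prime] (J : F₂ →+* PadicAlgCl q),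
      IsMulCoboundary₂ (geLocLG q J (glInfl₂ K F₁ F₂ (e ^ p) /
        glInfl₂ K L F₂ (cycCocycle σ (Units.map (algebraMap K L : K →* L) a₁)) ^ p)) := by
    intro q _ J
    rw [← geInv_eq_zero_iff q J hb₂, geInv_div q J hbI (gei_coc_pow hcI p), geInv_pow q J hcI]
    have h1 : geInv q J (glInfl₂ K F₁ F₂ (e ^ p)) =
        geInv q (J.comp (algebraMap F₁ F₂)) (e ^ p) := by
      rw [glInfl₂_eq_lfBC]
      exact geInv_inflation q J hbcoc
    have h2 : geInv q J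
        (glInfl₂ K L F₂ (cycCocycle σ (Units.map (algebraMap K L : K →* L) a₁))) =
        geInv q (J.comp (algebraMap L F₂))
          (cycCocycle σ (Units.map (algebraMap K L : K →* L) a₁)) := by
      rw [glInfl₂_eq_lfBC]
      exact geInv_inflation q J hc₁
    have hv1 : (J.comp (algebraMap F₁ F₂)).comp (algebraMap K F₁) =
        J.comp (algebraMap K F₂) := by
      rw [RingHom.comp_assoc, ← IsScalarTower.algebraMap_eq]
    have hv2 : (J.comp (algebraMap L F₂)).comp (algebraMap K L) =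
        J.comp (algebraMap K F₂) := by
      rw [RingHom.comp_assoc, ← IsScalarTower.algebraMap_eq]
    rw [h1, h2, geInv_eq_choice q 𝔧₁ _ hbcoc, geInv_eq_choice q 𝔧L _ hc₁, hv1, hv2, ha₁,
      hβ'p, sub_self]
  obtain ⟨g₂, hg₂⟩ := (isMulCoboundary₂_iff_glD1 _).1
    (ge_hasse_principle_of_pow hp2 hζ' _ hb₂ (s + m) hb₂pow hloc₂)
  refine ⟨glInfl₂ K F₁ F₂ e /
    glInfl₂ K L F₂ (cycCocycle σ (Units.map (algebraMap K L : K →* L) a₁)), g₂, ?_, ?_⟩
  · rw [glD2_div, ← glInfl₃_glD2, he, (isMulCocycle₂_iff_glD2 _).1 hcI, div_one]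
    exact glInfl₃_trans K F F₁ F₂ f
  · rw [hg₂, div_pow, glInfl₂_pow]

end Fermat.Agent.S55
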