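import Fermat.Agent.S55.Global.ObKummerUnram

/-!
# S55 / Global, leaf GU-2: the compositum of two Galois `S`-fields over `K` is a Galois `S`-field

`M := φ₁(F₁) ⊔ φ₂(F₂)` inside `AlgebraicClosure K`.  Unramified outside `S` by the inertia-group
argument (shared with `Global/ObKummerUnram.lean`): an inertia element restricts to the trivial
inertia groups of `F₁` and `F₂`, hence is trivial.  Helper names are prefixed `globcomp`.
-/

set_option autoImplicit false
set_option linter.unusedSectionVars false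
set_option linter.overlappingInstances false

noncomputable section

namespace Fermat.Agent.S55

open scoped NumberField
open NumberField IsDedekindDomain

section Field

variable (K F₁ F₂ : Type) [Field K] [Field F₁] [Field F₂] [Algebra K F₁] [Algebra K F₂]
  [Algebra.IsAlgebraic K F₁] [Algebra.IsAlgebraic K F₂]

/-- a `K`-embedding of `F₁` into the algebraic closure of `K` -/
def globcompEmb₁ : F₁ →ₐ[K] AlgebraicClosure K := IsAlgClosed.lift

/-- a `K`-embedding of `F₂` into the algebraic closure of `K` -/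
def globcompEmb₂ : F₂ →ₐ[K] AlgebraicClosure K := IsAlgClosed.lift

/-- the compositum inside the algebraic closure of `K` -/
def globcompField : IntermediateField K (AlgebraicClosure K) :=
  (globcompEmb₁ K F₁).fieldRange ⊔ (globcompEmb₂ K F₂).fieldRange

theorem globcomp_mem₁ (x : F₁) : globcompEmb₁ K F₁ x ∈ globcompField K F₁ F₂ :=
  (le_sup_left : (globcompEmb₁ K F₁).fieldRange ≤ globcompField K F₁ F₂) ⟨x, rfl⟩

theorem globcomp_mem₂ (x : F₂) : globcompEmb₂ K F₂ x ∈ globcompField K F₁ F₂ :=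
  (le_sup_right : (globcompEmb₂ K F₂).fieldRange ≤ globcompField K F₁ F₂) ⟨x, rfl⟩

/-- the algebra structure of the compositum over `F₁` -/
@[instance_reducible] def globcompAlgebra₁ : Algebra F₁ (globcompField K F₁ F₂) :=
  ((globcompEmb₁ K F₁).codRestrict (globcompField K F₁ F₂).toSubalgebra
    (globcomp_mem₁ K F₁ F₂)).toRingHom.toAlgebra

/-- the algebra structure of the compositum over `F₂` -/
@[instance_reducible] def globcompAlgebra₂ : Algebra F₂ (globcompField K F₁ F₂) :=
  ((globcompEmb₂ K F₂).codRestrict (globcompField K F₁ F₂).toSubalgebra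
    (globcomp_mem₂ K F₁ F₂)).toRingHom.toAlgebra

theorem globcomp_isScalarTower₁ :
    @IsScalarTower K F₁ (globcompField K F₁ F₂) _ (globcompAlgebra₁ K F₁ F₂).toSMul _ := by
  let _ := globcompAlgebra₁ K F₁ F₂
  refine IsScalarTower.of_algebraMap_eq fun k => ?_
  apply Subtype.ext
  show algebraMap K (AlgebraicClosure K) k = globcompEmb₁ K F₁ (algebraMap K F₁ k)
  rw [AlgHom.commutes]

theorem globcomp_isScalarTower₂ :
    @IsScalarTower K F₂ (globcompField K F₁ F₂) _ (globcompAlgebra₂ K F₁ F₂).toSMul _ := by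
  let _ := globcompAlgebra₂ K F₁ F₂
  refine IsScalarTower.of_algebraMap_eq fun k => ?_
  apply Subtype.ext
  show algebraMap K (AlgebraicClosure K) k = globcompEmb₂ K F₂ (algebraMap K F₂ k)
  rw [AlgHom.commutes]

theorem globcomp_finiteDimensional [FiniteDimensional K F₁] [FiniteDimensional K F₂] :
    FiniteDimensional K (globcompField K F₁ F₂) := by
  have h1 : FiniteDimensional K (globcompEmb₁ K F₁).fieldRange :=
    (AlgEquiv.ofInjectiveField (globcompEmb₁ K F₁)).toLinearEquiv.finiteDimensional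
  have h2 : FiniteDimensional K (globcompEmb₂ K F₂).fieldRange :=
    (AlgEquiv.ofInjectiveField (globcompEmb₂ K F₂)).toLinearEquiv.finiteDimensional
  exact IntermediateField.finiteDimensional_sup (globcompEmb₁ K F₁).fieldRange
    (globcompEmb₂ K F₂).fieldRange

theorem globcomp_normal [Normal K F₁] [Normal K F₂] : Normal K (globcompField K F₁ F₂) := by
  have h1 : Normal K (globcompEmb₁ K F₁).fieldRange :=
    Normal.of_algEquiv (F := K) (E := F₁) (E' := (globcompEmb₁ K F₁).fieldRange)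
      (AlgEquiv.ofInjectiveField (globcompEmb₁ K F₁))
  have h2 : Normal K (globcompEmb₂ K F₂).fieldRange :=
    Normal.of_algEquiv (F := K) (E := F₂) (E' := (globcompEmb₂ K F₂).fieldRange)
      (AlgEquiv.ofInjectiveField (globcompEmb₂ K F₂))
  show Normal K ↥((globcompEmb₁ K F₁).fieldRange ⊔ (globcompEmb₂ K F₂).fieldRange)
  infer_instance

/-- an automorphism of the compositum fixing the images of `F₁` and `F₂` is the identity -/
theorem globcomp_eq_one (τ : globcompField K F₁ F₂ ≃ₐ[K] globcompField K F₁ F₂)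
    (h₁ : ∀ x : F₁, τ ⟨globcompEmb₁ K F₁ x, globcomp_mem₁ K F₁ F₂ x⟩ =
      ⟨globcompEmb₁ K F₁ x, globcomp_mem₁ K F₁ F₂ x⟩)
    (h₂ : ∀ x : F₂, τ ⟨globcompEmb₂ K F₂ x, globcomp_mem₂ K F₁ F₂ x⟩ =
      ⟨globcompEmb₂ K F₂ x, globcomp_mem₂ K F₁ F₂ x⟩) : τ = 1 := by
  have key : (τ : globcompField K F₁ F₂ →ₐ[K] globcompField K F₁ F₂) =
      AlgHom.id K (globcompField K F₁ F₂) := by
    refine IntermediateField.adjoin_algHom_ext (F := K)
      (s := ((globcompEmb₁ K F₁).fieldRange : Set (AlgebraicClosure K)) ∪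
        ((globcompEmb₂ K F₂).fieldRange : Set (AlgebraicClosure K))) ?_
    rintro z (⟨a, rfl⟩ | ⟨a, rfl⟩)
    · exact h₁ a
    · exact h₂ a
  apply AlgEquiv.ext
  intro x
  exact congrArg (fun f : globcompField K F₁ F₂ →ₐ[K] globcompField K F₁ F₂ => f x) key

end Field

/-- restriction of an inertia element of an `S`-field tower to an `S`-field is trivial -/
theorem globcomp_restrict_eq_one (S : Finset Nat.Primes) {K F M : Type} [Field K] [NumberField K]
    [Field F] [NumberField F] [Field M] [NumberField M] [Algebra K F] [Algebra K M] [Algebra F M]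
    [IsScalarTower K F M] [IsGalois K F] (hur : GlUnramOutside S K F)
    (𝔓 : Ideal (𝓞 M)) [h𝔓 : 𝔓.IsPrime] (h𝔓0 : 𝔓 ≠ ⊥) (h𝔓S : ∀ q ∈ S, (((q : Nat.Primes) : ℕ) : 𝓞 M) ∉ 𝔓)
    (τ : M ≃ₐ[K] M) (hτ : ∀ y : 𝓞 M, τ • y - y ∈ 𝔓) :
    AlgEquiv.restrictNormalHom F τ = 1 := by
  let w' : HeightOneSpectrum (𝓞 M) := ⟨𝔓, h𝔓, h𝔓0⟩
  have hw' : ¬ GlAbove S M w' := fun ⟨q, hq, hmem⟩ => h𝔓S q hq hmem
  have hw : ¬ GlAbove S F (w'.under (𝓞 F)) := fun h => hw' ((glob_above_under_iff S w').1 h)
  have hu : Algebra.IsUnramifiedAt (𝓞 K) (w'.under (𝓞 F)).asIdeal :=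
    hur (w'.under (𝓞 F)).asIdeal (w'.under (𝓞 F)).ne_bot (fun q hq hmem => hw ⟨q, hq, hmem⟩)
  exact globku_eq_one_of_mem_inertia (w'.under (𝓞 F)).asIdeal hu _
    (fun y => Fermat.Agent.S14.auxr_restrictNormal_mem_inertia 𝔓 τ hτ y)

/-- (GU-2) Two finite Galois extensions of `K` unramified outside `S` embed (over `K`) into a
third one. -/
theorem gl_exists_compositum (S : Finset Nat.Primes) (K F₁ F₂ : Type) [Field K] [NumberField K]
    [Field F₁] [NumberField F₁] [Field F₂] [NumberField F₂] [Algebra K F₁] [Algebra K F₂]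
    [IsGalois K F₁] [IsGalois K F₂] (h₁ : GlUnramOutside S K F₁) (h₂ : GlUnramOutside S K F₂) :
    ∃ (M : Type) (_ : Field M) (_ : NumberField M) (_ : Algebra K M) (_ : Algebra F₁ M)
      (_ : Algebra F₂ M) (_ : IsScalarTower K F₁ M) (_ : IsScalarTower K F₂ M) (_ : IsGalois K M),
      GlUnramOutside S K M := by
  have hfd : FiniteDimensional K (globcompField K F₁ F₂) := globcomp_finiteDimensional K F₁ F₂
  have hNF : NumberField (globcompField K F₁ F₂) := NumberField.of_module_finite K _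
  have hnormal : Normal K (globcompField K F₁ F₂) := globcomp_normal K F₁ F₂
  have hGal : IsGalois K (globcompField K F₁ F₂) := ⟨⟩
  let a1 : Algebra F₁ (globcompField K F₁ F₂) := globcompAlgebra₁ K F₁ F₂
  let a2 : Algebra F₂ (globcompField K F₁ F₂) := globcompAlgebra₂ K F₁ F₂
  have t1 : IsScalarTower K F₁ (globcompField K F₁ F₂) := globcomp_isScalarTower₁ K F₁ F₂
  have t2 : IsScalarTower K F₂ (globcompField K F₁ F₂) := globcomp_isScalarTower₂ K F₁ F₂
  refine ⟨globcompField K F₁ F₂, inferInstance, hNF, inferInstance, a1, a2, t1, t2, hGal, ?_⟩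
  intro 𝔓 h𝔓 h𝔓0 h𝔓S
  apply globku_isUnramifiedAt_of_inertia
  intro τ hτ
  have hres₁ := globcomp_restrict_eq_one S (F := F₁) h₁ 𝔓 h𝔓0 h𝔓S τ hτ
  have hres₂ := globcomp_restrict_eq_one S (F := F₂) h₂ 𝔓 h𝔓0 h𝔓S τ hτ
  apply globcomp_eq_one
  · intro x
    have h3 := AlgEquiv.restrictNormal_commutes τ F₁ x
    have h4 : τ.restrictNormal F₁ = 1 := hres₁
    rw [h4] at h3
    exact h3.symm
  · intro x
    have h3 := AlgEquiv.restrictNormal_commutes τ F₂ x
    have h4 : τ.restrictNormal F₂ = 1 := hres₂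
    rw [h4] at h3
    exact h3.symm

end Fermat.Agent.S55
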