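/-
S55 / Global, leaf GU-1 (row 294): cyclic cyclotomic `p`-power layers `K(ζ_{p^N}) / K` with large
local degrees.  Exact statement `gl_exists_cyclic_layer` of `Global/CoreFinSpec.lean`
(origin/helper14 1499c9d).  Helper declarations carry the prefix `gucyc`.
-/
import Mathlib
import Fermat.Agent.S55.Global.TowerDefs
import Fermat.Agent.S55.LG.DecompSpec
import Fermat.Agent.S55.LG.PlaceSpec
import Fermat.Agent.S55.LocalRingSpec
import Fermat.Agent.S14.CrossingAux

set_option autoImplicit false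
set_option linter.unusedSectionVars false
set_option linter.unusedVariables false
set_option linter.style.haveILetI false

noncomputable section

namespace Fermat.Agent.S55

open scoped NumberField
open NumberField IsDedekindDomain

/-! ### Lifting the exponent -/

section LTE

variable {p : ℕ} [Fact p.Prime]

theorem gucyc_emultiplicity (hp2 : p ≠ 2) {x : ℤ} (hx : (p : ℤ) ∣ x - 1) (e : ℕ) :
    emultiplicity (p : ℤ) (x ^ p ^ e - 1) = emultiplicity (p : ℤ) (x - 1) + e := by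
  have hp : p.Prime := Fact.out
  have hodd : Odd p := hp.odd_of_ne_two hp2
  have hnx : ¬ (p : ℤ) ∣ x := by
    intro h
    have h1 : (p : ℤ) ∣ 1 := by
      have := dvd_sub h hx
      simpa using this
    have h2 : (p : ℤ) = 1 := Int.eq_one_of_dvd_one (Int.natCast_nonneg p) h1
    have := hp.one_lt
    omega
  have h := Int.emultiplicity_pow_sub_pow hp hodd (x := x) (y := 1) (by simpa using hx) hnx (p ^ e)
  rw [one_pow, emultiplicity_pow_self hp.ne_zero hp.prime.not_isUnit e] at h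
  exact h

/-- `x ≡ 1 mod p` implies `x ^ (p^e) ≡ 1 mod p^(e+1)`. -/
theorem gucyc_pow_dvd (hp2 : p ≠ 2) {x : ℤ} (hx : (p : ℤ) ∣ x - 1) (e : ℕ) :
    (p : ℤ) ^ (e + 1) ∣ x ^ p ^ e - 1 := by
  rw [pow_dvd_iff_le_emultiplicity, gucyc_emultiplicity hp2 hx]
  have h1 : (1 : ℕ∞) ≤ emultiplicity (p : ℤ) (x - 1) := by
    have := (pow_dvd_iff_le_emultiplicity (a := (p : ℤ)) (b := x - 1) (k := 1)).mp (by simpa using hx)
    simpa using this
  push_cast
  rw [add_comm]
  gcongr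

/-- `x ≡ 1 mod p` and `x ^ (p^e) ≡ 1 mod p^N` imply `x ≡ 1 mod p^(N-e)`. -/
theorem gucyc_dvd_of_pow_dvd (hp2 : p ≠ 2) {x : ℤ} (hx : (p : ℤ) ∣ x - 1) (e N : ℕ)
    (h : (p : ℤ) ^ N ∣ x ^ p ^ e - 1) : (p : ℤ) ^ (N - e) ∣ x - 1 := by
  rw [pow_dvd_iff_le_emultiplicity] at h ⊢
  rw [gucyc_emultiplicity hp2 hx] at h
  by_cases htop : emultiplicity (p : ℤ) (x - 1) = ⊤
  · rw [htop]
    exact le_top
  · obtain ⟨t, ht⟩ := ENat.ne_top_iff_exists.mp htop
    rw [← ht] at h ⊢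
    have h' : N ≤ t + e := by exact_mod_cast h
    have : N - e ≤ t := by omega
    exact_mod_cast this

end LTE

/-! ### The Galois group of `K(ζ_{p^N}) / K` when `ζ_p ∈ K` -/

section Gal

variable {p : ℕ} [Fact p.Prime] (N : ℕ) (K : Type) [Field K]
  (L : Type) [Field L] [Algebra K L] [IsCyclotomicExtension {p ^ N} K L]
  {ζ : L} (hζ : IsPrimitiveRoot ζ (p ^ N))

/-- The exponent of `σ`: `σ ζ = ζ ^ x`. -/
def gucycExp (σ : L ≃ₐ[K] L) : ℕ := (hζ.autToPow K σ : ZMod (p ^ N)).val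

theorem gucycExp_spec (σ : L ≃ₐ[K] L) : σ ζ = ζ ^ gucycExp N K L hζ σ :=
  (hζ.autToPow_spec K σ).symm

theorem gucyc_natCast_exp (σ : L ≃ₐ[K] L) :
    ((gucycExp N K L hζ σ : ℕ) : ZMod (p ^ N)) = (hζ.autToPow K σ : ZMod (p ^ N)) :=
  ZMod.natCast_zmod_val _

/-- `ζ_p ∈ K`: the exponents are `≡ 1 mod p`. -/
theorem gucyc_exp_modEq (hN : 1 ≤ N) (hζp : ∃ ζ₀ : K, IsPrimitiveRoot ζ₀ p) (σ : L ≃ₐ[K] L) :
    (p : ℤ) ∣ (gucycExp N K L hζ σ : ℤ) - 1 := by
  have hp : p.Prime := Fact.out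
  obtain ⟨ζ₀, hζ₀⟩ := hζp
  obtain ⟨N', rfl⟩ : ∃ N', N = N' + 1 := ⟨N - 1, by omega⟩
  set x := gucycExp (N' + 1) K L hζ σ with hx
  -- `ω = ζ ^ (p ^ N')` is a primitive `p`-th root of unity, hence in `K`
  have hω : IsPrimitiveRoot (ζ ^ p ^ N') p :=
    hζ.pow (pow_pos hp.pos _) (pow_succ p N')
  have hζ₀L : IsPrimitiveRoot (algebraMap K L ζ₀) p :=
    hζ₀.map_of_injective (algebraMap K L).injective
  obtain ⟨t, -, ht⟩ := hζ₀L.eq_pow_of_pow_eq_one hω.pow_eq_one
  have hfix : σ (ζ ^ p ^ N') = ζ ^ p ^ N' := by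
    rw [← ht, ← map_pow, σ.commutes]
  rw [map_pow, gucycExp_spec (N' + 1) K L hζ σ, ← hx, ← pow_mul] at hfix
  -- `ζ ^ ((x - 1) * p ^ N') = 1`
  have h1 : ζ ^ (((x : ℤ) - 1) * (p : ℤ) ^ N') = 1 := by
    have hζ0 : ζ ≠ 0 := hζ.ne_zero (pow_pos hp.pos _).ne'
    rw [sub_mul, one_mul, zpow_sub₀ hζ0]
    have e1 : ζ ^ ((x : ℤ) * (p : ℤ) ^ N') = ζ ^ (x * p ^ N') := by
      rw [← zpow_natCast]; push_cast; rfl
    have e2 : ζ ^ ((p : ℤ) ^ N') = ζ ^ (p ^ N') := by
      rw [← zpow_natCast]; push_cast; rfl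
    rw [e1, e2, hfix]
    exact div_self (pow_ne_zero _ hζ0)
  rw [hζ.zpow_eq_one_iff_dvd] at h1
  push_cast at h1
  rw [pow_succ, mul_comm ((p : ℤ) ^ N') (p : ℤ)] at h1
  have hpN : ((p : ℤ) ^ N') ≠ 0 := pow_ne_zero _ (by exact_mod_cast hp.ne_zero)
  exact (mul_dvd_mul_iff_right hpN).mp h1

include hζ in
/-- `ζ_p ∈ K`, `p` odd: every automorphism has `p`-power order. -/
theorem gucyc_pow_eq_one (hp2 : p ≠ 2) (hN : 1 ≤ N) (hζp : ∃ ζ₀ : K, IsPrimitiveRoot ζ₀ p)
    (σ : L ≃ₐ[K] L) : σ ^ p ^ (N - 1) = 1 := by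
  apply hζ.autToPow_injective K
  rw [map_pow, map_one]
  apply Units.ext
  rw [Units.val_pow_eq_pow_val, Units.val_one, ← gucyc_natCast_exp N K L hζ σ]
  have h := gucyc_pow_dvd hp2 (gucyc_exp_modEq N K L hζ hN hζp σ) (N - 1)
  rw [Nat.sub_add_cancel hN] at h
  have h2 := (ZMod.intCast_zmod_eq_zero_iff_dvd _ (p ^ N)).mpr (by exact_mod_cast h)
  push_cast at h2
  exact sub_eq_zero.mp h2

include hζ in
/-- `ζ_p ∈ K`, `p` odd: an automorphism of order dividing `p ^ e` fixes `ζ ^ (p ^ e)`. -/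
theorem gucyc_fix_of_pow_eq_one (hp2 : p ≠ 2) (hN : 1 ≤ N) (hζp : ∃ ζ₀ : K, IsPrimitiveRoot ζ₀ p)
    (σ : L ≃ₐ[K] L) (e : ℕ) (he : e ≤ N) (hσ : σ ^ p ^ e = 1) : σ (ζ ^ p ^ e) = ζ ^ p ^ e := by
  have hp : p.Prime := Fact.out
  set x := gucycExp N K L hζ σ with hx
  have hx1 := gucyc_exp_modEq N K L hζ hN hζp σ
  rw [← hx] at hx1
  -- `x ^ (p^e) ≡ 1 mod p^N`
  have h1 : ((x : ZMod (p ^ N))) ^ p ^ e = 1 := by
    rw [hx, gucyc_natCast_exp, ← Units.val_pow_eq_pow_val, ← map_pow, hσ, map_one, Units.val_one]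
  have h2 : ((p : ℤ) ^ N) ∣ (x : ℤ) ^ p ^ e - 1 := by
    have h3 : (((x : ℤ) ^ p ^ e - 1 : ℤ) : ZMod (p ^ N)) = 0 := by
      push_cast
      rw [h1, sub_self]
    have := (ZMod.intCast_zmod_eq_zero_iff_dvd _ (p ^ N)).mp h3
    exact_mod_cast this
  have h4 := gucyc_dvd_of_pow_dvd hp2 hx1 e N h2
  -- hence `p^N ∣ (x - 1) * p^e`
  have h5 : ((p ^ N : ℕ) : ℤ) ∣ ((x : ℤ) - 1) * (p : ℤ) ^ e := by
    have : (p : ℤ) ^ N = (p : ℤ) ^ (N - e) * (p : ℤ) ^ e := by
      rw [← pow_add, Nat.sub_add_cancel he]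
    push_cast
    rw [this]
    exact mul_dvd_mul_right h4 _
  have h6 := (hζ.zpow_eq_one_iff_dvd _).mpr h5
  have hζ0 : ζ ≠ 0 := hζ.ne_zero (pow_pos hp.pos _).ne'
  rw [sub_mul, one_mul, zpow_sub₀ hζ0] at h6
  have e1 : ζ ^ ((x : ℤ) * (p : ℤ) ^ e) = ζ ^ (x * p ^ e) := by
    rw [← zpow_natCast]; push_cast; rfl
  have e2 : ζ ^ ((p : ℤ) ^ e) = ζ ^ (p ^ e) := by
    rw [← zpow_natCast]; push_cast; rfl
  rw [e1, e2, div_eq_one_iff_eq (pow_ne_zero _ hζ0)] at h6
  rw [map_pow, gucycExp_spec N K L hζ σ, ← hx, ← pow_mul, h6]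

end Gal

/-! ### Valuations of roots of unity -/

section Val

variable {M Γ₀ : Type*} [Field M] [LinearOrderedCommGroupWithZero Γ₀] (v : Valuation M Γ₀)

/-- a root of unity has valuation one -/
theorem gucyc_valuation_eq_one {ζ : M} {n : ℕ} (hn : n ≠ 0) (h : ζ ^ n = 1) : v ζ = 1 := by
  have h1 : v ζ ^ n = 1 := by rw [← map_pow, h, map_one]
  rcases lt_trichotomy (v ζ) 1 with hlt | heq | hgt
  · exact absurd h1 (ne_of_lt (pow_lt_one₀ zero_le hlt hn))
  · exact heq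
  · exact absurd h1 (ne_of_gt (one_lt_pow₀ hgt hn))

omit [LinearOrderedCommGroupWithZero Γ₀] in
/-- `p = ∏ (1 - μ)` over the primitive `p`-th roots of unity -/
theorem gucyc_prod_one_sub {p : ℕ} [Fact p.Prime] {η : M}
    (hη : IsPrimitiveRoot η p) : (p : M) = ∏ μ ∈ primitiveRoots p M, (1 - μ) := by
  have h1 := Polynomial.cyclotomic_eq_prod_X_sub_primitiveRoots hη
  have h2 := congrArg (Polynomial.eval 1) h1
  rw [Polynomial.eval_one_cyclotomic_prime, Polynomial.eval_prod] at h2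
  simpa using h2

/-- if `1 - η` is not a unit for the valuation, neither is `p` -/
theorem gucyc_valuation_prime_lt_one {p : ℕ} [Fact p.Prime] {η : M}
    (hη : IsPrimitiveRoot η p) (h : v (1 - η) < 1) : v (p : M) < 1 := by
  classical
  have hp : p.Prime := Fact.out
  have hle : ∀ μ ∈ primitiveRoots p M, v (1 - μ) ≤ 1 := by
    intro μ hμ
    have hμ' : μ ^ p = 1 := ((mem_primitiveRoots hp.pos).1 hμ).pow_eq_one
    refine le_trans (v.map_sub _ _) ?_
    rw [map_one, gucyc_valuation_eq_one v hp.ne_zero hμ', max_self]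
  have hmem : η ∈ primitiveRoots p M := (mem_primitiveRoots hp.pos).2 hη
  rw [gucyc_prod_one_sub hη, map_prod, ← Finset.mul_prod_erase _ _ hmem]
  have h3 : ∏ μ ∈ (primitiveRoots p M).erase η, v (1 - μ) ≤ 1 :=
    Finset.prod_le_one' fun μ hμ => hle μ (Finset.mem_of_mem_erase hμ)
  calc v (1 - η) * ∏ μ ∈ (primitiveRoots p M).erase η, v (1 - μ) ≤ v (1 - η) * 1 := by gcongr
    _ < 1 := by simpa using h

/-- a nontrivial `p`-power root of unity `μ` with `v (1 - μ) < 1` forces `v p < 1`. -/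
theorem gucyc_valuation_prime_lt_one' {p : ℕ} [Fact p.Prime] {μ : M} {N : ℕ}
    (hμ : μ ^ p ^ N = 1) (hμ1 : μ ≠ 1) (h : v (1 - μ) < 1) : v (p : M) < 1 := by
  have hp : p.Prime := Fact.out
  have hord : orderOf μ ∣ p ^ N := orderOf_dvd_of_pow_eq_one hμ
  obtain ⟨s, -, hs⟩ := (Nat.dvd_prime_pow hp).mp hord
  have hs0 : s ≠ 0 := by
    rintro rfl
    rw [pow_zero, orderOf_eq_one_iff] at hs
    exact hμ1 hs
  obtain ⟨s', rfl⟩ : ∃ s', s = s' + 1 := ⟨s - 1, by omega⟩
  have hprim : IsPrimitiveRoot μ (p ^ (s' + 1)) := hs ▸ IsPrimitiveRoot.orderOf μ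
  have hη : IsPrimitiveRoot (μ ^ p ^ s') p := hprim.pow (pow_pos hp.pos _) (pow_succ p s')
  apply gucyc_valuation_prime_lt_one v hη
  have hgeom : 1 - μ ^ p ^ s' = (1 - μ) * ∑ i ∈ Finset.range (p ^ s'), μ ^ i := by
    have := mul_neg_geom_sum μ (p ^ s')
    rw [← this]
  rw [hgeom, map_mul]
  have hsum : v (∑ i ∈ Finset.range (p ^ s'), μ ^ i) ≤ 1 := by
    apply v.map_sum_le
    intro i _
    rw [map_pow, gucyc_valuation_eq_one v (pow_pos hp.pos N).ne' hμ, one_pow]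
  calc v (1 - μ) * v (∑ i ∈ Finset.range (p ^ s'), μ ^ i) ≤ v (1 - μ) * 1 := by gcongr
    _ < 1 := by simpa using h

end Val

/-! ### `K(ζ_{p^N}) / K` is unramified outside `p` -/

section Unram

variable {p : ℕ} [Fact p.Prime] (N : ℕ) (K : Type) [Field K] [NumberField K]
  (L : Type) [Field L] [NumberField L] [Algebra K L] [hcyc : IsCyclotomicExtension {p ^ N} K L]
  [IsGalois K L]

include hcyc in
theorem gucyc_eq_one_of_fix {ζ : L} (hζ : IsPrimitiveRoot ζ (p ^ N)) (τ : L ≃ₐ[K] L)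
    (h : τ ζ = ζ) : τ = 1 := by
  have : τ.toAlgHom = (1 : L ≃ₐ[K] L).toAlgHom := by
    apply (hζ.powerBasis K).algHom_ext
    rw [IsPrimitiveRoot.powerBasis_gen]
    exact h
  exact AlgEquiv.coe_toAlgHom_injective this

include hcyc in
theorem gucyc_unramOutside (S : Finset Nat.Primes) (hpS : ∃ q ∈ S, ((q : Nat.Primes) : ℕ) = p) :
    GlUnramOutside S K L := by
  intro P _ hP0 hS
  have hp : p.Prime := Fact.out
  obtain ⟨q₀, hq₀S, hq₀⟩ := hpS
  have hpP : ((p : ℕ) : 𝓞 L) ∉ P := by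
    rw [← hq₀]
    exact hS q₀ hq₀S
  apply Fermat.Agent.S14.cross_isUnramifiedAt_of_inertia (K := K) P
  rw [eq_bot_iff]
  intro τ hτ
  rw [Subgroup.mem_bot]
  set ζ := IsCyclotomicExtension.zeta (p ^ N) K L with hζdef
  have hζ : IsPrimitiveRoot ζ (p ^ N) := IsCyclotomicExtension.zeta_spec (p ^ N) K L
  have hpN : 0 < p ^ N := pow_pos hp.pos N
  have hζint : IsIntegral ℤ ζ := hζ.isIntegral hpN
  have hζ0 : ζ ≠ 0 := hζ.ne_zero hpN.ne'
  let ζ' : 𝓞 L := ⟨ζ, hζint⟩
  have h1 : τ • ζ' - ζ' ∈ P := hτ ζ'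
  let w : HeightOneSpectrum (𝓞 L) := ⟨P, inferInstance, hP0⟩
  have h2 : w.valuation L (algebraMap (𝓞 L) L (τ • ζ' - ζ')) < 1 :=
    (w.valuation_lt_one_iff_mem _).mpr h1
  have h3 : algebraMap (𝓞 L) L (τ • ζ' - ζ') = τ ζ - ζ := rfl
  rw [h3] at h2
  have hμpow : (τ ζ * ζ⁻¹) ^ p ^ N = 1 := by
    rw [mul_pow, ← map_pow, inv_pow, hζ.pow_eq_one, map_one, inv_one, mul_one]
  have hvζ : w.valuation L ζ = 1 := gucyc_valuation_eq_one _ hpN.ne' hζ.pow_eq_one
  have hvμ : w.valuation L (1 - τ ζ * ζ⁻¹) < 1 := by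
    have e : 1 - τ ζ * ζ⁻¹ = -(τ ζ - ζ) * ζ⁻¹ := by
      field_simp
      ring
    rw [e, map_mul, Valuation.map_neg, map_inv₀, hvζ, inv_one, mul_one]
    exact h2
  by_contra hτ1
  have hμ1 : τ ζ * ζ⁻¹ ≠ 1 := by
    intro h
    apply hτ1
    apply gucyc_eq_one_of_fix N K L hζ τ
    have := congrArg (· * ζ) h
    simpa [hζ0] using this
  have h4 := gucyc_valuation_prime_lt_one' (w.valuation L) hμpow hμ1 hvμ
  have h5 : w.valuation L (algebraMap (𝓞 L) L ((p : ℕ) : 𝓞 L)) < 1 := by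
    simpa using h4
  exact hpP ((w.valuation_lt_one_iff_mem _).mp h5)

end Unram

/-! ### Cyclicity and degree -/

section Cyc

variable {p : ℕ} [Fact p.Prime]

theorem gucyc_exists_generator (hp2 : p ≠ 2) (N : ℕ) (hN : 1 ≤ N) (K : Type) [Field K]
    (L : Type) [Field L] [Algebra K L] [IsCyclotomicExtension {p ^ N} K L]
    [FiniteDimensional K L] [IsGalois K L] (hζp : ∃ ζ₀ : K, IsPrimitiveRoot ζ₀ p) :
    ∃ (m : ℕ) (σ : L ≃ₐ[K] L), Module.finrank K L = p ^ m ∧
      ∀ g : L ≃ₐ[K] L, g ∈ Subgroup.zpowers σ := by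
  have hp : p.Prime := Fact.out
  have hζ := IsCyclotomicExtension.zeta_spec (p ^ N) K L
  haveI : IsCyclic (ZMod (p ^ N))ˣ := ZMod.isCyclic_units_of_prime_pow p hp hp2 N
  haveI : IsCyclic (L ≃ₐ[K] L) :=
    isCyclic_of_injective (hζ.autToPow K) (hζ.autToPow_injective K)
  obtain ⟨σ, hσ⟩ := IsCyclic.exists_generator (α := L ≃ₐ[K] L)
  have hpg : IsPGroup p (L ≃ₐ[K] L) := fun g =>
    ⟨N - 1, gucyc_pow_eq_one N K L hζ hp2 hN hζp g⟩
  obtain ⟨m, hm⟩ := IsPGroup.iff_card.mp hpg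
  exact ⟨m, σ, by rw [← hm, IsGalois.card_aut_eq_finrank], hσ⟩

end Cyc

/-! ### Local degrees -/

section Local

section LocalBound

open IsLocalRing

variable (q : ℕ) [Fact q.Prime] (E : Type) [Field E] [Algebra ℚ_[q] E]
  [FiniteDimensional ℚ_[q] E] (p : ℕ) [Fact p.Prime]

/-- roots of unity are integers of the local field -/
theorem gucyc_mem_lfInt {μ : E} {n : ℕ} (hn : n ≠ 0) (hμ : μ ^ n = 1) : μ ∈ lfInt q E := by
  rw [← ValuationSubring.valuation_le_one_iff]
  exact (gucyc_valuation_eq_one _ hn hμ).le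

/-- elements of the maximal ideal are those of valuation `< 1` -/
theorem gucyc_spectralNorm_lt_one_of_valuation {x : E} (hx : (lfInt q E).valuation x < 1) :
    spectralNorm ℚ_[q] E x < 1 := by
  have hmem : x ∈ lfInt q E := (ValuationSubring.valuation_le_one_iff _ _).mp hx.le
  have h1 : (⟨x, hmem⟩ : lfInt q E) ∈ maximalIdeal (lfInt q E) :=
    ((lfInt q E).valuation_lt_one_iff ⟨x, hmem⟩).mpr hx
  exact (mem_maximalIdeal_lfInt_iff q E ⟨x, hmem⟩).mp h1

theorem gucyc_valuation_lt_one_of_spectralNorm {x : E} (hx : spectralNorm ℚ_[q] E x < 1) :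
    (lfInt q E).valuation x < 1 := by
  have hmem : x ∈ lfInt q E := (mem_lfInt_iff q E x).mpr hx.le
  have h1 : (⟨x, hmem⟩ : lfInt q E) ∈ maximalIdeal (lfInt q E) :=
    (mem_maximalIdeal_lfInt_iff q E ⟨x, hmem⟩).mpr hx
  exact ((lfInt q E).valuation_lt_one_iff ⟨x, hmem⟩).mp h1

/-- `q ≠ p`: the `p`-power roots of unity inject into the residue field. -/
theorem gucyc_local_bound_ne (hqp : q ≠ p) (M : ℕ) (η : E) (hη : IsPrimitiveRoot η (p ^ M)) :
    p ^ M ≤ lfResCard q E := by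
  have hp : p.Prime := Fact.out
  have hq : q.Prime := Fact.out
  have hpM : 0 < p ^ M := pow_pos hp.pos M
  -- `p` is a unit
  have hvp : ¬ (lfInt q E).valuation ((p : ℕ) : E) < 1 := by
    intro h
    have h1 := gucyc_spectralNorm_lt_one_of_valuation q E h
    have h2 : ((p : ℕ) : E) = algebraMap ℚ_[q] E ((p : ℕ) : ℚ_[q]) := (map_natCast _ _).symm
    rw [h2, spectralNorm_extends] at h1
    have h3 : ‖((p : ℕ) : ℚ_[q])‖ = 1 := by
      rw [Padic.norm_natCast_eq_one_iff]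
      exact (Nat.coprime_primes hq hp).mpr hqp
    rw [h3] at h1
    exact lt_irrefl _ h1
  have hmem : ∀ a : ℕ, η ^ a ∈ lfInt q E := fun a =>
    gucyc_mem_lfInt q E hpM.ne' (by rw [← pow_mul, mul_comm, pow_mul, hη.pow_eq_one, one_pow])
  have hne : ∀ a b : ℕ, a < b → b < p ^ M →
      residue (lfInt q E) ⟨η ^ a, hmem a⟩ ≠ residue (lfInt q E) ⟨η ^ b, hmem b⟩ := by
    intro a b hab hb heq
    rw [← sub_eq_zero, ← map_sub, residue_eq_zero_iff] at heq
    have h1 := ((lfInt q E).valuation_lt_one_iff _).mp heq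
    have h2 : (((⟨η ^ a, hmem a⟩ : lfInt q E) - ⟨η ^ b, hmem b⟩ : lfInt q E) : E) =
        η ^ a * (1 - η ^ (b - a)) := by
      show η ^ a - η ^ b = _
      rw [mul_sub, mul_one, ← pow_add, Nat.add_sub_cancel' hab.le]
    rw [h2, map_mul, gucyc_valuation_eq_one _ hpM.ne'
      (show (η ^ a) ^ p ^ M = 1 by rw [← pow_mul, mul_comm, pow_mul, hη.pow_eq_one, one_pow]),
      one_mul] at h1
    have hμ1 : η ^ (b - a) ≠ 1 := hη.pow_ne_one_of_pos_of_lt (by omega) (by omega)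
    have hμpow : (η ^ (b - a)) ^ p ^ M = 1 := by
      rw [← pow_mul, mul_comm, pow_mul, hη.pow_eq_one, one_pow]
    exact hvp (gucyc_valuation_prime_lt_one' _ hμpow hμ1 h1)
  have hinj : Function.Injective (fun a : Fin (p ^ M) =>
      residue (lfInt q E) ⟨η ^ (a : ℕ), hmem a⟩) := by
    intro a b hab
    by_contra hne'
    rcases lt_or_gt_of_ne (fun h => hne' (Fin.ext h)) with h | h
    · exact hne a b h b.2 hab
    · exact hne b a h a.2 hab.symm
  have := Nat.card_le_card_of_injective _ hinj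
  rwa [Nat.card_eq_fintype_card, Fintype.card_fin] at this

theorem gucyc_lfOrd_prod {ι : Type*} (s : Finset ι) (f : ι → E) (hf : ∀ i ∈ s, f i ≠ 0) :
    lfOrd q E (∏ i ∈ s, f i) = ∑ i ∈ s, lfOrd q E (f i) := by
  classical
  induction s using Finset.induction_on with
  | empty => simp [lfOrd_one]
  | insert a s ha ih =>
    rw [Finset.prod_insert ha, Finset.sum_insert ha,
      lfOrd_mul q E (hf a (Finset.mem_insert_self a s))
        (Finset.prod_ne_zero_iff.mpr fun i hi => hf i (Finset.mem_insert_of_mem hi)),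
      ih fun i hi => hf i (Finset.mem_insert_of_mem hi)]

/-- `q = p`: `φ(p^M) ≤ e ≤ [E : ℚ_p]`. -/
theorem gucyc_local_bound_eq (hqp : q = p) (M : ℕ) (η : E) (hη : IsPrimitiveRoot η (p ^ (M + 1))) :
    (p ^ (M + 1)).totient ≤ Module.finrank ℚ_[q] E := by
  classical
  subst hqp
  have hq : q.Prime := Fact.out
  -- each `1 - μ` has positive order
  have hpos : ∀ μ ∈ primitiveRoots (q ^ (M + 1)) E, 1 ≤ lfOrd q E (1 - μ) := by
    intro μ hμ
    have hμ' : IsPrimitiveRoot μ (q ^ (M + 1)) := (mem_primitiveRoots (pow_pos hq.pos _)).1 hμ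
    have hμ0 : 1 - μ ≠ 0 := by
      rw [sub_ne_zero]
      exact (hμ'.ne_one (Nat.one_lt_pow (by omega) hq.one_lt)).symm
    have hμint : μ ∈ lfInt q E := gucyc_mem_lfInt q E (pow_pos hq.pos _).ne' hμ'.pow_eq_one
    -- in the residue field `(x - 1)^(q^(M+1)) = 0`
    have hres : residue (lfInt q E) ⟨μ, hμint⟩ = 1 := by
      have h1 : (residue (lfInt q E) ⟨μ, hμint⟩) ^ q ^ (M + 1) = 1 := by
        rw [← map_pow]
        have : (⟨μ, hμint⟩ : lfInt q E) ^ q ^ (M + 1) = 1 := Subtype.ext hμ'.pow_eq_one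
        rw [this, map_one]
      have h2 : (residue (lfInt q E) ⟨μ, hμint⟩ - 1) ^ q ^ (M + 1) = 0 := by
        rw [sub_pow_char_pow, h1, one_pow, sub_self]
      exact sub_eq_zero.mp (pow_eq_zero_iff (pow_pos hq.pos _).ne' |>.mp h2)
    have hmax : (1 - ⟨μ, hμint⟩ : lfInt q E) ∈ maximalIdeal (lfInt q E) := by
      rw [← residue_eq_zero_iff, map_sub, map_one, hres, sub_self]
    have hlt := (mem_maximalIdeal_lfInt_iff q E _).mp hmax
    have := (spectralNorm_lt_one_iff_lfOrd q E hμ0).mp hlt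
    omega
  have hprod : ((q : ℕ) : E) = ∏ μ ∈ primitiveRoots (q ^ (M + 1)) E, (1 - μ) := by
    have h1 := Polynomial.cyclotomic_eq_prod_X_sub_primitiveRoots hη
    have h2 := congrArg (Polynomial.eval 1) h1
    rw [Polynomial.eval_one_cyclotomic_prime_pow, Polynomial.eval_prod] at h2
    simpa using h2
  have hne : ∀ μ ∈ primitiveRoots (q ^ (M + 1)) E, 1 - μ ≠ 0 := by
    intro μ hμ h0
    have := hpos μ hμ
    rw [h0, lfOrd_zero] at this
    omega
  have hord : lfOrd q E ((q : ℕ) : E) =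
      ∑ μ ∈ primitiveRoots (q ^ (M + 1)) E, lfOrd q E (1 - μ) := by
    rw [hprod, gucyc_lfOrd_prod q E _ _ hne]
  have hge : ((q ^ (M + 1)).totient : ℤ) ≤ lfOrd q E ((q : ℕ) : E) := by
    rw [hord, ← hη.card_primitiveRoots]
    calc ((primitiveRoots (q ^ (M + 1)) E).card : ℤ)
        = ∑ μ ∈ primitiveRoots (q ^ (M + 1)) E, (1 : ℤ) := by simp
      _ ≤ _ := Finset.sum_le_sum hpos
  have hmul := lfOrd_prime_mul_lfAbsInertiaDeg q E
  have hf := lfAbsInertiaDeg_pos q E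
  have hle : lfOrd q E ((q : ℕ) : E) ≤ Module.finrank ℚ_[q] E := by
    rw [← hmul]
    have h0 : 0 ≤ lfOrd q E ((q : ℕ) : E) := le_trans (by positivity) hge
    nlinarith
  exact_mod_cast hge.trans hle

/-- LOCAL BOUND: a local field contains few `p`-power roots of unity. -/
theorem gucyc_local_bound (M : ℕ) (η : E) (hη : IsPrimitiveRoot η (p ^ M)) :
    p ^ M ≤ p * (Module.finrank ℚ_[q] E + lfResCard q E) := by
  have hp : p.Prime := Fact.out
  by_cases hqp : q = p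
  · rcases M with _ | M
    · have : 0 < Module.finrank ℚ_[q] E := Module.finrank_pos
      rw [pow_zero]
      nlinarith [hp.pos]
    · have h1 := gucyc_local_bound_eq q E p hqp M η hη
      rw [Nat.totient_prime_pow_succ hp] at h1
      have h2 : p ^ M ≤ p ^ M * (p - 1) := Nat.le_mul_of_pos_right _ (by have := hp.two_le; omega)
      calc p ^ (M + 1) = p * p ^ M := by rw [pow_succ, mul_comm]
        _ ≤ p * (Module.finrank ℚ_[q] E + lfResCard q E) :=
          Nat.mul_le_mul_left _ (by omega)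
  · have h1 := gucyc_local_bound_ne q E p hqp M η hη
    nlinarith [hp.pos]

end LocalBound

variable (q : ℕ) [Fact q.Prime] {K : Type} [Field K] [NumberField K]

theorem gucyc_finrank_lgField_le (i : K →+* PadicAlgCl q) :
    Module.finrank ℚ_[q] (lgField q i) ≤ Module.finrank ℚ K := by
  set b := Module.finBasis ℚ K with hb
  have hle : (lgField q i).toSubalgebra.toSubmodule ≤
      Submodule.span ℚ_[q] (Set.range fun k => i (b k)) := by
    rw [lgField_toSubmodule_eq_span, Submodule.span_le]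
    rintro _ ⟨x, rfl⟩
    rw [← b.sum_repr x, map_sum]
    apply Submodule.sum_mem
    intro k _
    rw [Algebra.smul_def, map_mul, eq_ratCast, lg_map_ratCast, ← Algebra.smul_def]
    exact Submodule.smul_mem _ _ (Submodule.subset_span ⟨k, rfl⟩)
  have h1 : Module.finrank ℚ_[q] (lgField q i) =
      Module.finrank ℚ_[q] (lgField q i).toSubalgebra.toSubmodule := rfl
  rw [h1]
  haveI : Module.Finite ℚ_[q] (Submodule.span ℚ_[q] (Set.range fun k => i (b k))) :=
    Module.Finite.span_of_finite ℚ_[q] (Set.finite_range _)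
  refine (Submodule.finrank_mono hle).trans ?_
  refine (finrank_range_le_card _).trans ?_
  rw [Fintype.card_fin]

end Local

section LocalDeg

variable {p : ℕ} [Fact p.Prime] (q : ℕ) [Fact q.Prime] {K : Type} [Field K] [NumberField K]
  {L : Type} [Field L] [NumberField L] [Algebra K L] [IsGalois K L]

theorem gucyc_local_degree (hp2 : p ≠ 2) (N : ℕ) (hN : 1 ≤ N)
    [IsCyclotomicExtension {p ^ N} K L]
    (hζp : ∃ ζ₀ : K, IsPrimitiveRoot ζ₀ p) (m : ℕ) (hm : Module.finrank K L = p ^ m)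
    (j : L →+* PadicAlgCl q) (k : ℕ) (hk : k ≤ N)
    (hB : p * (Module.finrank ℚ K +
      Ideal.absNorm (lgPlace q (j.comp (algebraMap K L))).asIdeal) < p ^ (N - k + 1)) :
    p ^ k ∣ Module.finrank (lgField q (j.comp (algebraMap K L))) (lgField q j) := by
  have hp : p.Prime := Fact.out
  haveI := lg_isGalois (K := K) q j
  obtain ⟨r, hr, hrinj, -, -⟩ := lg_exists_res (K := K) q j
  -- the local degree is a power of `p`
  have hcard : Nat.card (lgField q j ≃ₐ[lgField q (j.comp (algebraMap K L))] lgField q j) =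
      Module.finrank (lgField q (j.comp (algebraMap K L))) (lgField q j) :=
    IsGalois.card_aut_eq_finrank _ _
  have hdvd := Subgroup.card_dvd_of_injective r hrinj
  rw [IsGalois.card_aut_eq_finrank K L, hm, hcard] at hdvd
  obtain ⟨e, -, he⟩ := (Nat.dvd_prime_pow hp).mp hdvd
  rw [he]
  by_cases hke : k ≤ e
  · exact pow_dvd_pow p hke
  · exfalso
    push Not at hke
    set ζ := IsCyclotomicExtension.zeta (p ^ N) K L with hζdef
    have hζ : IsPrimitiveRoot ζ (p ^ N) := IsCyclotomicExtension.zeta_spec (p ^ N) K L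
    have hfix : ∀ σ : lgField q j ≃ₐ[lgField q (j.comp (algebraMap K L))] lgField q j,
        σ (lgEmb q j (ζ ^ p ^ e)) = lgEmb q j (ζ ^ p ^ e) := by
      intro σ
      have h1 : σ ^ p ^ e = 1 := by
        rw [← he, ← hcard]
        exact pow_card_eq_one'
      have h2 : (r σ) ^ p ^ e = 1 := by rw [← map_pow, h1, map_one]
      have h3 := gucyc_fix_of_pow_eq_one N K L hζ hp2 hN hζp (r σ) e (by omega) h2
      rw [← hr, h3]
    obtain ⟨η₀, hη₀⟩ := (IsGalois.mem_range_algebraMap_iff_fixed _).mpr hfix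
    have hprimL : IsPrimitiveRoot (ζ ^ p ^ e) (p ^ (N - e)) :=
      hζ.pow (pow_pos hp.pos _) (by rw [← pow_add]; congr 1; omega)
    have hprimF : IsPrimitiveRoot (lgEmb q j (ζ ^ p ^ e)) (p ^ (N - e)) :=
      hprimL.map_of_injective (lgEmb_injective q j)
    have hprimE : IsPrimitiveRoot η₀ (p ^ (N - e)) := by
      rw [← hη₀] at hprimF
      exact hprimF.of_map_of_injective
        (algebraMap (lgField q (j.comp (algebraMap K L))) (lgField q j)).injective
    have hb := gucyc_local_bound q (lgField q (j.comp (algebraMap K L))) p (N - e) η₀ hprimE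
    have h4 := gucyc_finrank_lgField_le q (j.comp (algebraMap K L))
    have h5 := lfResCard_lgField q (j.comp (algebraMap K L))
    have h6 : p ^ (N - k + 1) ≤ p ^ (N - e) := Nat.pow_le_pow_right hp.pos (by omega)
    rw [h5] at hb
    have h7 : p * (Module.finrank ℚ_[q] (lgField q (j.comp (algebraMap K L))) +
        Ideal.absNorm (lgPlace q (j.comp (algebraMap K L))).asIdeal) ≤
        p * (Module.finrank ℚ K +
          Ideal.absNorm (lgPlace q (j.comp (algebraMap K L))).asIdeal) :=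
      Nat.mul_le_mul_left _ (Nat.add_le_add_right h4 _)
    omega

end LocalDeg

/-! ### The statement of the spec -/

section CycLayer

/-- For a finite set `T` of finite places of `K ⊇ μ_p` and `k : ℕ` there is a cyclic extension `L/K`
of `p`-power degree, unramified outside `S ∋ p`, all of whose local degrees at the places of `T` are
divisible by `p ^ k`.  [`L = K(μ_{p^{a+m}})`, `m` large: a local field contains only finitely many
`p`-power roots of unity; `L/K` is cyclic since `p` is odd, and unramified outside `p`.] -/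
theorem gl_exists_cyclic_layer {p : ℕ} [Fact p.Prime] (hp2 : p ≠ 2) (S : Finset Nat.Primes)
    (hpS : ∃ q ∈ S, ((q : Nat.Primes) : ℕ) = p)
    (K : Type) [Field K] [NumberField K] (hζ : ∃ ζ : K, IsPrimitiveRoot ζ p)
    (T : Finset (HeightOneSpectrum (𝓞 K))) (k : ℕ) :
    ∃ (L : Type) (_ : Field L) (_ : NumberField L) (_ : Algebra K L) (_ : IsGalois K L)
      (m : ℕ) (σ : L ≃ₐ[K] L),
      GlUnramOutside S K L ∧ Module.finrank K L = p ^ m ∧
      (∀ g : L ≃ₐ[K] L, g ∈ Subgroup.zpowers σ) ∧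
      ∀ (q : ℕ) [Fact q.Prime] (j : L →+* PadicAlgCl q),
        lgPlace q (j.comp (algebraMap K L)) ∈ T →
          p ^ k ∣ Module.finrank (lgField q (j.comp (algebraMap K L))) (lgField q j) := by
  have hp : p.Prime := Fact.out
  set B := ∑ v ∈ T, p * (Module.finrank ℚ K + Ideal.absNorm v.asIdeal) with hB
  set N := k + B + 1 with hN
  haveI : NeZero (p ^ N) := ⟨(pow_pos hp.pos N).ne'⟩
  haveI hgal : IsGalois K (CyclotomicField (p ^ N) K) :=
    IsCyclotomicExtension.isGalois {p ^ N} K (CyclotomicField (p ^ N) K)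
  obtain ⟨m, σ, hm, hσ⟩ :=
    gucyc_exists_generator hp2 N (by omega) K (CyclotomicField (p ^ N) K) hζ
  refine ⟨CyclotomicField (p ^ N) K, inferInstance, inferInstance, inferInstance, hgal, m, σ,
    gucyc_unramOutside N K (CyclotomicField (p ^ N) K) S hpS, hm, hσ, ?_⟩
  intro q _ j hj
  apply gucyc_local_degree q hp2 N (by omega) hζ m hm j k (by omega)
  have h1 : p * (Module.finrank ℚ K +
      Ideal.absNorm (lgPlace q (j.comp (algebraMap K (CyclotomicField (p ^ N) K)))).asIdeal) ≤ B :=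
    Finset.single_le_sum (f := fun v : HeightOneSpectrum (𝓞 K) =>
      p * (Module.finrank ℚ K + Ideal.absNorm v.asIdeal)) (fun _ _ => Nat.zero_le _) hj
  have h2 : N - k + 1 = B + 2 := by omega
  rw [h2]
  calc _ ≤ B := h1
    _ < 2 ^ B := Nat.lt_two_pow_self
    _ ≤ p ^ B := Nat.pow_le_pow_left hp.two_le B
    _ ≤ p ^ (B + 2) := Nat.pow_le_pow_right hp.pos (by omega)

end CycLayer

end Fermat.Agent.S55
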