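import Fermat.Agent.S55.Global.UnramLoc
import Fermat.Agent.S55.LG.DecompSpec
import Fermat.Agent.S55.GFI.Defs
import Fermat.Agent.S14.AuxFrob

/-!
# S55 / Global, leaf GU-4 (parts c, d, e): the defect `ord_w (g (Frob_w))`, Galois bookkeeping

`glTau_glInfl₁` (c), `glTau_modEq_of_lgPlace_eq` (d), `gl_dvd_log_of_dvd_glTau` (e) of
`CoreFinSpec.lean`, section `FrobOrd`.  Key point: for an unramified embedding `j`, `glFrobAt K q j`
is THE arithmetic Frobenius (Mathlib's `IsArithFrobAt`) at the prime `lgPlace q j`.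
-/

set_option autoImplicit false
set_option linter.unusedSectionVars false
set_option linter.unusedVariables false

noncomputable section

namespace Fermat.Agent.S55

open scoped NumberField Pointwise
open NumberField IsDedekindDomain groupCohomology Fermat.Agent.S14

section Frob

variable {K F : Type} [Field K] [NumberField K] [Field F] [NumberField F]
  [Algebra K F] [IsGalois K F] (q : ℕ) [Fact q.Prime]

/-- `glFrobAt` is `r Frob` for any restriction homomorphism `r`. -/
theorem glfg_glFrobAt_eq (j : F →+* PadicAlgCl q)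
    (r : (lgField q j ≃ₐ[lgField q (j.comp (algebraMap K F))] lgField q j) →* (F ≃ₐ[K] F))
    (hr : ∀ σ x, lgEmb q j (r σ x) = σ (lgEmb q j x)) :
    glFrobAt K q j = r (lfFrob q (lgField q (j.comp (algebraMap K F))) (lgField q j)) :=
  geRes_eq_of_spec (lgEmb q j) _ _ (fun x => hr _ x)

theorem glfg_card_quot (j : F →+* PadicAlgCl q) :
    Nat.card (𝓞 K ⧸ (lgPlace q j).asIdeal.under (𝓞 K)) =
      Ideal.absNorm (lgPlace q (j.comp (algebraMap K F))).asIdeal := by
  have h : (lgPlace q j).asIdeal.under (𝓞 K) = (lgPlace q (j.comp (algebraMap K F))).asIdeal :=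
    lgPlace_under q j
  rw [h, Ideal.absNorm_apply, Submodule.cardQuot_apply]

/-- For an unramified embedding, `glFrobAt` is an arithmetic Frobenius at `lgPlace q j`. -/
theorem glfg_isArithFrobAt (j : F →+* PadicAlgCl q)
    (hur : LfUnramified q (lgField q (j.comp (algebraMap K F))) (lgField q j)) :
    IsArithFrobAt (𝓞 K) (glFrobAt K q j) (lgPlace q j).asIdeal := by
  obtain ⟨r, hr, -, -, -⟩ := lg_exists_res (K := K) q j
  intro x
  rw [glfg_card_quot, lgPlace_asIdeal, mem_lgIdeal_iff]
  have h := lg_res_frob q j hur r hr x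
  rw [← glfg_glFrobAt_eq q j r hr, ← map_pow, ← map_sub] at h
  exact h

theorem glfg_ramificationIdx (j : F →+* PadicAlgCl q)
    (hur : LfUnramified q (lgField q (j.comp (algebraMap K F))) (lgField q j)) :
    (lgPlace q j).asIdeal.ramificationIdx (𝓞 K) = 1 := by
  rw [← lfRamIdx_lgField]
  exact hur

theorem glfg_lfUnramified_of_ramificationIdx (j : F →+* PadicAlgCl q)
    (h : (lgPlace q j).asIdeal.ramificationIdx (𝓞 K) = 1) :
    LfUnramified q (lgField q (j.comp (algebraMap K F))) (lgField q j) := by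
  unfold LfUnramified
  rw [lfRamIdx_lgField]
  exact h

theorem glfg_isUnramifiedAt (j : F →+* PadicAlgCl q)
    (hur : LfUnramified q (lgField q (j.comp (algebraMap K F))) (lgField q j)) :
    Algebra.IsUnramifiedAt (𝓞 K) (lgPlace q j).asIdeal := by
  have := (lgPlace q j).isPrime
  exact Ideal.ramificationIdx_eq_one_iff.mp (glfg_ramificationIdx q j hur)

/-- uniqueness: an arithmetic Frobenius at an unramified `lgPlace q j` is `glFrobAt`. -/
theorem glfg_eq_glFrobAt (j : F →+* PadicAlgCl q)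
    (hur : LfUnramified q (lgField q (j.comp (algebraMap K F))) (lgField q j))
    (σ : F ≃ₐ[K] F) (hσ : IsArithFrobAt (𝓞 K) σ (lgPlace q j).asIdeal) :
    σ = glFrobAt K q j := by
  have := (lgPlace q j).isPrime
  have := glfg_isUnramifiedAt q j hur
  exact artin_frob_unique (lgPlace q j).asIdeal hσ (glfg_isArithFrobAt q j hur)

end Frob

section Ord

variable {F : Type} [Field F] [NumberField F] (q : ℕ) [Fact q.Prime]

theorem glfg_ordAt_mul (j : F →+* PadicAlgCl q) (x y : Fˣ) :
    glOrdAt q j (x * y) = glOrdAt q j x + glOrdAt q j y := by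
  unfold glOrdAt
  rw [Units.val_mul, map_mul]
  exact lfOrd_mul q _ ((map_ne_zero (lgEmb q j)).2 x.ne_zero) ((map_ne_zero (lgEmb q j)).2 y.ne_zero)

theorem glfg_ordAt_inv (j : F →+* PadicAlgCl q) (x : Fˣ) : glOrdAt q j x⁻¹ = - glOrdAt q j x := by
  unfold glOrdAt
  rw [Units.val_inv_eq_inv_val, map_inv₀]
  exact lfOrd_inv q _ _

theorem glfg_ordAt_div (j : F →+* PadicAlgCl q) (x y : Fˣ) :
    glOrdAt q j (x / y) = glOrdAt q j x - glOrdAt q j y := by
  rw [div_eq_mul_inv, glfg_ordAt_mul, glfg_ordAt_inv, sub_eq_add_neg]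

theorem glfg_ordAt_pow (j : F →+* PadicAlgCl q) (x : Fˣ) (n : ℕ) :
    glOrdAt q j (x ^ n) = n * glOrdAt q j x := by
  unfold glOrdAt
  rw [Units.val_pow_eq_pow_val, map_pow]
  exact lfOrd_pow q _ _ n

end Ord

section Cocycle

variable {p : ℕ} {K F : Type} [Field K] [NumberField K] [Field F] [NumberField F]
  [Algebra K F] [IsGalois K F] (q : ℕ) [Fact q.Prime]

/-- elements of the decomposition group preserve `ord_j` -/
theorem glfg_ord_smul (j : F →+* PadicAlgCl q)
    (r : (lgField q j ≃ₐ[lgField q (j.comp (algebraMap K F))] lgField q j) →* (F ≃ₐ[K] F))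
    (hr : ∀ σ x, lgEmb q j (r σ x) = σ (lgEmb q j x))
    (σ : lgField q j ≃ₐ[lgField q (j.comp (algebraMap K F))] lgField q j) (y : Fˣ) :
    glOrdAt q j (r σ • y) = glOrdAt q j y := by
  unfold glOrdAt
  have h : ((r σ • y : Fˣ) : F) = r σ (y : F) := rfl
  rw [h, hr]
  exact lfOrd_algEquiv q _ _ σ _

/-- the `1`-cocycle relation modulo `p` for `σ ↦ ord_j (g σ)` -/
theorem glfg_dvd_of_glD1 (j : F →+* PadicAlgCl q)
    (e : (F ≃ₐ[K] F) × (F ≃ₐ[K] F) → Fˣ) (g : (F ≃ₐ[K] F) → Fˣ) (hcg : glD1 g = e ^ p)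
    (a b : F ≃ₐ[K] F) :
    (p : ℤ) ∣ glOrdAt q j (a • g b) - glOrdAt q j (g (a * b)) + glOrdAt q j (g a) := by
  have h := congrFun hcg (a, b)
  have h1 : a • g b / g (a * b) * g a = e (a, b) ^ p := h
  have h2 := congrArg (glOrdAt q j) h1
  rw [glfg_ordAt_mul, glfg_ordAt_div, glfg_ordAt_pow] at h2
  rw [h2]
  exact dvd_mul_right _ _

end Cocycle

section FrobOrd

variable {p : ℕ} [Fact p.Prime] {K F : Type} [Field K] [NumberField K] [Field F] [NumberField F]
  [Algebra K F] [IsGalois K F] (q : ℕ) [Fact q.Prime]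

/-- (c) the defect is invariant under inflation (unramified places). -/
theorem glTau_glInfl₁ {F' : Type} [Field F'] [NumberField F'] [Algebra K F'] [Algebra F F']
    [IsScalarTower K F F'] [IsGalois K F'] (J : F' →+* PadicAlgCl q)
    (hur : LfUnramified q (lgField q (J.comp (algebraMap K F'))) (lgField q J))
    (g : (F ≃ₐ[K] F) → Fˣ) :
    glTau K q J (glInfl₁ K F F' g) = glTau K q (J.comp (algebraMap F F')) g := by
  have hunder : (lgPlace q J).asIdeal.under (𝓞 F) =
      (lgPlace q (J.comp (algebraMap F F'))).asIdeal := lgPlace_under q J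
  have hlies : (lgPlace q J).asIdeal.LiesOver (lgPlace q (J.comp (algebraMap F F'))).asIdeal :=
    ⟨hunder.symm⟩
  have he' : (lgPlace q J).asIdeal.ramificationIdx (𝓞 K) = 1 := glfg_ramificationIdx q J hur
  have htower := Ideal.ramificationIdx_tower (R := 𝓞 K)
    (lgPlace q (J.comp (algebraMap F F'))).asIdeal (lgPlace q J).asIdeal
  rw [he'] at htower
  have he1 : (lgPlace q (J.comp (algebraMap F F'))).asIdeal.ramificationIdx (𝓞 K) = 1 :=
    Nat.eq_one_of_mul_eq_one_right htower.symm
  have he2 : (lgPlace q J).asIdeal.ramificationIdx (𝓞 F) = 1 :=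
    Nat.eq_one_of_mul_eq_one_left htower.symm
  have hurj : LfUnramified q (lgField q ((J.comp (algebraMap F F')).comp (algebraMap K F)))
      (lgField q (J.comp (algebraMap F F'))) :=
    glfg_lfUnramified_of_ramificationIdx q _ he1
  have hram : lfRamIdx q (lgField q (J.comp (algebraMap F F'))) (lgField q J) = 1 := by
    rw [lfRamIdx_lgField]
    exact he2
  have hfrob : (glFrobAt K q J).restrictNormal F = glFrobAt K q (J.comp (algebraMap F F')) := by
    apply glfg_eq_glFrobAt q _ hurj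
    have h := auxfrob_restrictNormal (E := F) (glfg_isArithFrobAt q J hur)
    rw [hunder] at h
    exact h
  show glOrdAt q J (Units.map (algebraMap F F' : F →* F')
      (g (AlgEquiv.restrictNormalHom F (glFrobAt K q J)))) =
    glOrdAt q (J.comp (algebraMap F F')) (g (glFrobAt K q (J.comp (algebraMap F F'))))
  rw [← hfrob]
  have h := lgp_ord_algebraMap q J
    ((g ((glFrobAt K q J).restrictNormal F) : Fˣ) : F)
  rw [hram, Nat.cast_one, one_mul] at h
  exact h

/-- (d) the defect mod `p` only depends on the place of `K` below, if `d¹ g` is a `p`-th power. -/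
theorem glTau_modEq_of_lgPlace_eq (j j' : F →+* PadicAlgCl q)
    (hur : LfUnramified q (lgField q (j.comp (algebraMap K F))) (lgField q j))
    (h : lgPlace q (j.comp (algebraMap K F)) = lgPlace q (j'.comp (algebraMap K F)))
    (e : (F ≃ₐ[K] F) × (F ≃ₐ[K] F) → Fˣ) (g : (F ≃ₐ[K] F) → Fˣ) (hcg : glD1 g = e ^ p) :
    (p : ℤ) ∣ glTau K q j g - glTau K q j' g := by
  obtain ⟨τ, hτ⟩ := (lgPlace_eq_iff q _ _).mp h
  have hext : j'.comp (algebraMap K F) =
      ((τ : PadicAlgCl q →+* PadicAlgCl q).comp j).comp (algebraMap K F) := by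
    rw [hτ, RingHom.comp_assoc]
  obtain ⟨s, hs⟩ := lg_exists_galois_of_extends q ((τ : PadicAlgCl q →+* PadicAlgCl q).comp j) j'
    hext
  have hj' : ∀ x : F, j' x = τ (j (s x)) := fun x => by rw [hs]; rfl
  have hnorm : ∀ x : F, ‖j' x‖ = ‖j (s x)‖ := fun x => by rw [hj', lgexists_norm_algEquiv]
  have hideal : (lgPlace q j').asIdeal = s⁻¹ • (lgPlace q j).asIdeal := by
    ext x
    rw [Ideal.mem_pointwise_smul_iff_inv_smul_mem, inv_inv, lgPlace_asIdeal, lgPlace_asIdeal,
      mem_lgIdeal_iff, mem_lgIdeal_iff, hnorm]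
    rfl
  have hplace : lgPlace q j' = gfiPrimeMap s.symm (lgPlace q j) := by
    apply HeightOneSpectrum.ext
    ext x
    have hx : gfiIntAut s.symm (gfiIntAut s x) = x := by
      apply RingOfIntegers.ext
      rw [gfiIntAut_apply, gfiIntAut_apply]
      exact s.symm_apply_apply _
    have h1 := mem_gfiPrimeMap s.symm (lgPlace q j) (gfiIntAut s x)
    rw [hx] at h1
    rw [h1, lgPlace_asIdeal, lgPlace_asIdeal, mem_lgIdeal_iff, mem_lgIdeal_iff, hnorm]
    rfl
  have hur' : LfUnramified q (lgField q (j'.comp (algebraMap K F))) (lgField q j') := by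
    apply glfg_lfUnramified_of_ramificationIdx
    rw [hideal, Ideal.ramificationIdx_smul]
    exact glfg_ramificationIdx q j hur
  have hfrob : glFrobAt K q j' = s⁻¹ * glFrobAt K q j * s := by
    symm
    apply glfg_eq_glFrobAt q j' hur'
    have h1 := (glfg_isArithFrobAt q j hur).conj s⁻¹
    rw [inv_inv, ← hideal] at h1
    exact h1
  have hord : ∀ y : Fˣ, glOrdAt q j' y = glOrdAt q j (s • y) := by
    intro y
    have h1 := gl_log_valuation_eq q j' y
    have h2 := gl_log_valuation_eq q j (s • y)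
    have h3 : ((s • y : Fˣ) : F) = s (y : F) := rfl
    rw [h3, gfi_valuation_aut s (lgPlace q j) (y : F), ← hplace, h1] at h2
    exact neg_injective h2
  obtain ⟨r, hr, -, -, -⟩ := lg_exists_res (K := K) q j
  have hφ := glfg_glFrobAt_eq q j r hr
  have hA := glfg_dvd_of_glD1 (p := p) q j e g hcg s (s⁻¹ * glFrobAt K q j * s)
  have hB := glfg_dvd_of_glD1 (p := p) q j e g hcg (glFrobAt K q j) s
  have hmul : s * (s⁻¹ * glFrobAt K q j * s) = glFrobAt K q j * s := by group
  rw [hmul] at hA
  have hsm : glOrdAt q j (glFrobAt K q j • g s) = glOrdAt q j (g s) := by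
    rw [hφ]
    exact glfg_ord_smul q j r hr _ _
  rw [hsm] at hB
  have hT' : glTau K q j' g = glOrdAt q j (s • g (s⁻¹ * glFrobAt K q j * s)) := by
    show glOrdAt q j' (g (glFrobAt K q j')) = _
    rw [hord, hfrob]
  have hT : glTau K q j g = glOrdAt q j (g (glFrobAt K q j)) := rfl
  rw [hT', hT]
  have hfin := Int.dvd_sub hB hA
  convert hfin using 1
  ring

/-- (e) if the defect at `j` is divisible by `p` (and `d¹ g` is a `p`-th power) then `ord_w (g σ)` is
divisible by `p` for every `σ` in the decomposition group of `w = lgPlace q j`: the hypothesis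
`hloc` of `gl_ob_core` at `w`. -/
theorem gl_dvd_log_of_dvd_glTau (j : F →+* PadicAlgCl q)
    (hur : LfUnramified q (lgField q (j.comp (algebraMap K F))) (lgField q j))
    (e : (F ≃ₐ[K] F) × (F ≃ₐ[K] F) → Fˣ) (g : (F ≃ₐ[K] F) → Fˣ) (hcg : glD1 g = e ^ p)
    (hτ : (p : ℤ) ∣ glTau K q j g) (σ : F ≃ₐ[K] F)
    (hσ : ∀ x : 𝓞 F, x ∈ (lgPlace q j).asIdeal →
      (⟨σ x, map_isIntegral_int σ.toAlgHom.toRingHom.toIntAlgHom x.2⟩ : 𝓞 F) ∈
        (lgPlace q j).asIdeal) :
    (p : ℤ) ∣ WithZero.log ((lgPlace q j).valuation F ((g σ : Fˣ) : F)) := by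
  obtain ⟨r, hr, -, -, h4⟩ := lg_exists_res (K := K) q j
  have hφ := glfg_glFrobAt_eq q j r hr
  obtain ⟨σl, rfl⟩ := (h4 σ).2 hσ
  obtain ⟨n, hn⟩ := Subgroup.mem_zpowers_iff.mp (mem_zpowers_lfFrob q _ _ hur σl)
  have rel : ∀ m k : ℤ, (p : ℤ) ∣
      glOrdAt q j (g (r (lfFrob q (lgField q (j.comp (algebraMap K F))) (lgField q j) ^ k))) -
      glOrdAt q j (g (r (lfFrob q (lgField q (j.comp (algebraMap K F))) (lgField q j) ^ (m + k))))
      + glOrdAt q j (g (r (lfFrob q (lgField q (j.comp (algebraMap K F))) (lgField q j) ^ m))) := by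
    intro m k
    have h := glfg_dvd_of_glD1 (p := p) q j e g hcg
      (r (lfFrob q (lgField q (j.comp (algebraMap K F))) (lgField q j) ^ m))
      (r (lfFrob q (lgField q (j.comp (algebraMap K F))) (lgField q j) ^ k))
    rw [glfg_ord_smul q j r hr, ← map_mul, ← zpow_add] at h
    exact h
  have h1 : (p : ℤ) ∣
      glOrdAt q j (g (r (lfFrob q (lgField q (j.comp (algebraMap K F))) (lgField q j) ^ (1 : ℤ)))) := by
    rw [zpow_one, ← hφ]
    exact hτ
  have h0 : (p : ℤ) ∣
      glOrdAt q j (g (r (lfFrob q (lgField q (j.comp (algebraMap K F))) (lgField q j) ^ (0 : ℤ)))) := by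
    have h := rel 0 0
    rw [add_zero, sub_self, zero_add] at h
    exact h
  have key : ∀ m : ℤ, (p : ℤ) ∣
      glOrdAt q j (g (r (lfFrob q (lgField q (j.comp (algebraMap K F))) (lgField q j) ^ m))) := by
    intro m
    induction m using Int.induction_on with
    | zero => exact h0
    | succ i ih =>
      have h := Int.dvd_sub (Int.dvd_add h1 ih) (rel i 1)
      convert h using 1
      ring
    | pred i ih =>
      have h := rel (-(i : ℤ) - 1) 1
      have h2 : -(i : ℤ) - 1 + 1 = -(i : ℤ) := by ring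
      rw [h2] at h
      have h3 := Int.dvd_add (Int.dvd_sub h h1) ih
      convert h3 using 1
      ring
  rw [gl_log_valuation_eq, ← hn]
  exact (dvd_neg).2 (key n)

end FrobOrd

end Fermat.Agent.S55
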