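import Fermat.Agent.S55.Global.CoreFinDefs
import Fermat.Agent.S55.Global.Recip.Support
import Fermat.Agent.S55.Global.FrobOrdGal

/-!
# S55 / Global, GU-4 `FrobOrd.lean`: the defect `ord_w (g (Frob_w))` at unramified places

(a) `geInv_eq_glTau_div`, (b) `glTau_mul`, (f) `glTau_exists_finset` of `CoreFinSpec.lean` section
`FrobOrd`, VERBATIM.  [(c), (d), (e) are in `FrobOrdGal.lean` (helper7).]

Route for (a): `localInv = lfInvUnram` on unramified extensions (`localInv_eq_lfInvUnram`), i.e.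
`inv (c_j) = ord (∏_{i<n} c_j (φ^i, φ)) / n`, and the telescoping identity
`(∏_{i<n} c (Φ^i, Φ)) ^ p = ∏_{i<n} Φ^i • g Φ` for `d¹ g = c ^ p`, `Φ ^ n = 1`.
-/

set_option autoImplicit false
set_option linter.unusedSectionVars false
set_option linter.unusedVariables false

noncomputable section

namespace Fermat.Agent.S55

open scoped NumberField
open NumberField IsDedekindDomain groupCohomology

section Abstract

variable {G : Type} [Group G] {X : Type} [CommGroup X] [MulDistribMulAction G X]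

/-- telescoping: if `d¹ g = c ^ p` and `Φ ^ n = 1` then
`(∏_{i<n} c (Φ^i, Φ)) ^ p = ∏_{i<n} Φ^i • g Φ`. -/
theorem fo_prod_pow_eq (p : ℕ) (c : G × G → X) (g : G → X) (hcg : glD1 g = c ^ p) (Φ : G) (n : ℕ)
    (hn : Φ ^ n = 1) :
    (∏ i ∈ Finset.range n, c (Φ ^ i, Φ)) ^ p = ∏ i ∈ Finset.range n, Φ ^ i • g Φ := by
  have h1 : ∀ i : ℕ, c (Φ ^ i, Φ) ^ p = Φ ^ i • g Φ * (g (Φ ^ i) / g (Φ ^ (i + 1))) := by
    intro i
    have := congrFun hcg (Φ ^ i, Φ)
    simp only [glD1, Pi.pow_apply] at this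
    rw [← this, pow_succ]
    rw [div_mul_eq_mul_div, mul_div_assoc]
  rw [← Finset.prod_pow]
  rw [Finset.prod_congr rfl (fun i _ => h1 i), Finset.prod_mul_distrib]
  have h2 : ∏ i ∈ Finset.range n, (g (Φ ^ i) / g (Φ ^ (i + 1))) = g (Φ ^ 0) / g (Φ ^ n) := by
    clear h1 hn
    induction n with
    | zero => simp
    | succ m ih => rw [Finset.prod_range_succ, ih]; simp
  rw [h2, hn, pow_zero, div_self', mul_one]

end Abstract

section Ord

variable (q : ℕ) [Fact q.Prime] (L : Type) [Field L] [Algebra ℚ_[q] L] [FiniteDimensional ℚ_[q] L]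

/-- `lfOrd` on units as a monoid hom to `Multiplicative ℤ`. -/
def foOrdHom : Lˣ →* Multiplicative ℤ where
  toFun u := Multiplicative.ofAdd (lfOrd q L (u : L))
  map_one' := by simp [lfOrd_one]
  map_mul' x y := by
    rw [Units.val_mul, lfOrd_mul q L x.ne_zero y.ne_zero, ofAdd_add]

theorem foOrdHom_apply (u : Lˣ) : foOrdHom q L u = Multiplicative.ofAdd (lfOrd q L (u : L)) := rfl

theorem fo_lfOrd_prod {ι : Type} (s : Finset ι) (f : ι → Lˣ) :
    lfOrd q L ((∏ i ∈ s, f i : Lˣ) : L) = ∑ i ∈ s, lfOrd q L (f i : L) := by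
  have h := map_prod (foOrdHom q L) f s
  have h2 := congrArg Multiplicative.toAdd h
  rw [foOrdHom_apply, toAdd_ofAdd, toAdd_prod] at h2
  simpa [foOrdHom_apply] using h2

theorem fo_lfOrd_pow (u : Lˣ) (n : ℕ) :
    lfOrd q L ((u ^ n : Lˣ) : L) = n * lfOrd q L (u : L) := by
  rw [Units.val_pow_eq_pow_val, lfOrd_pow]

end Ord

section FrobOrd

variable {p : ℕ} [Fact p.Prime] {K F : Type} [Field K] [NumberField K] [Field F] [NumberField F]
  [Algebra K F] [IsGalois K F] (q : ℕ) [Fact q.Prime]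

set_option synthInstance.maxHeartbeats 400000 in
/-- (a) THE INVARIANT AT AN UNRAMIFIED PLACE OF A `p`-TORSION CLASS. -/
theorem geInv_eq_glTau_div (j : F →+* PadicAlgCl q)
    (hur : LfUnramified q (lgField q (j.comp (algebraMap K F))) (lgField q j))
    (c : (F ≃ₐ[K] F) × (F ≃ₐ[K] F) → Fˣ) (hc : IsMulCocycle₂ c) (g : (F ≃ₐ[K] F) → Fˣ)
    (hcg : glD1 g = c ^ p) :
    geInv q j c = (((glTau K q j g : ℤ) : ℚ) / (p : ℚ) : ℚ) := by
  obtain ⟨r, hr1, hr2, -⟩ := ge_exists_resHomLG (K := K) q j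
  set Kj := lgField q (j.comp (algebraMap K F)) with hKj
  set Fj := lgField q j with hFj
  set φ := lfFrob q Kj Fj with hφ
  set n := orderOf φ with hn
  have hnfin : n = Module.finrank Kj Fj := orderOf_lfFrob q Kj Fj hur
  have hcj : IsMulCocycle₂ (geLocLG q j c) := geLocLG_isMulCocycle₂ q j c hc
  unfold geInv
  rw [localInv_eq_lfInvUnram q Kj Fj hur hcj]
  unfold lfInvUnram
  -- the key product identity
  set Φ : F ≃ₐ[K] F := r φ with hΦ
  have hΦfrob : glFrobAt K q j = Φ := by rw [hΦ, hr1]; rfl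
  have hΦn : Φ ^ n = 1 := by rw [hΦ, ← map_pow, pow_orderOf_eq_one, map_one]
  have hrep : lfUnramRep q Kj Fj (geLocLG q j c) =
      Units.map (lgEmb q j : F →* Fj) (∏ i ∈ Finset.range n, c (Φ ^ i, Φ)) := by
    unfold lfUnramRep
    rw [map_prod]
    refine Finset.prod_congr rfl (fun i _ => ?_)
    show geLocLG q j c (φ ^ i, φ) = _
    unfold geLocLG
    rw [geLoc_apply, ← hr1, ← hr1, map_pow]
  have hpow : (lfUnramRep q Kj Fj (geLocLG q j c)) ^ p =
      ∏ i ∈ Finset.range n, Units.map (lgEmb q j : F →* Fj) (Φ ^ i • g Φ) := by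
    rw [hrep, ← map_pow, fo_prod_pow_eq p c g hcg Φ n hΦn, map_prod]
  have hterm : ∀ i : ℕ,
      lfOrd q Fj ((Units.map (lgEmb q j : F →* Fj) (Φ ^ i • g Φ) : Fjˣ) : Fj) = glTau K q j g := by
    intro i
    have h1 : ((Units.map (lgEmb q j : F →* Fj) (Φ ^ i • g Φ) : Fjˣ) : Fj) =
        (φ ^ i) (lgEmb q j ((g Φ : Fˣ) : F)) := by
      rw [Units.coe_map, AlgEquiv.smul_units_def, Units.coe_map, ← hr2, map_pow]
      rfl
    rw [h1, lfOrd_algEquiv]
    unfold glTau glOrdAt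
    rw [hΦfrob]
  have hord : (p : ℤ) * lfOrd q Fj ((lfUnramRep q Kj Fj (geLocLG q j c) : Fjˣ) : Fj) =
      (n : ℤ) * glTau K q j g := by
    rw [← fo_lfOrd_pow, hpow, fo_lfOrd_prod, Finset.sum_congr rfl (fun i _ => hterm i)]
    simp
  have hp0 : (p : ℚ) ≠ 0 := by exact_mod_cast (Fact.out : p.Prime).ne_zero
  have hn0 : (n : ℚ) ≠ 0 := by
    have := lu_finiteDimensional q Kj Fj
    have : 0 < n := by rw [hnfin]; exact Module.finrank_pos
    exact_mod_cast this.ne'
  have hordQ : (p : ℚ) * (lfOrd q Fj ((lfUnramRep q Kj Fj (geLocLG q j c) : Fjˣ) : Fj) : ℚ) =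
      (n : ℚ) * (glTau K q j g : ℚ) := by exact_mod_cast hord
  rw [← hnfin]
  refine congrArg _ ?_
  rw [div_eq_div_iff hn0 hp0]
  linear_combination hordQ

/-- (b) the defect is additive. -/
theorem glTau_mul (j : F →+* PadicAlgCl q) (g g' : (F ≃ₐ[K] F) → Fˣ) :
    glTau K q j (g * g') = glTau K q j g + glTau K q j g' := by
  unfold glTau glOrdAt
  rw [Pi.mul_apply, Units.val_mul, map_mul]
  exact lfOrd_mul q _ ((lgEmb q j).injective.ne_iff' (map_zero _) |>.2 (Units.ne_zero _))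
    ((lgEmb q j).injective.ne_iff' (map_zero _) |>.2 (Units.ne_zero _))

/-- (f) almost all defects vanish. -/
theorem glTau_exists_finset (g : (F ≃ₐ[K] F) → Fˣ) :
    ∃ B : Finset ℕ, ∀ (q : ℕ) [Fact q.Prime], q ∉ B → ∀ j : F →+* PadicAlgCl q,
      glTau K q j g = 0 := by
  classical
  have : Fintype (F ≃ₐ[K] F) := Fintype.ofFinite _
  choose B hB using fun σ : F ≃ₐ[K] F =>
    ge_exists_finset_norm_eq_one (L := F) ((g σ : Fˣ) : F) (Units.ne_zero _)
  refine ⟨Finset.univ.biUnion B, ?_⟩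
  intro q _ hq j
  have hq' : q ∉ B (glFrobAt K q j) := fun h =>
    hq (Finset.mem_biUnion.2 ⟨_, Finset.mem_univ _, h⟩)
  have h1 := gesup_mem_lfUnits q j (g (glFrobAt K q j)) (hB _ q hq' j)
  rw [mem_lfUnits_iff] at h1
  exact h1

end FrobOrd

end Fermat.Agent.S55
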