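/-
S55 / Global, shared small lemmas on the local invariants `geInv` of global `2`-cocycles:
`geInv_one`, `geInv_pow`, `geInv_div`, `geInv_glD1` (coboundaries have invariant `0`) and the
transport lemma `geInv_eq_choice` (the invariant at an arbitrary embedding is the invariant at the
chosen embedding over the same place).  Black boxes: helper6's `LocLGSpec`, `IndepSpec`,
`SupportSpec`.  Helper names are prefixed `gei`.
-/
import Fermat.Agent.S55.Global.Recip.IndepSpec
import Fermat.Agent.S55.Global.Recip.SupportSpec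

set_option autoImplicit false
set_option linter.unusedSectionVars false
set_option linter.unusedVariables false

noncomputable section

namespace Fermat.Agent.S55

open NumberField IsDedekindDomain groupCohomology

section Cochains

variable {G : Type} [Group G] {X : Type} [CommGroup X] [MulDistribMulAction G X]

theorem gei_coc_one : IsMulCocycle₂ (1 : G × G → X) := by
  intro g h j
  simp

theorem gei_cob_one : IsMulCoboundary₂ (1 : G × G → X) :=
  ⟨1, fun g h => by simp⟩

theorem gei_coc_pow {c : G × G → X} (hc : IsMulCocycle₂ c) (n : ℕ) : IsMulCocycle₂ (c ^ n) := by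
  induction n with
  | zero => rw [pow_zero]; exact gei_coc_one
  | succ k ih => rw [pow_succ]; exact lbu_coc_mul ih hc

theorem gei_cob_pow {c : G × G → X} (hc : IsMulCoboundary₂ c) (n : ℕ) :
    IsMulCoboundary₂ (c ^ n) := by
  induction n with
  | zero => rw [pow_zero]; exact gei_cob_one
  | succ k ih => rw [pow_succ]; exact lbu_cob_mul ih hc

end Cochains

section Inv

variable (q : ℕ) [Fact q.Prime] {K L : Type} [Field K] [NumberField K] [Field L] [NumberField L]
  [Algebra K L]

theorem geInv_one [IsGalois K L] (j : L →+* PadicAlgCl q) :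
    geInv q j (1 : (L ≃ₐ[K] L) × (L ≃ₐ[K] L) → Lˣ) = 0 := by
  have h := geInv_mul q j (K := K) (L := L) gei_coc_one gei_coc_one
  rw [mul_one] at h
  exact left_eq_add.mp h

theorem geInv_pow [IsGalois K L] (j : L →+* PadicAlgCl q)
    {c : (L ≃ₐ[K] L) × (L ≃ₐ[K] L) → Lˣ} (hc : IsMulCocycle₂ c) (n : ℕ) :
    geInv q j (c ^ n) = n • geInv q j c := by
  induction n with
  | zero => rw [pow_zero, zero_smul]; exact geInv_one q j
  | succ k ih => rw [pow_succ, geInv_mul q j (gei_coc_pow hc k) hc, ih, succ_nsmul]

theorem geInv_div [IsGalois K L] (j : L →+* PadicAlgCl q)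
    {c c' : (L ≃ₐ[K] L) × (L ≃ₐ[K] L) → Lˣ} (hc : IsMulCocycle₂ c) (hc' : IsMulCocycle₂ c') :
    geInv q j (c / c') = geInv q j c - geInv q j c' := by
  have h := geInv_mul q j (lbu_coc_div hc hc') hc'
  rw [div_mul_cancel] at h
  rw [h, add_sub_cancel_right]

/-- global coboundaries have invariant `0` -/
theorem geInv_eq_zero_of_isMulCoboundary₂ [IsGalois K L] (j : L →+* PadicAlgCl q)
    {c : (L ≃ₐ[K] L) × (L ≃ₐ[K] L) → Lˣ} (hc : IsMulCocycle₂ c) (h : IsMulCoboundary₂ c) :
    geInv q j c = 0 :=
  (geInv_eq_zero_iff q j hc).2 (geLocLG_isMulCoboundary₂ q j c h)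

/-- transport along an equality of primes -/
theorem gei_transport [IsGalois K L] (j : L →+* PadicAlgCl q)
    {c : (L ≃ₐ[K] L) × (L ≃ₐ[K] L) → Lˣ} (hc : IsMulCocycle₂ c) :
    ∀ (q' : ℕ) (h : q' = q) [Fact q'.Prime] (j' : L →+* PadicAlgCl q'),
      lgPlace q' (j'.comp (algebraMap K L)) = lgPlace q (j.comp (algebraMap K L)) →
      geInv q' j' c = geInv q j c := by
  intro q' h
  subst h
  intro _ j' hpl
  exact geInv_eq_of_lgPlace_eq q' j' j hpl hc

/-- THE TRANSPORT LEMMA: the invariant at an arbitrary embedding `j` is the invariant at the chosen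
embedding over the place of `K` below `j`. -/
theorem geInv_eq_choice [IsGalois K L] (𝔧 : GeChoice K L) (j : L →+* PadicAlgCl q)
    {c : (L ≃ₐ[K] L) × (L ≃ₐ[K] L) → Lˣ} (hc : IsMulCocycle₂ c) :
    geInv q j c =
      geInv (gePrime K (lgPlace q (j.comp (algebraMap K L))))
        (𝔧.emb (lgPlace q (j.comp (algebraMap K L)))) c :=
  (gei_transport q j hc (gePrime K (lgPlace q (j.comp (algebraMap K L))))
    (gePrime_lgPlace q (j.comp (algebraMap K L)))
    (𝔧.emb (lgPlace q (j.comp (algebraMap K L))))
    (𝔧.place_eq (lgPlace q (j.comp (algebraMap K L))))).symm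

end Inv

end Fermat.Agent.S55
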