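import Fermat.Agent.S55.Global.ObCore

/-!
# S55 / Global: `gl_ob_core` (shim: the statement is proved in `Global/ObCore.lean`)
-/
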