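/-
S55 / Global, `Global/RealiseCyc.lean`: realisation of a finitely supported `p ^ k`-torsion family
of invariants with sum `0` by a cyclic cocycle of a cyclic `p`-power `S`-field
(`gl_exists_cyclic_layer` + `ge_realise` + the transport lemma `geInv_eq_choice`).
Shared by GU-5 (`RealiseMu.lean`) and GU-6 (`H3Mu.lean`).
-/
import Fermat.Agent.S55.Global.Recip.Spec
import Fermat.Agent.S55.Global.CycLayer
import Fermat.Agent.S55.Global.GeInvExtra

set_option autoImplicit false
set_option linter.unusedSectionVars false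
set_option linter.unusedVariables false

noncomputable section

namespace Fermat.Agent.S55

open scoped NumberField
open NumberField IsDedekindDomain groupCohomology

variable {p : ℕ} [Fact p.Prime]

/-- Every finitely supported family `r` of `p ^ k`-torsion invariants with sum `0` is the family of
local invariants (at ALL embeddings) of a cyclic cocycle `cycCocycle σ a`, `a ∈ Kˣ`, of a cyclic
`S`-field `L / K` of `p`-power degree with generator `σ`. -/
theorem gl_realise_cyc_gen (hp2 : p ≠ 2) (S : Finset Nat.Primes)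
    (hpS : ∃ q ∈ S, ((q : Nat.Primes) : ℕ) = p)
    (K : Type) [Field K] [NumberField K] (hζ : ∃ ζ : K, IsPrimitiveRoot ζ p)
    (r : HeightOneSpectrum (𝓞 K) → AddCircle (1 : ℚ)) (hfin : (Function.support r).Finite)
    (k : ℕ) (hk : ∀ v, p ^ k • r v = 0) (hsum : ∑ᶠ v, r v = 0) :
    ∃ (L : Type) (_ : Field L) (_ : NumberField L) (_ : Algebra K L) (_ : IsGalois K L) (m : ℕ)
      (σ : L ≃ₐ[K] L) (a : Kˣ),
      GlUnramOutside S K L ∧ Module.finrank K L = p ^ m ∧
      (∀ g : L ≃ₐ[K] L, g ∈ Subgroup.zpowers σ) ∧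
      IsMulCocycle₂ (cycCocycle σ (Units.map (algebraMap K L : K →* L) a)) ∧
        ∀ (q : ℕ) [Fact q.Prime] (j : L →+* PadicAlgCl q),
          geInv q j (cycCocycle σ (Units.map (algebraMap K L : K →* L) a)) =
            r (lgPlace q (j.comp (algebraMap K L))) := by
  classical
  obtain ⟨L, _, _, _, _, m, σ, hurL, hdegL, hσ, hlocdeg⟩ :=
    gl_exists_cyclic_layer hp2 S hpS K hζ hfin.toFinset k
  obtain ⟨ζ, hζ'⟩ := hζ
  obtain ⟨𝔧⟩ := geChoice_nonempty K L
  have hloc : ∀ v, Module.finrank (lgField (gePrime K v) ((𝔧.emb v).comp (algebraMap K L)))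
      (lgField (gePrime K v) (𝔧.emb v)) • r v = 0 := by
    intro v
    by_cases hv : r v = 0
    · rw [hv, smul_zero]
    · have hvT : lgPlace (gePrime K v) ((𝔧.emb v).comp (algebraMap K L)) ∈ hfin.toFinset := by
        rw [𝔧.place_eq v, Set.Finite.mem_toFinset]
        exact hv
      obtain ⟨t, ht⟩ := hlocdeg (gePrime K v) (𝔧.emb v) hvT
      rw [ht, mul_comm, mul_smul, hk v, smul_zero]
  obtain ⟨a, ha⟩ := ge_realise hp2 hdegL hζ' σ hσ 𝔧 r hfin hloc hsum
  have hfix : σ • Units.map (algebraMap K L : K →* L) a = Units.map (algebraMap K L : K →* L) a := by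
    apply Units.ext
    change σ (algebraMap K L (a : K)) = algebraMap K L (a : K)
    exact σ.commutes _
  have hc0 := cycCocycle_isMulCocycle₂ σ hσ _ hfix
  refine ⟨L, inferInstance, inferInstance, inferInstance, inferInstance, m, σ, a, hurL, hdegL, hσ,
    hc0, ?_⟩
  intro q _ j
  rw [geInv_eq_choice q 𝔧 j hc0, ha]

/-- cocycle form of `gl_realise_cyc_gen` -/
theorem gl_realise_cyc (hp2 : p ≠ 2) (S : Finset Nat.Primes)
    (hpS : ∃ q ∈ S, ((q : Nat.Primes) : ℕ) = p)
    (K : Type) [Field K] [NumberField K] (hζ : ∃ ζ : K, IsPrimitiveRoot ζ p)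
    (r : HeightOneSpectrum (𝓞 K) → AddCircle (1 : ℚ)) (hfin : (Function.support r).Finite)
    (k : ℕ) (hk : ∀ v, p ^ k • r v = 0) (hsum : ∑ᶠ v, r v = 0) :
    ∃ (L : Type) (_ : Field L) (_ : NumberField L) (_ : Algebra K L) (_ : IsGalois K L) (m : ℕ),
      GlUnramOutside S K L ∧ Module.finrank K L = p ^ m ∧
      ∃ c0 : (L ≃ₐ[K] L) × (L ≃ₐ[K] L) → Lˣ, IsMulCocycle₂ c0 ∧
        ∀ (q : ℕ) [Fact q.Prime] (j : L →+* PadicAlgCl q),
          geInv q j c0 = r (lgPlace q (j.comp (algebraMap K L))) := by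
  obtain ⟨L, i1, i2, i3, i4, m, σ, a, hur, hdeg, hσ, hc0, hinv⟩ :=
    gl_realise_cyc_gen hp2 S hpS K hζ r hfin k hk hsum
  exact ⟨L, i1, i2, i3, i4, m, hur, hdeg, _, hc0, hinv⟩

end Fermat.Agent.S55
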