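/-
S55 / Global, GU-6 auxiliary file for `Global/H3Mu.lean` (U4 `gl_h3_mu_vanish`): shared lemmas of the
two correction steps.
* `glh3_exists_balance`  : correct a finitely supported family at one index so that its sum vanishes.
* `glh3_exists_above`    : there is a finite place of `K` above `S ∋ p`.
* `glh3_exists_div`      : division by `p` in `ℚ/ℤ`.
Helper names are prefixed `glh3`.
-/
import Fermat.Agent.S55.Global.Recip.Spec
import Fermat.Agent.S55.Global.ObSpec
import Fermat.Agent.S55.Global.H3Spec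
import Fermat.Agent.S55.Global.UnramLoc
import Fermat.Agent.S55.Global.CycLayer
import Fermat.Agent.S55.Global.Compositum
import Fermat.Agent.S55.Global.Infl
import Fermat.Agent.S55.Global.FrobOrd
import Fermat.Agent.S55.Global.GeInvExtra
import Fermat.Agent.S55.Global.RealiseCyc

set_option autoImplicit false
set_option linter.unusedSectionVars false
set_option linter.unusedVariables false

noncomputable section

namespace Fermat.Agent.S55

open scoped NumberField
open NumberField IsDedekindDomain groupCohomology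

section Balance

/-- correct a finitely supported family at the index `v0` so that its sum vanishes -/
theorem glh3_exists_balance {ι A : Type} [AddCommGroup A] (r₀ : ι → A)
    (hfin : (Function.support r₀).Finite) (v0 : ι) :
    ∃ r : ι → A, (Function.support r).Finite ∧ ∑ᶠ v, r v = 0 ∧ (∀ v, v ≠ v0 → r v = r₀ v) ∧
      ∀ n : ℕ, (∑ᶠ v, n • r₀ v = 0) → ∀ v, n • r v = n • r₀ v := by
  classical
  set s : A := ∑ᶠ v, r₀ v with hs
  set d : ι → A := fun v => if v = v0 then s else 0 with hd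
  have hd0 : d v0 = s := by rw [hd]; exact if_pos rfl
  have hdne : ∀ v, v ≠ v0 → d v = 0 := fun v hv => by rw [hd]; exact if_neg hv
  have hsingle : (Function.support d).Finite := by
    refine (Set.finite_singleton v0).subset ?_
    intro v hv
    by_contra hv'
    exact hv (hdne v hv')
  refine ⟨fun v => r₀ v - d v, ?_, ?_, ?_, ?_⟩
  · refine (hfin.union hsingle).subset ?_
    intro v hv
    by_contra hv'
    rw [Set.mem_union, not_or, Function.notMem_support, Function.notMem_support] at hv'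
    apply hv
    show r₀ v - d v = 0
    rw [hv'.1, hv'.2, sub_zero]
  · have h2 : ∑ᶠ v, d v = s := by
      rw [finsum_eq_single d v0 hdne, hd0]
    rw [finsum_sub_distrib hfin hsingle, h2, sub_self]
  · intro v hv
    show r₀ v - d v = r₀ v
    rw [hdne v hv, sub_zero]
  · intro n hn v
    show n • (r₀ v - d v) = n • r₀ v
    have h0 : n • s = 0 := by
      rw [hs, smul_finsum' n hfin]
      exact hn
    by_cases hv : v = v0
    · rw [hv, hd0, smul_sub, h0, sub_zero]
    · rw [hdne v hv, sub_zero]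

/-- division by `n ≠ 0` in `ℚ/ℤ` -/
theorem glh3_exists_div (n : ℕ) (hn : n ≠ 0) (x : AddCircle (1 : ℚ)) :
    ∃ y : AddCircle (1 : ℚ), n • y = x := by
  obtain ⟨t, rfl⟩ := QuotientAddGroup.mk_surjective x
  refine ⟨((t / (n : ℚ) : ℚ) : AddCircle (1 : ℚ)), ?_⟩
  have hn' : (n : ℚ) ≠ 0 := Nat.cast_ne_zero.2 hn
  have h1 : n • (t / (n : ℚ)) = t := by
    rw [nsmul_eq_mul]
    field_simp
  calc n • ((t / (n : ℚ) : ℚ) : AddCircle (1 : ℚ))
      = ((n • (t / (n : ℚ)) : ℚ) : AddCircle (1 : ℚ)) := rfl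
    _ = _ := by rw [h1]

/-- integers vanish in `ℚ/ℤ` -/
theorem glh3_coe_int_eq_zero (n : ℤ) : (((n : ℚ) : ℚ) : AddCircle (1 : ℚ)) = 0 := by
  rw [AddCircle.coe_eq_zero_iff]
  exact ⟨n, by simp⟩

/-- `p • (n / p) = 0` in `ℚ/ℤ` -/
theorem glh3_nsmul_coe_div (p : ℕ) (hp : p ≠ 0) (n : ℤ) :
    p • (((n : ℚ) / (p : ℚ) : ℚ) : AddCircle (1 : ℚ)) = 0 := by
  have hp' : (p : ℚ) ≠ 0 := Nat.cast_ne_zero.2 hp
  have h1 : p • ((n : ℚ) / (p : ℚ)) = (n : ℚ) := by
    rw [nsmul_eq_mul]
    field_simp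
  calc p • (((n : ℚ) / (p : ℚ) : ℚ) : AddCircle (1 : ℚ))
      = ((p • ((n : ℚ) / (p : ℚ)) : ℚ) : AddCircle (1 : ℚ)) := rfl
    _ = 0 := by rw [h1]; exact glh3_coe_int_eq_zero n

/-- an element of `ℚ/ℤ` of the form `n / p` vanishes iff `p ∣ n` -/
theorem glh3_dvd_of_coe_eq_zero {p : ℕ} (hp : p ≠ 0) (n : ℤ)
    (h : (((n : ℚ) / (p : ℚ) : ℚ) : AddCircle (1 : ℚ)) = 0) : (p : ℤ) ∣ n := by
  rw [AddCircle.coe_eq_zero_iff] at h
  obtain ⟨k, hk⟩ := h
  refine ⟨k, ?_⟩
  have hp' : (p : ℚ) ≠ 0 := Nat.cast_ne_zero.2 hp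
  have h2 : (n : ℚ) = (p : ℚ) * (k : ℚ) := by
    field_simp at hk
    rw [← hk]
    simp [mul_comm]
  exact_mod_cast h2

end Balance

section Above

variable {p : ℕ} [Fact p.Prime]

/-- there is a finite place of `K` above `S ∋ p` -/
theorem glh3_exists_above (S : Finset Nat.Primes) (hpS : ∃ q ∈ S, ((q : Nat.Primes) : ℕ) = p)
    (K : Type) [Field K] [NumberField K] : ∃ v0 : HeightOneSpectrum (𝓞 K), GlAbove S K v0 := by
  obtain ⟨s, hs, hsp⟩ := hpS
  obtain ⟨i, -⟩ := ge_exists_extend (K := ℚ) (L := K) p (algebraMap ℚ (PadicAlgCl p))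
  refine ⟨lgPlace p i, s, hs, ?_⟩
  have h := natCast_gePrime_mem (lgPlace p i)
  rw [gePrime_lgPlace p i] at h
  rw [hsp]
  exact h

/-- a place not above `S` has residue characteristic outside `S` -/
theorem glh3_gePrime_ne (S : Finset Nat.Primes) {K : Type} [Field K] [NumberField K]
    (v : HeightOneSpectrum (𝓞 K)) (hv : ¬ GlAbove S K v) :
    ∀ s ∈ S, ((s : Nat.Primes) : ℕ) ≠ gePrime K v := by
  intro s hs h
  apply hv
  refine ⟨s, hs, ?_⟩
  rw [h]
  exact natCast_gePrime_mem v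

end Above

end Fermat.Agent.S55
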