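/-
S55 / Global, GU-6 second half (steps (f)-(h) of row 299): the SECOND CORRECTION (kill the defect
`ord_w (g (Frob_w))` outside `S` by a cyclic layer) followed by `gl_ob_core`:
`gl_h3mu_second`: if `e ^ p = d¹ g` on an `S`-field `F`, then after inflation to a bigger `S`-field
`d² e` is the coboundary of a `μ_p`-valued `2`-cochain.
Helper names are prefixed `glh3`.
-/
import Fermat.Agent.S55.Global.H3MuAux

set_option autoImplicit false
set_option linter.unusedSectionVars false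
set_option linter.unusedVariables false

noncomputable section

namespace Fermat.Agent.S55

open scoped NumberField
open NumberField IsDedekindDomain groupCohomology

section Infl

variable (K F F' : Type) [Field K] [Field F] [Field F'] [Algebra K F] [Algebra F F']
  [Algebra K F'] [IsScalarTower K F F'] [Normal K F]

theorem glh3_glInfl₃_one :
    glInfl₃ K F F' (1 : (F ≃ₐ[K] F) × (F ≃ₐ[K] F) × (F ≃ₐ[K] F) → Fˣ) = 1 := by
  have h := glInfl₃_pow K F F' (1 : (F ≃ₐ[K] F) × (F ≃ₐ[K] F) × (F ≃ₐ[K] F) → Fˣ) 0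
  rw [pow_zero, pow_zero] at h
  exact h

end Infl

section Defect

variable {p : ℕ} [Fact p.Prime]

/-- the family of corrections of the defect: `r v = - ord_v (g (Frob_v)) / p` outside `S`, `p • r = 0`,
finite support, sum `0` (balanced at a place `v0` above `S`). -/
theorem glh3_exists_defect_family (S : Finset Nat.Primes) {K F : Type} [Field K] [NumberField K]
    [Field F] [NumberField F] [Algebra K F] [IsGalois K F] (g : (F ≃ₐ[K] F) → Fˣ)
    (𝔧 : GeChoice K F) (v0 : HeightOneSpectrum (𝓞 K)) (hv0 : GlAbove S K v0) :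
    ∃ r : HeightOneSpectrum (𝓞 K) → AddCircle (1 : ℚ), (Function.support r).Finite ∧
      (∀ v, p • r v = 0) ∧ ∑ᶠ v, r v = 0 ∧
      ∀ v, ¬ GlAbove S K v →
        r v = ((((-(glTau K (gePrime K v) (𝔧.emb v) g) : ℤ) : ℚ) / (p : ℚ) : ℚ) :
          AddCircle (1 : ℚ)) := by
  classical
  have hp : p.Prime := Fact.out
  obtain ⟨B, hB⟩ := glTau_exists_finset (K := K) g
  set r₀ : HeightOneSpectrum (𝓞 K) → AddCircle (1 : ℚ) := fun v =>
    if GlAbove S K v then 0 else
      ((((-(glTau K (gePrime K v) (𝔧.emb v) g) : ℤ) : ℚ) / (p : ℚ) : ℚ) : AddCircle (1 : ℚ))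
    with hr₀
  have hfin : (Function.support r₀).Finite := by
    have hfinU : (⋃ q ∈ B, {v : HeightOneSpectrum (𝓞 K) | gePrime K v = q}).Finite :=
      Set.Finite.biUnion B.finite_toSet (fun q _ => gePrime_finite_fiber q)
    refine hfinU.subset ?_
    intro v hv
    by_contra hv'
    apply hv
    have hvB : gePrime K v ∉ B := by
      intro hmem
      apply hv'
      simp only [Set.mem_iUnion, Set.mem_setOf_eq, exists_prop]
      exact ⟨gePrime K v, hmem, rfl⟩
    have h0 := hB (gePrime K v) hvB (𝔧.emb v)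
    show (if GlAbove S K v then (0 : AddCircle (1 : ℚ)) else
      ((((-(glTau K (gePrime K v) (𝔧.emb v) g) : ℤ) : ℚ) / (p : ℚ) : ℚ) : AddCircle (1 : ℚ))) = 0
    rw [h0]
    split_ifs
    · rfl
    · simp
  have hp0 : ∀ v, p • r₀ v = 0 := by
    intro v
    show p • (if GlAbove S K v then (0 : AddCircle (1 : ℚ)) else
      ((((-(glTau K (gePrime K v) (𝔧.emb v) g) : ℤ) : ℚ) / (p : ℚ) : ℚ) : AddCircle (1 : ℚ))) = 0
    split_ifs
    · exact smul_zero _
    · exact glh3_nsmul_coe_div p hp.ne_zero _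
  obtain ⟨r, hrfin, hrsum, hrne, hrn⟩ := glh3_exists_balance r₀ hfin v0
  refine ⟨r, hrfin, ?_, hrsum, ?_⟩
  · intro v
    have hz : ∑ᶠ v, p • r₀ v = 0 := by
      rw [finsum_congr hp0]
      exact finsum_zero
    rw [hrn p hz v, hp0]
  · intro v hv
    have hne : v ≠ v0 := by
      rintro rfl
      exact hv hv0
    rw [hrne v hne]
    show (if GlAbove S K v then (0 : AddCircle (1 : ℚ)) else _) = _
    rw [if_neg hv]

/-- the second correction: a cyclic `p`-power `S`-field `L/K` with a cocycle `c2`, `c2 ^ p = d¹ g'`,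
whose invariants outside `S` are `- ord_v (g (Frob_v)) / p`. -/
theorem glh3_exists_second_layer (hp2 : p ≠ 2) (S : Finset Nat.Primes)
    (hpS : ∃ q ∈ S, ((q : Nat.Primes) : ℕ) = p)
    (K F : Type) [Field K] [NumberField K] [Field F] [NumberField F] [Algebra K F] [IsGalois K F]
    (hζ : ∃ ζ : K, IsPrimitiveRoot ζ p) (g : (F ≃ₐ[K] F) → Fˣ) (𝔧 : GeChoice K F) :
    ∃ (L : Type) (_ : Field L) (_ : NumberField L) (_ : Algebra K L) (_ : IsGalois K L),
      GlUnramOutside S K L ∧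
      ∃ (c2 : (L ≃ₐ[K] L) × (L ≃ₐ[K] L) → Lˣ) (g' : (L ≃ₐ[K] L) → Lˣ)
        (r : HeightOneSpectrum (𝓞 K) → AddCircle (1 : ℚ)),
        IsMulCocycle₂ c2 ∧ glD1 g' = c2 ^ p ∧
        (∀ v, ¬ GlAbove S K v →
          r v = ((((-(glTau K (gePrime K v) (𝔧.emb v) g) : ℤ) : ℚ) / (p : ℚ) : ℚ) :
            AddCircle (1 : ℚ))) ∧
        ∀ (q : ℕ) [Fact q.Prime] (j : L →+* PadicAlgCl q),
          geInv q j c2 = r (lgPlace q (j.comp (algebraMap K L))) := by
  obtain ⟨v0, hv0⟩ := glh3_exists_above (p := p) S hpS K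
  obtain ⟨r, hrfin, hrp, hrsum, hr⟩ := glh3_exists_defect_family (p := p) S g 𝔧 v0 hv0
  obtain ⟨L, _, _, _, _, m, hurL, hdegL, c2, hc2, hinv⟩ :=
    gl_realise_cyc hp2 S hpS K hζ r hrfin 1 (fun v => by rw [pow_one]; exact hrp v) hrsum
  obtain ⟨ζ, hζ'⟩ := hζ
  have hc2p : IsMulCocycle₂ (c2 ^ p) := gei_coc_pow hc2 p
  have hcob : IsMulCoboundary₂ (c2 ^ p) := by
    apply ge_hasse_principle hp2 hdegL hζ' (c2 ^ p) hc2p
    intro q _ j
    rw [← geInv_eq_zero_iff q j hc2p, geInv_pow q j hc2, hinv q j, hrp]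
  obtain ⟨g', hg'⟩ := (isMulCoboundary₂_iff_glD1 _).1 hcob
  exact ⟨L, inferInstance, inferInstance, inferInstance, inferInstance, hurL, c2, g', r, hc2, hg',
    hr, hinv⟩

end Defect

section Hloc

variable {p : ℕ} [Fact p.Prime]

/-- transport of `glTau_modEq_of_lgPlace_eq` along an equality of primes -/
theorem glh3_tau_transport (q : ℕ) [Fact q.Prime] {K F : Type} [Field K] [NumberField K] [Field F]
    [NumberField F] [Algebra K F] [IsGalois K F] (j : F →+* PadicAlgCl q)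
    (hur : LfUnramified q (lgField q (j.comp (algebraMap K F))) (lgField q j))
    (e : (F ≃ₐ[K] F) × (F ≃ₐ[K] F) → Fˣ) (g : (F ≃ₐ[K] F) → Fˣ) (hcg : glD1 g = e ^ p) :
    ∀ (q' : ℕ) (h : q' = q) [Fact q'.Prime] (j' : F →+* PadicAlgCl q'),
      lgPlace q' (j'.comp (algebraMap K F)) = lgPlace q (j.comp (algebraMap K F)) →
      (p : ℤ) ∣ glTau K q j g - glTau K q' j' g := by
  intro q' h
  subst h
  intro _ j' hpl
  exact glTau_modEq_of_lgPlace_eq q' j j' hur hpl.symm e g hcg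

/-- THE LOCAL HYPOTHESIS OF `gl_ob_core` on the compositum `M` of `F` and the second layer `L`. -/
theorem glh3_hloc (S : Finset Nat.Primes) (K F L M : Type) [Field K] [NumberField K] [Field F]
    [NumberField F] [Field L] [NumberField L] [Field M] [NumberField M]
    [Algebra K F] [Algebra K L] [Algebra K M] [Algebra F M] [Algebra L M] [IsScalarTower K F M]
    [IsScalarTower K L M] [IsGalois K F] [IsGalois K L] [IsGalois K M]
    (hurF : GlUnramOutside S K F) (hurL : GlUnramOutside S K L) (hurM : GlUnramOutside S K M)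
    (e : (F ≃ₐ[K] F) × (F ≃ₐ[K] F) → Fˣ) (g : (F ≃ₐ[K] F) → Fˣ) (heg : glD1 g = e ^ p)
    (c2 : (L ≃ₐ[K] L) × (L ≃ₐ[K] L) → Lˣ) (hc2 : IsMulCocycle₂ c2) (g' : (L ≃ₐ[K] L) → Lˣ)
    (hg' : glD1 g' = c2 ^ p) (𝔧 : GeChoice K F)
    (r : HeightOneSpectrum (𝓞 K) → AddCircle (1 : ℚ))
    (hr : ∀ v, ¬ GlAbove S K v →
      r v = ((((-(glTau K (gePrime K v) (𝔧.emb v) g) : ℤ) : ℚ) / (p : ℚ) : ℚ) :
        AddCircle (1 : ℚ)))
    (hinv : ∀ (q : ℕ) [Fact q.Prime] (j : L →+* PadicAlgCl q),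
      geInv q j c2 = r (lgPlace q (j.comp (algebraMap K L))))
    (w : HeightOneSpectrum (𝓞 M)) (hw : ¬ GlAbove S M w) (σ : M ≃ₐ[K] M)
    (hσ : ∀ x : 𝓞 M, x ∈ w.asIdeal →
      (⟨σ x, map_isIntegral_int σ.toAlgHom.toRingHom.toIntAlgHom x.2⟩ : 𝓞 M) ∈ w.asIdeal) :
    (p : ℤ) ∣ WithZero.log
      (w.valuation M (((glInfl₁ K F M g * glInfl₁ K L M g') σ : Mˣ) : M)) := by
  have hpp : p.Prime := Fact.out
  obtain ⟨q, hqf, J, hq, rfl⟩ := gl_exists_lgPlace_eq S w hw
  have hurJ := gl_lfUnramified_of_unramOutside S hurM q hq J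
  have hjFK : (J.comp (algebraMap F M)).comp (algebraMap K F) = J.comp (algebraMap K M) := by
    rw [RingHom.comp_assoc, ← IsScalarTower.algebraMap_eq K F M]
  have hjLK : (J.comp (algebraMap L M)).comp (algebraMap K L) = J.comp (algebraMap K M) := by
    rw [RingHom.comp_assoc, ← IsScalarTower.algebraMap_eq K L M]
  have hurjF := gl_lfUnramified_of_unramOutside S hurF q hq (J.comp (algebraMap F M))
  have hurjL := gl_lfUnramified_of_unramOutside S hurL q hq (J.comp (algebraMap L M))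
  have hcg3 : glD1 (glInfl₁ K F M g * glInfl₁ K L M g') =
      (glInfl₂ K F M e * glInfl₂ K L M c2) ^ p := by
    rw [glD1_mul, ← glInfl₂_glD1, ← glInfl₂_glD1, heg, hg', glInfl₂_pow, glInfl₂_pow, mul_pow]
  apply gl_dvd_log_of_dvd_glTau q J hurJ (glInfl₂ K F M e * glInfl₂ K L M c2) _ hcg3 ?_ σ hσ
  rw [glTau_mul, glTau_glInfl₁ q J hurJ g, glTau_glInfl₁ q J hurJ g']
  -- the place of `K` below
  have hv : ¬ GlAbove S K (lgPlace q (J.comp (algebraMap K M))) :=
    gl_not_glAbove_lgPlace S q hq (J.comp (algebraMap K M))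
  have h1 := geInv_eq_glTau_div (p := p) q (J.comp (algebraMap L M)) hurjL c2 hc2 g' hg'
  rw [hinv q (J.comp (algebraMap L M)), hjLK, hr _ hv] at h1
  have h2 : (p : ℤ) ∣ glTau K q (J.comp (algebraMap L M)) g' -
      (-(glTau K (gePrime K (lgPlace q (J.comp (algebraMap K M))))
        (𝔧.emb (lgPlace q (J.comp (algebraMap K M)))) g)) := by
    apply glh3_dvd_of_coe_eq_zero hpp.ne_zero
    rw [Int.cast_sub, sub_div, AddCircle.coe_sub, ← h1, sub_self]
  have h3 : (p : ℤ) ∣ glTau K q (J.comp (algebraMap F M)) g -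
      glTau K (gePrime K (lgPlace q (J.comp (algebraMap K M))))
        (𝔧.emb (lgPlace q (J.comp (algebraMap K M)))) g := by
    apply glh3_tau_transport q (J.comp (algebraMap F M)) hurjF e g heg
      (gePrime K (lgPlace q (J.comp (algebraMap K M)))) (gePrime_lgPlace q _)
      (𝔧.emb (lgPlace q (J.comp (algebraMap K M))))
    rw [𝔧.place_eq, hjFK]
  have h4 := dvd_add h3 h2
  have h5 : glTau K q (J.comp (algebraMap F M)) g -
      glTau K (gePrime K (lgPlace q (J.comp (algebraMap K M))))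
        (𝔧.emb (lgPlace q (J.comp (algebraMap K M)))) g +
      (glTau K q (J.comp (algebraMap L M)) g' -
      (-(glTau K (gePrime K (lgPlace q (J.comp (algebraMap K M))))
        (𝔧.emb (lgPlace q (J.comp (algebraMap K M)))) g))) =
      glTau K q (J.comp (algebraMap F M)) g + glTau K q (J.comp (algebraMap L M)) g' := by
    ring
  rw [h5] at h4
  exact h4

end Hloc

section Second

variable {p : ℕ} [Fact p.Prime]

/-- **SECOND CORRECTION + OB** (steps (f)-(h)): if `e ^ p = d¹ g` on the `S`-field `F`, then after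
inflation to a bigger `S`-field `d² e` is the coboundary of a `μ_p`-valued `2`-cochain. -/
theorem gl_h3mu_second (hp2 : p ≠ 2) (S : Finset Nat.Primes)
    (hpS : ∃ q ∈ S, ((q : Nat.Primes) : ℕ) = p)
    (K F : Type) [Field K] [NumberField K] [Field F] [NumberField F] [Algebra K F] [IsGalois K F]
    (hζ : ∃ ζ : K, IsPrimitiveRoot ζ p) (hur : GlUnramOutside S K F)
    (e : (F ≃ₐ[K] F) × (F ≃ₐ[K] F) → Fˣ) (g : (F ≃ₐ[K] F) → Fˣ) (heg : glD1 g = e ^ p) :
    ∃ (F' : Type) (_ : Field F') (_ : NumberField F') (_ : Algebra K F') (_ : Algebra F F')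
      (_ : IsScalarTower K F F') (_ : IsGalois K F'),
      GlUnramOutside S K F' ∧
      ∃ e' : (F' ≃ₐ[K] F') × (F' ≃ₐ[K] F') → F'ˣ, GlMuValued p e' ∧
        glD2 e' = glInfl₃ K F F' (glD2 e) := by
  obtain ⟨𝔧⟩ := geChoice_nonempty K F
  obtain ⟨L, _, _, _, _, hurL, c2, g', r, hc2, hg', hr, hinv⟩ :=
    glh3_exists_second_layer hp2 S hpS K F hζ g 𝔧
  obtain ⟨M, _, _, _, _, _, _, _, _, hurM⟩ := gl_exists_compositum S K F L hur hurL
  have hcg3 : glD1 (glInfl₁ K F M g * glInfl₁ K L M g') =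
      (glInfl₂ K F M e * glInfl₂ K L M c2) ^ p := by
    rw [glD1_mul, ← glInfl₂_glD1, ← glInfl₂_glD1, heg, hg', glInfl₂_pow, glInfl₂_pow, mul_pow]
  obtain ⟨F4, _, _, _, _, _, _, hur4, u, h, huh⟩ :=
    gl_ob_core S hpS K M hζ hurM (glInfl₁ K F M g * glInfl₁ K L M g')
      (glInfl₂ K F M e * glInfl₂ K L M c2) (fun σ τ => by rw [hcg3]; rfl)
      (fun w hw σ hσ =>
        glh3_hloc S K F L M hur hurL hurM e g heg c2 hc2 g' hg' 𝔧 r hr hinv w hw σ hσ)
  letI : Algebra F F4 := ((algebraMap M F4).comp (algebraMap F M)).toAlgebra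
  haveI : IsScalarTower F M F4 := IsScalarTower.of_algebraMap_eq (fun _ => rfl)
  haveI : IsScalarTower K F F4 := IsScalarTower.of_algebraMap_eq (fun x => by
    rw [IsScalarTower.algebraMap_apply K M F4, IsScalarTower.algebraMap_apply K F M]
    rfl)
  refine ⟨F4, inferInstance, inferInstance, inferInstance, inferInstance, inferInstance,
    inferInstance, hur4,
    glInfl₂ K M F4 (glInfl₂ K F M e * glInfl₂ K L M c2) / glD1 h, ?_, ?_⟩
  · have huh' : glInfl₁ K M F4 (glInfl₁ K F M g * glInfl₁ K L M g') = glD0 u * h ^ p := by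
      funext σ
      rw [huh σ]
      rfl
    have h1 : (glInfl₂ K M F4 (glInfl₂ K F M e * glInfl₂ K L M c2) / glD1 h) ^ p = 1 := by
      rw [div_pow, ← glInfl₂_pow, ← hcg3, glInfl₂_glD1, ← glD1_pow, ← glD1_div, huh',
        mul_div_cancel_right, glD1_glD0]
    intro a
    have := congrFun h1 a
    simpa using this
  · have h3 : glD2 (glInfl₂ K F M e * glInfl₂ K L M c2) = glInfl₃ K F M (glD2 e) := by
      rw [glD2_mul, ← glInfl₃_glD2, ← glInfl₃_glD2, (isMulCocycle₂_iff_glD2 c2).1 hc2,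
        glh3_glInfl₃_one, mul_one]
    rw [glD2_div, glD2_glD1, div_one, ← glInfl₃_glD2, h3, glInfl₃_trans]

end Second

end Fermat.Agent.S55
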