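/-
S55 / Global, GU-6 `Global/H3Mu.lean`: **U4** `gl_h3_mu_vanish` (`H³(G_S(K), μ_p) = 0`, finite-level
form of `(c1)`; `CoreFinSpec.lean` section Final).  ASSEMBLY of the two halves:
* `gl_h3_mu_first`  (`H3MuFirst.lean`, helper21): steps (a)-(e), first correction;
* `gl_h3mu_second`  (`H3MuSecond.lean`): steps (f)-(h), second correction + `gl_ob_core`.
-/
import Fermat.Agent.S55.Global.H3MuFirst
import Fermat.Agent.S55.Global.H3MuSecond

set_option autoImplicit false
set_option linter.unusedSectionVars false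
set_option linter.unusedVariables false
set_option linter.style.haveILetI false

noncomputable section

namespace Fermat.Agent.S55

open scoped NumberField
open NumberField IsDedekindDomain groupCohomology

section Final

variable {p : ℕ} [Fact p.Prime]

/-- **U4** `H³(G_S(K), μ_p) = 0`, finite-level form of `(c1)`: a `μ_p`-valued `3`-cocycle of an
`S`-field becomes the coboundary of a `μ_p`-valued `2`-cochain after inflation to a bigger
`S`-field. -/
theorem gl_h3_mu_vanish (hp2 : p ≠ 2) (S : Finset Nat.Primes)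
    (hpS : ∃ q ∈ S, ((q : Nat.Primes) : ℕ) = p)
    (K F : Type) [Field K] [NumberField K] [Field F] [NumberField F] [Algebra K F] [IsGalois K F]
    (hζ : ∃ ζ : K, IsPrimitiveRoot ζ p) (hur : GlUnramOutside S K F)
    (f : (F ≃ₐ[K] F) × (F ≃ₐ[K] F) × (F ≃ₐ[K] F) → Fˣ) (hf : IsMulCocycle₃ f)
    (hμ : GlMuValued p f) :
    ∃ (F' : Type) (_ : Field F') (_ : NumberField F') (_ : Algebra K F') (_ : Algebra F F')
      (_ : IsScalarTower K F F') (_ : IsGalois K F'),
      GlUnramOutside S K F' ∧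
      ∃ e : (F' ≃ₐ[K] F') × (F' ≃ₐ[K] F') → F'ˣ, GlMuValued p e ∧
        glD2 e = glInfl₃ K F F' f := by
  obtain ⟨F₂, _, _, _, _, _, _, hur₂, e₂, g₂, he₂, heg₂⟩ :=
    gl_h3_mu_first hp2 S hpS K F hζ hur f hf hμ
  obtain ⟨F₄, _, _, _, _, _, _, hur₄, e₄, hμ₄, he₄⟩ :=
    gl_h3mu_second hp2 S hpS K F₂ hζ hur₂ e₂ g₂ heg₂.symm
  letI : Algebra F F₄ := ((algebraMap F₂ F₄).comp (algebraMap F F₂)).toAlgebra
  haveI : IsScalarTower F F₂ F₄ := IsScalarTower.of_algebraMap_eq (fun _ => rfl)
  haveI : IsScalarTower K F F₄ := IsScalarTower.of_algebraMap_eq (fun x => by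
    rw [IsScalarTower.algebraMap_apply K F₂ F₄, IsScalarTower.algebraMap_apply K F F₂]
    rfl)
  refine ⟨F₄, inferInstance, inferInstance, inferInstance, inferInstance, inferInstance,
    inferInstance, hur₄, e₄, hμ₄, ?_⟩
  rw [he₄, he₂, glInfl₃_trans]

end Final

end Fermat.Agent.S55
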