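/-
S55 / Global, GU-5 `Global/RealiseMu.lean`: RECIPROCITY and REALISATION for `μ_p`-valued `2`-cocycles
of `S`-fields (`gl_reciprocity_mu`, **U3** `gl_realise_mu` of `CoreFinSpec.lean` section Final).
ASSEMBLY from the GU leaves (`UnramLoc`, `CycLayer`, `Infl`, `FrobOrd`), helper6's reciprocity
package (`ge_realise`, `ge_hasse_principle`, `ge_reciprocity_of_pow`, `geInv_*`) and `gl_ob_core`.
Helper names are prefixed `grm`.
-/
import Fermat.Agent.S55.Global.Recip.Spec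
import Fermat.Agent.S55.Global.ObSpec
import Fermat.Agent.S55.Global.UnramLoc
import Fermat.Agent.S55.Global.CycLayer
import Fermat.Agent.S55.Global.Infl
import Fermat.Agent.S55.Global.FrobOrd
import Fermat.Agent.S55.Global.GeInvExtra
import Fermat.Agent.S55.Global.RealiseCyc

set_option autoImplicit false
set_option linter.unusedSectionVars false
set_option linter.unusedVariables false

noncomputable section

namespace Fermat.Agent.S55

open scoped NumberField
open NumberField IsDedekindDomain groupCohomology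

section Aux

variable {K : Type} [Field K] [NumberField K]

/-- a place not above `S` has residue characteristic outside `S` -/
theorem grm_gePrime_ne (S : Finset Nat.Primes) (v : HeightOneSpectrum (𝓞 K))
    (hv : ¬ GlAbove S K v) : ∀ s ∈ S, ((s : Nat.Primes) : ℕ) ≠ gePrime K v := by
  intro s hs h
  apply hv
  refine ⟨s, hs, ?_⟩
  rw [h]
  exact natCast_gePrime_mem v

/-- roots of unity have norm one at every `q`-adic embedding -/
theorem grm_norm_eq_one {F : Type} [Field F] (q : ℕ) [Fact q.Prime] (j : F →+* PadicAlgCl q)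
    {p : ℕ} (hp : p ≠ 0) (x : Fˣ) (hx : x ^ p = 1) : ‖j ((x : Fˣ) : F)‖ = 1 := by
  have h1 : (j ((x : Fˣ) : F)) ^ p = 1 := by
    rw [← map_pow, ← Units.val_pow_eq_pow_val, hx, Units.val_one, map_one]
  have h2 : ‖j ((x : Fˣ) : F)‖ ^ p = 1 := by
    rw [← norm_pow, h1, norm_one]
  exact (pow_eq_one_iff_of_nonneg (norm_nonneg _) hp).1 h2

/-- only finitely many places lie above `S` -/
theorem grm_finite_above (S : Finset Nat.Primes) :
    {v : HeightOneSpectrum (𝓞 K) | GlAbove S K v}.Finite := by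
  have h : {v : HeightOneSpectrum (𝓞 K) | GlAbove S K v} =
      ⋃ s ∈ S, {v : HeightOneSpectrum (𝓞 K) | (((s : Nat.Primes) : ℕ) : 𝓞 K) ∈ v.asIdeal} := by
    ext v
    simp [GlAbove]
  rw [h]
  apply Set.Finite.biUnion S.finite_toSet
  intro s hs
  have hne : Ideal.span {(((s : Nat.Primes) : ℕ) : 𝓞 K)} ≠ 0 := by
    rw [Ne, Ideal.zero_eq_bot, Ideal.span_singleton_eq_bot]
    exact Nat.cast_ne_zero.2 s.2.ne_zero
  refine (Ideal.finite_factors hne).subset ?_
  intro v hv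
  exact Ideal.dvd_iff_le.2 ((Ideal.span_singleton_le_iff_mem _).2 hv)

/-- an element of `ℚ/ℤ` of the form `n / p` vanishes iff `p ∣ n` -/
theorem grm_dvd_of_coe_eq_zero {p : ℕ} (hp : p ≠ 0) (n : ℤ)
    (h : (((n : ℚ) / (p : ℚ) : ℚ) : AddCircle (1 : ℚ)) = 0) : (p : ℤ) ∣ n := by
  rw [AddCircle.coe_eq_zero_iff] at h
  obtain ⟨k, hk⟩ := h
  refine ⟨k, ?_⟩
  have hp' : (p : ℚ) ≠ 0 := Nat.cast_ne_zero.2 hp
  have h2 : (n : ℚ) = (p : ℚ) * (k : ℚ) := by
    field_simp at hk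
    rw [← hk]
    simp [mul_comm]
  exact_mod_cast h2

end Aux

section Step1

variable {p : ℕ} [Fact p.Prime]

/-- STEP 1: a cyclic `S`-field `L/K` of `p`-power degree and a cyclic cocycle `c0` with the
prescribed invariants at ALL embeddings. -/
theorem grm_exists_cyclic (hp2 : p ≠ 2) (S : Finset Nat.Primes)
    (hpS : ∃ q ∈ S, ((q : Nat.Primes) : ℕ) = p)
    (K : Type) [Field K] [NumberField K] (hζ : ∃ ζ : K, IsPrimitiveRoot ζ p)
    (r : HeightOneSpectrum (𝓞 K) → AddCircle (1 : ℚ))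
    (hS : ∀ v, ¬ GlAbove S K v → r v = 0) (hp : ∀ v, p • r v = 0) (hsum : ∑ᶠ v, r v = 0) :
    ∃ (L : Type) (_ : Field L) (_ : NumberField L) (_ : Algebra K L) (_ : IsGalois K L) (m : ℕ),
      GlUnramOutside S K L ∧ Module.finrank K L = p ^ m ∧
      ∃ c0 : (L ≃ₐ[K] L) × (L ≃ₐ[K] L) → Lˣ, IsMulCocycle₂ c0 ∧
        ∀ (q : ℕ) [Fact q.Prime] (j : L →+* PadicAlgCl q),
          geInv q j c0 = r (lgPlace q (j.comp (algebraMap K L))) := by
  have hsupp : (Function.support r).Finite := by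
    refine (grm_finite_above (K := K) S).subset ?_
    intro v hv
    by_contra hv'
    exact hv (hS v hv')
  exact gl_realise_cyc hp2 S hpS K hζ r hsupp 1 (fun v => by rw [pow_one]; exact hp v) hsum

end Step1

section Step2

variable {p : ℕ} [Fact p.Prime]

/-- STEP 2: if all invariants of `c0` are killed by `p` and vanish outside `S`, then `c0 ^ p = d¹ g`
with `g` satisfying the local hypothesis of `gl_ob_core`. -/
theorem grm_exists_defect (hp2 : p ≠ 2) (S : Finset Nat.Primes)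
    (K L : Type) [Field K] [NumberField K] [Field L] [NumberField L] [Algebra K L] [IsGalois K L]
    {m : ℕ} (hdeg : Module.finrank K L = p ^ m) {ζ : K} (hζ : IsPrimitiveRoot ζ p)
    (hur : GlUnramOutside S K L)
    (r : HeightOneSpectrum (𝓞 K) → AddCircle (1 : ℚ))
    (hS : ∀ v, ¬ GlAbove S K v → r v = 0) (hp : ∀ v, p • r v = 0)
    (c0 : (L ≃ₐ[K] L) × (L ≃ₐ[K] L) → Lˣ) (hc0 : IsMulCocycle₂ c0)
    (hinv : ∀ (q : ℕ) [Fact q.Prime] (j : L →+* PadicAlgCl q),
      geInv q j c0 = r (lgPlace q (j.comp (algebraMap K L)))) :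
    ∃ g : (L ≃ₐ[K] L) → Lˣ, glD1 g = c0 ^ p ∧
      ∀ w : HeightOneSpectrum (𝓞 L), ¬ GlAbove S L w → ∀ σ : L ≃ₐ[K] L,
        (∀ x : 𝓞 L, x ∈ w.asIdeal →
          (⟨σ x, map_isIntegral_int σ.toAlgHom.toRingHom.toIntAlgHom x.2⟩ : 𝓞 L) ∈ w.asIdeal) →
        (p : ℤ) ∣ WithZero.log (w.valuation L ((g σ : Lˣ) : L)) := by
  have hpp : p.Prime := Fact.out
  have hc0p : IsMulCocycle₂ (c0 ^ p) := gei_coc_pow hc0 p
  have hcob : IsMulCoboundary₂ (c0 ^ p) := by
    apply ge_hasse_principle hp2 hdeg hζ (c0 ^ p) hc0p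
    intro q _ j
    rw [← geInv_eq_zero_iff q j hc0p, geInv_pow q j hc0, hinv q j, hp]
  obtain ⟨g, hg⟩ := (isMulCoboundary₂_iff_glD1 _).1 hcob
  refine ⟨g, hg, ?_⟩
  intro w hw σ hσ
  obtain ⟨q, hqf, j, hq, rfl⟩ := gl_exists_lgPlace_eq S w hw
  have hurj := gl_lfUnramified_of_unramOutside S hur q hq j
  have h0 : geInv q j c0 = 0 := by
    rw [hinv q j]
    exact hS _ (gl_not_glAbove_lgPlace S q hq (j.comp (algebraMap K L)))
  have h1 := geInv_eq_glTau_div (p := p) q j hurj c0 hc0 g hg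
  rw [h0] at h1
  have hτ : (p : ℤ) ∣ glTau K q j g := grm_dvd_of_coe_eq_zero hpp.ne_zero _ h1.symm
  exact gl_dvd_log_of_dvd_glTau q j hurj c0 g hg hτ σ hσ

end Step2

section Step3

variable {p : ℕ} [Fact p.Prime]

/-- `d¹ h` is a cocycle -/
theorem grm_glD1_cocycle {G : Type} [Group G] {X : Type} [CommGroup X] [MulDistribMulAction G X]
    (h : G → X) : IsMulCocycle₂ (glD1 h) :=
  (isMulCocycle₂_iff_glD2 _).2 (glD2_glD1 h)

/-- STEP 3: after inflation to the field of `gl_ob_core`, the class of `c0` contains a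
`μ_p`-valued cocycle. -/
theorem grm_exists_mu (K L F' : Type) [Field K] [NumberField K] [Field L] [NumberField L]
    [Algebra K L] [IsGalois K L] [Field F'] [NumberField F'] [Algebra K F'] [Algebra L F']
    [IsScalarTower K L F'] [IsGalois K F']
    (c0 : (L ≃ₐ[K] L) × (L ≃ₐ[K] L) → Lˣ) (hc0 : IsMulCocycle₂ c0)
    (g : (L ≃ₐ[K] L) → Lˣ) (hg : glD1 g = c0 ^ p) (u : F'ˣ) (h : (F' ≃ₐ[K] F') → F'ˣ)
    (huh : ∀ σ : F' ≃ₐ[K] F', glInfl₁ K L F' g σ = glD0 u σ * h σ ^ p) :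
    ∃ c : (F' ≃ₐ[K] F') × (F' ≃ₐ[K] F') → F'ˣ, IsMulCocycle₂ c ∧ GlMuValued p c ∧
      ∀ (q : ℕ) [Fact q.Prime] (J : F' →+* PadicAlgCl q),
        geInv q J c = geInv q (J.comp (algebraMap L F')) c0 := by
  have hinfl : IsMulCocycle₂ (glInfl₂ K L F' c0) := glInfl₂_isMulCocycle₂ K L F' c0 hc0
  have hc : IsMulCocycle₂ (glInfl₂ K L F' c0 / glD1 h) :=
    lbu_coc_div hinfl (grm_glD1_cocycle h)
  refine ⟨glInfl₂ K L F' c0 / glD1 h, hc, ?_, ?_⟩
  · -- `μ_p`-valued
    have huh' : glInfl₁ K L F' g = glD0 u * h ^ p := by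
      funext σ
      rw [huh σ]
      rfl
    have h1 : (glInfl₂ K L F' c0 / glD1 h) ^ p = 1 := by
      rw [div_pow, ← glInfl₂_pow, ← hg, glInfl₂_glD1, ← glD1_pow, ← glD1_div, huh',
        mul_div_cancel_right, glD1_glD0]
    intro a
    have := congrFun h1 a
    simpa using this
  · intro q _ J
    have hcob : IsMulCoboundary₂ (glInfl₂ K L F' c0 / (glInfl₂ K L F' c0 / glD1 h)) := by
      rw [div_div_cancel]
      exact (isMulCoboundary₂_iff_glD1 _).2 ⟨h, rfl⟩
    rw [← geInv_eq_of_isMulCoboundary₂_div q J hinfl hc hcob, glInfl₂_eq_lfBC,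
      geInv_inflation q J hc0]

end Step3

section Final

variable {p : ℕ} [Fact p.Prime]

/-- the invariants of a `μ_p`-valued cocycle of an `S`-field vanish at the places not above `S`
(no root of unity needed in `K`) -/
theorem grm_geInv_eq_zero_of_not_above (S : Finset Nat.Primes)
    (K F : Type) [Field K] [NumberField K] [Field F] [NumberField F] [Algebra K F] [IsGalois K F]
    (hur : GlUnramOutside S K F)
    (c : (F ≃ₐ[K] F) × (F ≃ₐ[K] F) → Fˣ) (hc : IsMulCocycle₂ c) (hμ : GlMuValued p c)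
    (𝔧 : GeChoice K F) (v : HeightOneSpectrum (𝓞 K)) (hv : ¬ GlAbove S K v) :
    geInv (gePrime K v) (𝔧.emb v) c = 0 := by
  have hp : p.Prime := Fact.out
  have hq := grm_gePrime_ne S v hv
  have hur' := gl_lfUnramified_of_unramOutside S hur (gePrime K v) hq (𝔧.emb v)
  exact geInv_eq_zero_of_unramified_of_units (gePrime K v) (𝔧.emb v) hur' c hc
    (fun s => grm_norm_eq_one (gePrime K v) (𝔧.emb v) hp.ne_zero (c s) (hμ s))

/-- a `μ_p`-valued cochain has trivial `p`-th power -/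
theorem grm_pow_eq_one {A X : Type} [CommGroup X] (c : A → X) (hμ : GlMuValued p c) :
    c ^ p = 1 := by
  funext s
  rw [Pi.pow_apply, hμ s]
  rfl

/-- RECIPROCITY for `μ_p`-valued `2`-cocycles of `S`-fields: the invariants vanish outside `S` and
sum to `0`. -/
theorem gl_reciprocity_mu (hp2 : p ≠ 2) (S : Finset Nat.Primes)
    (K F : Type) [Field K] [NumberField K] [Field F] [NumberField F] [Algebra K F] [IsGalois K F]
    (hζ : ∃ ζ : K, IsPrimitiveRoot ζ p) (hur : GlUnramOutside S K F)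
    (c : (F ≃ₐ[K] F) × (F ≃ₐ[K] F) → Fˣ) (hc : IsMulCocycle₂ c) (hμ : GlMuValued p c)
    (𝔧 : GeChoice K F) :
    (∀ v : HeightOneSpectrum (𝓞 K), ¬ GlAbove S K v → geInv (gePrime K v) (𝔧.emb v) c = 0) ∧
    ∑ᶠ v : HeightOneSpectrum (𝓞 K), geInv (gePrime K v) (𝔧.emb v) c = 0 := by
  obtain ⟨ζ, hζ'⟩ := hζ
  refine ⟨fun v hv => grm_geInv_eq_zero_of_not_above S K F hur c hc hμ 𝔧 v hv, ?_⟩
  have hpow : IsMulCoboundary₂ (c ^ p ^ 1) := by
    rw [pow_one, grm_pow_eq_one c hμ]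
    exact gei_cob_one
  exact (ge_reciprocity_of_pow hp2 hζ' c hc 1 hpow 𝔧).2

/-- **U3** REALISATION WITH `μ_p`-VALUED COCYCLES (finite-level form of `(c2)`): every family of
invariants `r v ∈ (1/p)ℤ/ℤ` supported on the places above `S` with sum `0` is the family of local
invariants of a `μ_p`-valued `2`-cocycle of some `S`-field `F / K`. -/
theorem gl_realise_mu (hp2 : p ≠ 2) (S : Finset Nat.Primes)
    (hpS : ∃ q ∈ S, ((q : Nat.Primes) : ℕ) = p)
    (K : Type) [Field K] [NumberField K] (hζ : ∃ ζ : K, IsPrimitiveRoot ζ p)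
    (r : HeightOneSpectrum (𝓞 K) → AddCircle (1 : ℚ))
    (hS : ∀ v, ¬ GlAbove S K v → r v = 0) (hp : ∀ v, p • r v = 0) (hsum : ∑ᶠ v, r v = 0) :
    ∃ (F : Type) (_ : Field F) (_ : NumberField F) (_ : Algebra K F) (_ : IsGalois K F),
      GlUnramOutside S K F ∧
      ∃ c : (F ≃ₐ[K] F) × (F ≃ₐ[K] F) → Fˣ, IsMulCocycle₂ c ∧ GlMuValued p c ∧
        ∀ (q : ℕ) [Fact q.Prime] (j : F →+* PadicAlgCl q),
          geInv q j c = r (lgPlace q (j.comp (algebraMap K F))) := by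
  obtain ⟨L, _, _, _, _, m, hurL, hdegL, c0, hc0, hinv⟩ :=
    grm_exists_cyclic hp2 S hpS K hζ r hS hp hsum
  obtain ⟨ζ, hζ'⟩ := hζ
  obtain ⟨g, hg, hloc⟩ := grm_exists_defect hp2 S K L hdegL hζ' hurL r hS hp c0 hc0 hinv
  obtain ⟨F', _, _, _, _, _, _, hurF', u, h, huh⟩ :=
    gl_ob_core S hpS K L ⟨ζ, hζ'⟩ hurL g c0
      (fun σ τ => by rw [hg]; rfl) hloc
  obtain ⟨c, hc, hμ, hcinv⟩ := grm_exists_mu K L F' c0 hc0 g hg u h huh
  refine ⟨F', inferInstance, inferInstance, inferInstance, inferInstance, hurF', c, hc, hμ, ?_⟩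
  intro q _ J
  rw [hcinv q J, hinv q (J.comp (algebraMap L F')), RingHom.comp_assoc,
    ← IsScalarTower.algebraMap_eq K L F']

end Final

end Fermat.Agent.S55
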