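/-
S55 / Global, GU-7 `Global/RecipMuGen.lean`: RECIPROCITY for `μ_p`-valued `2`-cocycles of `S`-fields
WITHOUT a root of unity in the base field (`gl_reciprocity_mu_gen` of `CoreFinSpec.lean`,
section Final).
Proof: if `c = 1` nothing to do; otherwise some value `ξ = c s ≠ 1` is a primitive `p`-th root of
unity of `F`, `K₁ = K(ξ) ⊆ F` has degree `≤ p - 1` over `K`, `F / K₁` is an `S`-field,
`gl_reciprocity_mu` over `K₁` + `ge_finsum_restriction` give `[K₁:K] • ∑ inv = 0`, and `p • ∑ inv = 0`.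
Helper names are prefixed `grg`.
-/
import Fermat.Agent.S55.Global.RealiseMu

set_option autoImplicit false
set_option linter.unusedSectionVars false
set_option linter.unusedVariables false

noncomputable section

namespace Fermat.Agent.S55

open scoped NumberField
open NumberField IsDedekindDomain groupCohomology

section Aux

/-- restriction of `S`-fields along a tower `K ⊆ K₁ ⊆ F` -/
theorem grg_unramOutside_tower (S : Finset Nat.Primes)
    (K K₁ F : Type) [Field K] [NumberField K] [Field K₁] [NumberField K₁] [Field F] [NumberField F]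
    [Algebra K K₁] [Algebra K₁ F] [Algebra K F] [IsScalarTower K K₁ F]
    (hur : GlUnramOutside S K F) : GlUnramOutside S K₁ F := by
  intro P _ hP hS
  have := hur P hP hS
  exact Algebra.IsUnramifiedAt.of_restrictScalars (𝓞 K) P

/-- an element of an additive group killed by two coprime integers vanishes -/
theorem grg_eq_zero_of_coprime {A : Type} [AddCommGroup A] (x : A) {m n : ℕ}
    (hmn : Nat.Coprime m n) (hm : m • x = 0) (hn : n • x = 0) : x = 0 := by
  have h1 : addOrderOf x ∣ m := addOrderOf_dvd_of_nsmul_eq_zero hm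
  have h2 : addOrderOf x ∣ n := addOrderOf_dvd_of_nsmul_eq_zero hn
  have h3 : addOrderOf x ∣ 1 := by
    have := Nat.dvd_gcd h1 h2
    rwa [hmn] at this
  exact AddMonoid.addOrderOf_eq_one_iff.1 (Nat.dvd_one.1 h3)

end Aux

section Final

variable {p : ℕ} [Fact p.Prime]

/-- the restriction of a `μ_p`-valued cochain is `μ_p`-valued -/
theorem grg_muValued_lfBC (K K₁ F : Type) [Field K] [Field K₁] [Field F]
    [Algebra K K₁] [Algebra K₁ F] [Algebra K F] [IsScalarTower K K₁ F] [Normal K F]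
    (c : (F ≃ₐ[K] F) × (F ≃ₐ[K] F) → Fˣ) (hμ : GlMuValued p c) :
    GlMuValued p (lfBC K F K₁ F c) := by
  intro a
  obtain ⟨σ, τ⟩ := a
  rw [lfBC_apply, ← map_pow, hμ, map_one]

/-- the sum of the invariants of a `μ_p`-valued cocycle is killed by `p` -/
theorem grg_nsmul_finsum_eq_zero
    (K F : Type) [Field K] [NumberField K] [Field F] [NumberField F] [Algebra K F] [IsGalois K F]
    (c : (F ≃ₐ[K] F) × (F ≃ₐ[K] F) → Fˣ) (hc : IsMulCocycle₂ c) (hμ : GlMuValued p c)
    (𝔧 : GeChoice K F) :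
    p • ∑ᶠ v : HeightOneSpectrum (𝓞 K), geInv (gePrime K v) (𝔧.emb v) c = 0 := by
  refine finsum_induction (fun x : AddCircle (1 : ℚ) => p • x = 0) (smul_zero p) ?_ ?_
  · intro x y hx hy
    rw [smul_add, hx, hy, add_zero]
  · intro v
    rw [← geInv_pow (gePrime K v) (𝔧.emb v) hc p, grm_pow_eq_one c hμ, geInv_one]

/-- RECIPROCITY over `K` from an intermediate field `K₁` containing `ζ_p` of degree prime to `p` -/
theorem grg_reciprocity_of_tower (hp2 : p ≠ 2) (S : Finset Nat.Primes)
    (K K₁ F : Type) [Field K] [NumberField K] [Field K₁] [NumberField K₁] [Field F] [NumberField F]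
    [Algebra K K₁] [Algebra K₁ F] [Algebra K F] [IsScalarTower K K₁ F] [IsGalois K F]
    [IsGalois K₁ F]
    (hζ : ∃ ζ : K₁, IsPrimitiveRoot ζ p) (hdeg : Nat.Coprime (Module.finrank K K₁) p)
    (hur : GlUnramOutside S K F)
    (c : (F ≃ₐ[K] F) × (F ≃ₐ[K] F) → Fˣ) (hc : IsMulCocycle₂ c) (hμ : GlMuValued p c)
    (𝔧 : GeChoice K F) :
    ∑ᶠ v : HeightOneSpectrum (𝓞 K), geInv (gePrime K v) (𝔧.emb v) c = 0 := by
  obtain ⟨𝔧'⟩ := geChoice_nonempty K₁ F
  have hur₁ : GlUnramOutside S K₁ F := grg_unramOutside_tower S K K₁ F hur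
  have hc₁ : IsMulCocycle₂ (lfBC K F K₁ F c) := lfBC_isMulCocycle₂ K F K₁ F c hc
  have hμ₁ : GlMuValued p (lfBC K F K₁ F c) := grg_muValued_lfBC K K₁ F c hμ
  have h1 := (gl_reciprocity_mu hp2 S K₁ F hζ hur₁ (lfBC K F K₁ F c) hc₁ hμ₁ 𝔧').2
  have h2 := ge_finsum_restriction (K' := K₁) c hc 𝔧 𝔧'
  rw [h1] at h2
  exact grg_eq_zero_of_coprime _ hdeg h2.symm (grg_nsmul_finsum_eq_zero K F c hc hμ 𝔧)

/-- a primitive `p`-th root of unity generates an extension of degree prime to `p` -/
theorem grg_coprime_finrank_adjoin (K F : Type) [Field K] [Field F] [Algebra K F]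
    [FiniteDimensional K F] (ξ : F) (hξ : IsPrimitiveRoot ξ p) :
    Nat.Coprime (Module.finrank K (IntermediateField.adjoin K {ξ})) p := by
  have hp : p.Prime := Fact.out
  have hint : IsIntegral K ξ := Algebra.IsIntegral.isIntegral ξ
  rw [IntermediateField.adjoin.finrank hint]
  have hroot : Polynomial.aeval ξ (Polynomial.cyclotomic p K) = 0 := by
    rw [Polynomial.aeval_def, Polynomial.eval₂_eq_eval_map, Polynomial.map_cyclotomic]
    exact hξ.isRoot_cyclotomic hp.pos
  have hdvd := minpoly.dvd K ξ hroot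
  have hle : (minpoly K ξ).natDegree ≤ p - 1 := by
    have := Polynomial.natDegree_le_of_dvd hdvd (Polynomial.cyclotomic_ne_zero p K)
    rwa [Polynomial.natDegree_cyclotomic, Nat.totient_prime hp] at this
  have hpos : 0 < (minpoly K ξ).natDegree := minpoly.natDegree_pos hint
  refine Nat.Coprime.symm ((Nat.Prime.coprime_iff_not_dvd hp).2 ?_)
  intro hdiv
  have := Nat.le_of_dvd hpos hdiv
  have := hp.pos
  omega

/-- **RECIPROCITY for `μ_p`-valued `2`-cocycles of `S`-fields, no root of unity in the base**: the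
invariants vanish outside `S` and sum to `0`. -/
theorem gl_reciprocity_mu_gen (hp2 : p ≠ 2) (S : Finset Nat.Primes)
    (K F : Type) [Field K] [NumberField K] [Field F] [NumberField F] [Algebra K F] [IsGalois K F]
    (hur : GlUnramOutside S K F)
    (c : (F ≃ₐ[K] F) × (F ≃ₐ[K] F) → Fˣ) (hc : IsMulCocycle₂ c) (hμ : GlMuValued p c)
    (𝔧 : GeChoice K F) :
    (∀ v : HeightOneSpectrum (𝓞 K), ¬ GlAbove S K v → geInv (gePrime K v) (𝔧.emb v) c = 0) ∧
    ∑ᶠ v : HeightOneSpectrum (𝓞 K), geInv (gePrime K v) (𝔧.emb v) c = 0 := by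
  have hp : p.Prime := Fact.out
  refine ⟨fun v hv => grm_geInv_eq_zero_of_not_above S K F hur c hc hμ 𝔧 v hv, ?_⟩
  by_cases h1 : c = 1
  · subst h1
    simp only [geInv_one]
    exact finsum_zero
  · obtain ⟨s, hs⟩ : ∃ s, c s ≠ 1 := by
      by_contra hcon
      exact h1 (funext fun a => not_not.1 fun ha => hcon ⟨a, ha⟩)
    have hξu : IsPrimitiveRoot (c s) p := by
      have := IsPrimitiveRoot.orderOf (c s)
      rwa [orderOf_eq_prime (hμ s) hs] at this
    have hξ : IsPrimitiveRoot ((c s : Fˣ) : F) p := hξu.map_of_injective (f := Units.coeHom F)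
      Units.val_injective
    have hζ : ∃ ζ : (IntermediateField.adjoin K {((c s : Fˣ) : F)}), IsPrimitiveRoot ζ p :=
      ⟨⟨((c s : Fˣ) : F), IntermediateField.mem_adjoin_simple_self K _⟩,
        IsPrimitiveRoot.coe_submonoidClass_iff.1 hξ⟩
    exact grg_reciprocity_of_tower hp2 S K (IntermediateField.adjoin K {((c s : Fˣ) : F)}) F hζ
      (grg_coprime_finrank_adjoin K F _ hξ) hur c hc hμ 𝔧

end Final

end Fermat.Agent.S55
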