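import Fermat.Agent.S55.Global.Recip.Defs
import Fermat.Agent.S55.Global.Defs
import Fermat.Agent.S55.Global.TowerDefs

/-!
# S55 / Global, package GU: definitions (section `Defs` of `CoreFinSpec.lean`, verbatim)
-/

set_option autoImplicit false
set_option linter.unusedSectionVars false
set_option linter.unusedVariables false

noncomputable section

namespace Fermat.Agent.S55

open scoped NumberField
open NumberField IsDedekindDomain groupCohomology

/-! ## Definitions (sorry-free) -/

section Defs

variable (K : Type) {F : Type} [Field K] [NumberField K] [Field F] [NumberField F] [Algebra K F]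
  (q : ℕ) [Fact q.Prime]

/-- the global Frobenius at the embedding `j` of `F`: the restriction to `F` of the Frobenius of
`F_j / K_j` (meaningful when `F_j / K_j` is unramified). -/
def glFrobAt (j : F →+* PadicAlgCl q) : F ≃ₐ[K] F :=
  geRes (K := K) (lgEmb q j)
    (lfFrob q (lgField q (j.comp (algebraMap K F))) (lgField q j))

variable {K} in
/-- the normalised valuation of `x ∈ Fˣ` at the embedding `j`. -/
def glOrdAt (j : F →+* PadicAlgCl q) (x : Fˣ) : ℤ := lfOrd q (lgField q j) (lgEmb q j (x : F))

/-- the defect of a `1`-cochain `g` at the embedding `j`: `ord_j (g (Frob_j))`. -/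
def glTau (j : F →+* PadicAlgCl q) (g : (F ≃ₐ[K] F) → Fˣ) : ℤ := glOrdAt q j (g (glFrobAt K q j))

end Defs

end Fermat.Agent.S55
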