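/-
S55 / Global, package GU (finite-level forms of `(c1)`, `(c2)` and of reciprocity): ALL LEAVES ARE DONE.
This file is a shim kept for the import chain of the consumers (SB): it imports the real files
* `CoreFinDefs` (glFrobAt, glOrdAt, glTau), GU-0 `UnramLoc`, GU-1 `CycLayer`, GU-2 `Compositum`,
  GU-3 `Infl`, GU-4 `FrobOrd` + `FrobOrdGal`, `GeInvExtra`, `RealiseCyc`,
* GU-5 `RealiseMu` (`gl_reciprocity_mu`, **U3** `gl_realise_mu`), GU-7 `RecipMuGen`
  (`gl_reciprocity_mu_gen`),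
* GU-6 `H3MuAux`, `H3MuFirst`, `H3MuSecond`, `H3Mu` (**U4** `gl_h3_mu_vanish`).
-/
import Fermat.Agent.S55.Global.RecipMuGen
import Fermat.Agent.S55.Global.H3Mu
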