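import Fermat.Agent.S55.Global.Defs
import Fermat.Agent.S55.Global.TowerDefs
import Fermat.Agent.S55.Global.H3.Final

/-!
# S55 / Global, package U1 = CORE-H3: `H³(G_S(K), K_Sˣ)(p) = 0`, finite-level form

SHIM: the statement `gl_h3_vanish` formerly listed here is proved verbatim in
`Global/H3/Final.lean` (package `Global/H3/`, owner helper12).
-/
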