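import Fermat.Agent.S55.Global.ObKummer
import Fermat.Agent.S55.GFI.ClassTrivial

/-!
# S55 / Global, leaf OB-C: capitulation modulo `p`-th powers in a tower of Kummer `S`-fields

For a finitely supported `D₀` on the places of an `S`-field `F` there are an `S`-field `F' ⊇ F`
and `u ∈ F'ˣ` with `L_{w'}(u) ≡ D₀(w' ∩ F) mod p` for all places `w'` of `F'` outside `S`.
Route: `𝔡^h = (a)` for the class number `h = p^k m`; induction on `k` (adjoin `a^{1/p}`),
base case `u = a^r`, `r m ≡ 1 mod p`.  Helper names are prefixed `globcap_`.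
-/

set_option autoImplicit false

noncomputable section

namespace Fermat.Agent.S55

open scoped NumberField nonZeroDivisors
open NumberField IsDedekindDomain

/-- some power of the divisor `D₀` is principal -/
theorem globcap_exists_principal_pow (F : Type) [Field F] [NumberField F]
    (D₀ : HeightOneSpectrum (𝓞 F) → ℤ) (hD₀ : (Function.support D₀).Finite) :
    ∃ h : ℕ, h ≠ 0 ∧ ∃ a : F, a ≠ 0 ∧ ∀ w : HeightOneSpectrum (𝓞 F),
      WithZero.log (w.valuation F a) = h * D₀ w := by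
  classical
  set m : HeightOneSpectrum (𝓞 F) →₀ ℤ := Finsupp.ofSupportFinite D₀ hD₀ with hm
  set J : FractionalIdeal (𝓞 F)⁰ F :=
    (-m).prod (fun v n => (v.asIdeal : FractionalIdeal (𝓞 F)⁰ F) ^ n) with hJ
  have hJ0 : J ≠ 0 := by
    rw [hJ, Finsupp.prod]
    refine Finset.prod_ne_zero_iff.mpr fun v _ => zpow_ne_zero _ ?_
    exact FractionalIdeal.coeIdeal_ne_zero.mpr v.ne_bot
  have hJc : ∀ v, FractionalIdeal.count F v J = -D₀ v := fun v => by
    rw [hJ, FractionalIdeal.count_finsuppProd]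
    rfl
  set h : ℕ := Fintype.card (ClassGroup (𝓞 F)) with hh
  have hh0 : h ≠ 0 := Fintype.card_ne_zero
  have hprod : ClassGroup.mk F ((Units.mk0 J hJ0) ^ h) = 1 := by
    rw [map_pow, hh, pow_card_eq_one]
  rw [ClassGroup.mk_eq_one_iff] at hprod
  obtain ⟨a, ha⟩ := (FractionalIdeal.isPrincipal_iff _).mp hprod
  rw [Units.val_pow_eq_pow_val, Units.val_mk0] at ha
  have ha0 : a ≠ 0 := by
    rintro rfl
    rw [FractionalIdeal.spanSingleton_zero] at ha
    exact pow_ne_zero h hJ0 ha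
  refine ⟨h, hh0, a, ha0, fun w => ?_⟩
  rw [gfict_valuation_eq_exp_neg_count w ha0, ← ha, FractionalIdeal.count_pow, hJc,
    WithZero.log_exp]
  ring

/-- `w.under (𝓞 F) = w` for the identity algebra -/
theorem globcap_under_self (F : Type) [Field F] [NumberField F] (w : HeightOneSpectrum (𝓞 F)) :
    w.under (𝓞 F) = w := by
  apply HeightOneSpectrum.ext
  ext x
  rfl

/-- `under` in a tower -/
theorem globcap_under_under (F F₁ F' : Type) [Field F] [NumberField F] [Field F₁]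
    [NumberField F₁] [Field F'] [NumberField F'] [Algebra F F₁] [Algebra F₁ F'] [Algebra F F']
    [IsScalarTower F F₁ F'] (w' : HeightOneSpectrum (𝓞 F')) :
    (w'.under (𝓞 F₁)).under (𝓞 F) = w'.under (𝓞 F) := by
  apply HeightOneSpectrum.ext
  ext x
  show algebraMap (𝓞 F₁) (𝓞 F') (algebraMap (𝓞 F) (𝓞 F₁) x) ∈ w'.asIdeal ↔
    algebraMap (𝓞 F) (𝓞 F') x ∈ w'.asIdeal
  have h : algebraMap (𝓞 F₁) (𝓞 F') (algebraMap (𝓞 F) (𝓞 F₁) x) = algebraMap (𝓞 F) (𝓞 F') x := by
    apply RingOfIntegers.ext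
    show algebraMap F₁ F' (algebraMap F F₁ (x : F)) = algebraMap F F' (x : F)
    rw [← IsScalarTower.algebraMap_apply]
  rw [h]

section Induction

variable {p : ℕ} [Fact p.Prime] (S : Finset Nat.Primes)
  (hpS : ∃ q ∈ S, ((q : Nat.Primes) : ℕ) = p)
  (K : Type) [Field K] [NumberField K]

include hpS in
/-- the inductive statement: if `L_w(a) = p^k m D₀(w)` outside `S` with `m` prime to `p`, then
`D₀` capitulates modulo `p` in an `S`-field -/
theorem globcap_induction (k : ℕ) : ∀ (F : Type) [Field F] [NumberField F] [Algebra K F]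
    [IsGalois K F] (_hur : GlUnramOutside S K F) (D₀ : HeightOneSpectrum (𝓞 F) → ℤ) (m : ℕ)
    (_hm : Nat.Coprime m p) (a : F) (_ha : a ≠ 0)
    (_hdiv : ∀ w : HeightOneSpectrum (𝓞 F), ¬ GlAbove S F w →
      WithZero.log (w.valuation F a) = (p : ℤ) ^ k * m * D₀ w),
    ∃ (F' : Type) (_ : Field F') (_ : NumberField F') (_ : Algebra K F') (_ : Algebra F F')
      (_ : IsScalarTower K F F') (_ : IsGalois K F'),
      GlUnramOutside S K F' ∧ ∃ u : F'ˣ, ∀ w' : HeightOneSpectrum (𝓞 F'), ¬ GlAbove S F' w' →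
        (p : ℤ) ∣ WithZero.log (w'.valuation F' ((u : F'ˣ) : F')) - D₀ (w'.under (𝓞 F)) := by
  have hp : p.Prime := Fact.out
  induction k with
  | zero =>
    intro F _ _ _ _ hur D₀ m hm a ha hdiv
    obtain ⟨r, -, hr⟩ := Nat.exists_mul_mod_eq_one_of_coprime hm hp.one_lt
    refine ⟨F, inferInstance, inferInstance, inferInstance, Algebra.id F, inferInstance,
      inferInstance, hur, Units.mk0 (a ^ r) (pow_ne_zero r ha), fun w' hw' => ?_⟩
    rw [Units.val_mk0, glob_log_pow, hdiv w' hw', pow_zero, one_mul]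
    erw [globcap_under_self F w']
    have h1 : (p : ℤ) ∣ ((m * r : ℕ) : ℤ) - 1 := by
      have h2 : ((m * r : ℕ) : ℤ) % (p : ℤ) = 1 % (p : ℤ) := by
        rw [← Int.natCast_mod, hr, Nat.cast_one, Int.emod_eq_of_lt zero_le_one]
        exact_mod_cast hp.one_lt
      exact Int.ModEq.dvd (Int.ModEq.symm h2)
    have h3 : (r : ℤ) * (↑m * D₀ w') - D₀ w' = (((m * r : ℕ) : ℤ) - 1) * D₀ w' := by
      push_cast
      ring
    rw [h3]
    exact Dvd.dvd.mul_right h1 _
  | succ k ih =>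
    intro F _ _ _ _ hur D₀ m hm a ha hdiv
    -- adjoin a `p`-th root of `a`
    have hT : ∀ t ∈ ({a} : Finset F), ∀ w : HeightOneSpectrum (𝓞 F), ¬ GlAbove S F w →
        (p : ℤ) ∣ WithZero.log (w.valuation F t) := by
      intro t ht w hw
      rw [Finset.mem_singleton] at ht
      rw [ht, hdiv w hw, pow_succ]
      exact ⟨(p : ℤ) ^ k * m * D₀ w, by ring⟩
    obtain ⟨F₁, i1, i2, i3, i4, i5, i6, hur₁, hβ⟩ :=
      glob_exists_kummer_field S hpS K F hur {a}
        (fun t ht => by rw [Finset.mem_singleton] at ht; rw [ht]; exact ha) hT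
    obtain ⟨α, hα⟩ := hβ a (Finset.mem_singleton_self a)
    have hα0 : α ≠ 0 := by
      intro h0
      rw [h0, zero_pow hp.ne_zero] at hα
      exact (map_ne_zero (algebraMap F F₁)).2 ha hα.symm
    have hdiv₁ : ∀ w₁ : HeightOneSpectrum (𝓞 F₁), ¬ GlAbove S F₁ w₁ →
        WithZero.log (w₁.valuation F₁ α) =
          (p : ℤ) ^ k * m * (fun w₁ : HeightOneSpectrum (𝓞 F₁) => D₀ (w₁.under (𝓞 F))) w₁ := by
      intro w₁ hw₁
      have hw : ¬ GlAbove S F (w₁.under (𝓞 F)) := fun h => hw₁ ((glob_above_under_iff S w₁).1 h)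
      have h1 := glob_log_pow w₁ α p
      rw [hα, glob_log_algebraMap S hur₁ w₁ hw₁, hdiv _ hw, pow_succ] at h1
      have hp0 : (p : ℤ) ≠ 0 := by exact_mod_cast hp.ne_zero
      apply mul_left_cancel₀ hp0
      rw [← h1]
      ring
    obtain ⟨F', j1, j2, j3, j4, j5, j6, hur', u, hu⟩ :=
      ih F₁ hur₁ (fun w₁ : HeightOneSpectrum (𝓞 F₁) => D₀ (w₁.under (𝓞 F))) m hm α hα0 hdiv₁
    let algFF' : Algebra F F' := ((algebraMap F₁ F').comp (algebraMap F F₁)).toAlgebra
    have tow1 : IsScalarTower F F₁ F' := IsScalarTower.of_algebraMap_eq (fun _ => rfl)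
    have tow2 : IsScalarTower K F F' := IsScalarTower.of_algebraMap_eq (fun x => by
      rw [IsScalarTower.algebraMap_apply K F₁ F', IsScalarTower.algebraMap_apply K F F₁]
      rfl)
    refine ⟨F', j1, j2, j3, algFF', tow2, j6, hur', u, fun w' hw' => ?_⟩
    have h1 := hu w' hw'
    rw [globcap_under_under F F₁ F' w'] at h1
    exact h1

end Induction

/-- (OB-C) capitulation modulo `p`-th powers -/
theorem glob_exists_capitulation {p : ℕ} [Fact p.Prime] (S : Finset Nat.Primes)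
    (hpS : ∃ q ∈ S, ((q : Nat.Primes) : ℕ) = p)
    (K F : Type) [Field K] [NumberField K] [Field F] [NumberField F] [Algebra K F] [IsGalois K F]
    (hur : GlUnramOutside S K F) (D₀ : HeightOneSpectrum (𝓞 F) → ℤ)
    (hD₀ : (Function.support D₀).Finite) :
    ∃ (F' : Type) (_ : Field F') (_ : NumberField F') (_ : Algebra K F') (_ : Algebra F F')
      (_ : IsScalarTower K F F') (_ : IsGalois K F'),
      GlUnramOutside S K F' ∧ ∃ u : F'ˣ, ∀ w' : HeightOneSpectrum (𝓞 F'), ¬ GlAbove S F' w' →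
        (p : ℤ) ∣ WithZero.log (w'.valuation F' ((u : F'ˣ) : F')) - D₀ (w'.under (𝓞 F)) := by
  have hp : p.Prime := Fact.out
  obtain ⟨h, hh0, a, ha0, hdiv⟩ := globcap_exists_principal_pow F D₀ hD₀
  obtain ⟨k, m, hpm, rfl⟩ := Nat.exists_eq_pow_mul_and_not_dvd hh0 p hp.ne_one
  have hm : Nat.Coprime m p := ((Nat.Prime.coprime_iff_not_dvd hp).2 hpm).symm
  refine globcap_induction S hpS K k F hur D₀ m hm a ha0 (fun w _ => ?_)
  rw [hdiv w]
  push_cast
  ring

end Fermat.Agent.S55
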