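import Fermat.Agent.S55.Global.ObShapiro
import Fermat.Agent.S55.Global.ObCapitulation

/-!
# S55 / Global, leaf U2-core: the obstruction lemma `gl_ob_core` (assembly)

`D₀` from (OB-A); `F₁, u` from (OB-C); then `g₁ σ := infl g σ / (σ u / u)` has all its orders
outside `S` divisible by `p`, so by (OB-K) it is a `p`-th power in an `S`-field `F₂ ⊇ F₁`.
-/

set_option autoImplicit false

noncomputable section

namespace Fermat.Agent.S55

open scoped NumberField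
open NumberField IsDedekindDomain

/-- restriction in a tower of normal extensions -/
theorem globcore_restrict_tower (K F F₁ F₂ : Type) [Field K] [Field F] [Field F₁] [Field F₂]
    [Algebra K F] [Algebra K F₁] [Algebra K F₂] [Algebra F F₁] [Algebra F₁ F₂] [Algebra F F₂]
    [IsScalarTower K F F₁] [IsScalarTower K F₁ F₂] [IsScalarTower K F F₂] [IsScalarTower F F₁ F₂]
    [Normal K F] [Normal K F₁] (σ : F₂ ≃ₐ[K] F₂) :
    AlgEquiv.restrictNormalHom F (AlgEquiv.restrictNormalHom F₁ σ) =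
      AlgEquiv.restrictNormalHom F σ := by
  apply AlgEquiv.ext
  intro x
  apply (algebraMap F F₂).injective
  have h1 := AlgEquiv.restrictNormal_commutes σ F x
  have h2 := AlgEquiv.restrictNormal_commutes σ F₁ (algebraMap F F₁ x)
  have h3 := AlgEquiv.restrictNormal_commutes (AlgEquiv.restrictNormalHom F₁ σ) F x
  show algebraMap F F₂ ((AlgEquiv.restrictNormal (AlgEquiv.restrictNormalHom F₁ σ) F) x) =
    algebraMap F F₂ ((AlgEquiv.restrictNormal σ F) x)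
  rw [h1, IsScalarTower.algebraMap_apply F F₁ F₂, h3, IsScalarTower.algebraMap_apply F F₁ F₂]
  exact h2

theorem gl_ob_core {p : ℕ} [Fact p.Prime] (S : Finset Nat.Primes)
    (hpS : ∃ q ∈ S, ((q : Nat.Primes) : ℕ) = p)
    (K F : Type) [Field K] [NumberField K] [Field F] [NumberField F] [Algebra K F] [IsGalois K F]
    (hζ : ∃ ζ : K, IsPrimitiveRoot ζ p) (hur : GlUnramOutside S K F)
    (g : (F ≃ₐ[K] F) → Fˣ) (c : (F ≃ₐ[K] F) × (F ≃ₐ[K] F) → Fˣ)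
    (hgc : ∀ σ τ : F ≃ₐ[K] F, glD1 g (σ, τ) = c (σ, τ) ^ p)
    (hloc : ∀ w : HeightOneSpectrum (𝓞 F), ¬ GlAbove S F w → ∀ σ : F ≃ₐ[K] F,
      (∀ x : 𝓞 F, x ∈ w.asIdeal → (⟨σ x, map_isIntegral_int σ.toAlgHom.toRingHom.toIntAlgHom x.2⟩ :
        𝓞 F) ∈ w.asIdeal) →
      (p : ℤ) ∣ WithZero.log (w.valuation F ((g σ : Fˣ) : F))) :
    ∃ (F' : Type) (_ : Field F') (_ : NumberField F') (_ : Algebra K F') (_ : Algebra F F')
      (_ : IsScalarTower K F F') (_ : IsGalois K F'),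
      GlUnramOutside S K F' ∧
      ∃ (u : F'ˣ) (h : (F' ≃ₐ[K] F') → F'ˣ),
        ∀ σ : F' ≃ₐ[K] F', glInfl₁ K F F' g σ = glD0 u σ * h σ ^ p := by
  have hp : p.Prime := Fact.out
  -- (A)
  have hloc' : ∀ w : HeightOneSpectrum (𝓞 F), ¬ GlAbove S F w → ∀ σ : F ≃ₐ[K] F,
      gfiPrimeMap σ w = w → (p : ℤ) ∣ WithZero.log (w.valuation F ((g σ : Fˣ) : F)) := by
    intro w hw σ hσ
    apply hloc w hw σ
    intro x hx
    have h1 := (mem_gfiPrimeMap σ w x).2 hx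
    rw [hσ] at h1
    exact h1
  obtain ⟨D₀, hD₀fin, hD₀⟩ := glob_exists_D0 S K F g c hgc hloc'
  -- (C)
  obtain ⟨F₁, i1, i2, i3, i4, i5, i6, hur₁, u, hu⟩ :=
    glob_exists_capitulation S hpS K F hur D₀ hD₀fin
  -- the corrected cochain
  let g₁ : (F₁ ≃ₐ[K] F₁) → F₁ˣ := fun σ => glInfl₁ K F F₁ g σ / glD0 u σ
  have hg₁ : ∀ σ : F₁ ≃ₐ[K] F₁, ((g₁ σ : F₁ˣ) : F₁) =
      algebraMap F F₁ ((g (AlgEquiv.restrictNormalHom F σ) : Fˣ) : F) /
        (σ ((u : F₁ˣ) : F₁) / ((u : F₁ˣ) : F₁)) := by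
    intro σ
    show ((glInfl₁ K F F₁ g σ / glD0 u σ : F₁ˣ) : F₁) = _
    rw [Units.val_div_eq_div_val]
    show _ / (((σ • u / u : F₁ˣ) : F₁ˣ) : F₁) = _
    rw [Units.val_div_eq_div_val]
    rfl
  classical
  let T : Finset F₁ := Finset.univ.image (fun σ : F₁ ≃ₐ[K] F₁ => ((g₁ σ : F₁ˣ) : F₁))
  have hT0 : ∀ t ∈ T, t ≠ 0 := by
    intro t ht
    obtain ⟨σ, -, rfl⟩ := Finset.mem_image.1 ht
    exact Units.ne_zero _
  have hT : ∀ t ∈ T, ∀ w' : HeightOneSpectrum (𝓞 F₁), ¬ GlAbove S F₁ w' →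
      (p : ℤ) ∣ WithZero.log (w'.valuation F₁ t) := by
    intro t ht w' hw'
    obtain ⟨σ, -, rfl⟩ := Finset.mem_image.1 ht
    have hu0 : ((u : F₁ˣ) : F₁) ≠ 0 := Units.ne_zero _
    have hσu0 : σ ((u : F₁ˣ) : F₁) ≠ 0 := (map_ne_zero _).2 hu0
    have hg0 : algebraMap F F₁ ((g (AlgEquiv.restrictNormalHom F σ) : Fˣ) : F) ≠ 0 :=
      (map_ne_zero _).2 (Units.ne_zero _)
    rw [hg₁, glob_log_div w' hg0 (div_ne_zero hσu0 hu0), glob_log_div w' hσu0 hu0,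
      glob_log_algebraMap S hur₁ w' hw', glob_log_aut σ w']
    -- the three congruences
    have hw : ¬ GlAbove S F (w'.under (𝓞 F)) := fun h => hw' ((glob_above_under_iff S w').1 h)
    have hw'' : ¬ GlAbove S F₁ (gfiPrimeMap σ.symm w') :=
      fun h => hw' ((glob_above_primeMap_iff S σ.symm w').1 h)
    have e1 := hD₀ (AlgEquiv.restrictNormalHom F σ) (w'.under (𝓞 F)) hw
    have e2 := hu (gfiPrimeMap σ.symm w') hw''
    have e3 := hu w' hw'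
    have hunder : (gfiPrimeMap σ.symm w').under (𝓞 F) =
        gfiPrimeMap (AlgEquiv.restrictNormalHom F σ).symm (w'.under (𝓞 F)) := by
      rw [glob_under_primeMap]
      congr 1
      exact map_inv (AlgEquiv.restrictNormalHom F) σ
    rw [hunder] at e2
    have key : ∀ Lg Lσu Lu d1 d0 : ℤ,
        Lg - (Lσu - Lu) = (Lg - (d1 - d0)) - (Lσu - d1) + (Lu - d0) := by
      intro Lg Lσu Lu d1 d0
      ring
    rw [key _ _ _ (D₀ (gfiPrimeMap (AlgEquiv.restrictNormalHom F σ).symm (w'.under (𝓞 F))))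
      (D₀ (w'.under (𝓞 F)))]
    exact dvd_add (dvd_sub e1 e2) e3
  -- (K)
  obtain ⟨F₂, j1, j2, j3, j4, j5, j6, hur₂, hβ⟩ :=
    glob_exists_kummer_field S hpS K F₁ hur₁ T hT0 hT
  let algFF₂ : Algebra F F₂ := ((algebraMap F₁ F₂).comp (algebraMap F F₁)).toAlgebra
  have tow1 : IsScalarTower F F₁ F₂ := IsScalarTower.of_algebraMap_eq (fun _ => rfl)
  have tow2 : IsScalarTower K F F₂ := IsScalarTower.of_algebraMap_eq (fun x => by
    rw [IsScalarTower.algebraMap_apply K F₁ F₂, IsScalarTower.algebraMap_apply K F F₁]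
    rfl)
  refine ⟨F₂, j1, j2, j3, algFF₂, tow2, j6, hur₂, ?_⟩
  choose! β hβ' using hβ
  have hmemT : ∀ σ₁ : F₁ ≃ₐ[K] F₁, ((g₁ σ₁ : F₁ˣ) : F₁) ∈ T := fun σ₁ =>
    Finset.mem_image.2 ⟨σ₁, Finset.mem_univ _, rfl⟩
  have hβ0 : ∀ σ₁ : F₁ ≃ₐ[K] F₁, β ((g₁ σ₁ : F₁ˣ) : F₁) ≠ 0 := by
    intro σ₁ h0
    have h1 := hβ' _ (hmemT σ₁)
    rw [h0, zero_pow hp.ne_zero] at h1
    exact (map_ne_zero (algebraMap F₁ F₂)).2 (Units.ne_zero (g₁ σ₁)) h1.symm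
  refine ⟨Units.map (algebraMap F₁ F₂ : F₁ →* F₂) u,
    fun σ => Units.mk0 (β ((g₁ (AlgEquiv.restrictNormalHom F₁ σ) : F₁ˣ) : F₁)) (hβ0 _), fun σ => ?_⟩
  apply Units.ext
  have hres := globcore_restrict_tower K F F₁ F₂ σ
  rw [Units.val_mul, Units.val_pow_eq_pow_val]
  have hD0 : ((glD0 (Units.map (algebraMap F₁ F₂ : F₁ →* F₂) u) σ : F₂ˣ) : F₂) =
      σ (algebraMap F₁ F₂ ((u : F₁ˣ) : F₁)) / algebraMap F₁ F₂ ((u : F₁ˣ) : F₁) := by
    show (((σ • Units.map (algebraMap F₁ F₂ : F₁ →* F₂) u /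
      Units.map (algebraMap F₁ F₂ : F₁ →* F₂) u : F₂ˣ) : F₂ˣ) : F₂) = _
    rw [Units.val_div_eq_div_val]
    rfl
  rw [hD0]
  show algebraMap F F₂ ((g (AlgEquiv.restrictNormalHom F σ) : Fˣ) : F) =
    (σ (algebraMap F₁ F₂ ((u : F₁ˣ) : F₁)) / algebraMap F₁ F₂ ((u : F₁ˣ) : F₁)) *
      β ((g₁ (AlgEquiv.restrictNormalHom F₁ σ) : F₁ˣ) : F₁) ^ p
  rw [hβ' _ (hmemT _), hg₁, hres, map_div₀, map_div₀,
    ← AlgEquiv.restrictNormal_commutes σ F₁ ((u : F₁ˣ) : F₁),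
    IsScalarTower.algebraMap_apply F F₁ F₂]
  have hu0 : algebraMap F₁ F₂ ((u : F₁ˣ) : F₁) ≠ 0 := (map_ne_zero _).2 (Units.ne_zero _)
  have hσu0 : algebraMap F₁ F₂ ((AlgEquiv.restrictNormal σ F₁) ((u : F₁ˣ) : F₁)) ≠ 0 :=
    (map_ne_zero _).2 ((map_ne_zero _).2 (Units.ne_zero _))
  show _ = _ / _ * (_ / (algebraMap F₁ F₂ ((AlgEquiv.restrictNormalHom F₁ σ) ((u : F₁ˣ) : F₁)) / _))
  field_simp
  rfl

end Fermat.Agent.S55
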