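import Fermat.Agent.S55.Global.Defs
import Fermat.Agent.S55.Global.TowerDefs
import Fermat.Agent.S55.GFI.Defs

/-!
# S55 / Global: glue lemmas for the obstruction lemma `gl_ob_core` (places in towers of `S`-fields)

`L_w(x) := WithZero.log (w.valuation F x)`.
-/

set_option autoImplicit false
set_option linter.unusedSectionVars false

noncomputable section

namespace Fermat.Agent.S55

open scoped NumberField
open NumberField IsDedekindDomain

section Single

variable (S : Finset Nat.Primes) {K F : Type} [Field K] [NumberField K] [Field F] [NumberField F]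
  [Algebra K F]

/-- `σ(w)` is above `S` iff `w` is -/
theorem glob_above_primeMap_iff (σ : F ≃ₐ[K] F) (w : HeightOneSpectrum (𝓞 F)) :
    GlAbove S F (gfiPrimeMap σ w) ↔ GlAbove S F w := by
  have h : ∀ q : ℕ, ((q : 𝓞 F) ∈ (gfiPrimeMap σ w).asIdeal ↔ (q : 𝓞 F) ∈ w.asIdeal) := by
    intro q
    have h1 := mem_gfiPrimeMap σ w (q : 𝓞 F)
    rwa [map_natCast] at h1
  constructor
  · rintro ⟨q, hq, hmem⟩
    exact ⟨q, hq, (h _).1 hmem⟩
  · rintro ⟨q, hq, hmem⟩
    exact ⟨q, hq, (h _).2 hmem⟩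

/-- `L_w(σ x) = L_{σ⁻¹ w}(x)` -/
theorem glob_log_aut (σ : F ≃ₐ[K] F) (w : HeightOneSpectrum (𝓞 F)) (x : F) :
    WithZero.log (w.valuation F (σ x)) =
      WithZero.log ((gfiPrimeMap σ.symm w).valuation F x) := by
  have h := gfi_valuation_primeMap σ.symm w (σ x)
  rw [AlgEquiv.symm_apply_apply] at h
  rw [h]

omit [Field K] [NumberField K] [Algebra K F] in
theorem glob_log_mul (w : HeightOneSpectrum (𝓞 F)) {x y : F} (hx : x ≠ 0) (hy : y ≠ 0) :
    WithZero.log (w.valuation F (x * y)) =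
      WithZero.log (w.valuation F x) + WithZero.log (w.valuation F y) := by
  rw [map_mul, WithZero.log_mul ((Valuation.ne_zero_iff _).2 hx) ((Valuation.ne_zero_iff _).2 hy)]

omit [Field K] [NumberField K] [Algebra K F] in
theorem glob_log_div (w : HeightOneSpectrum (𝓞 F)) {x y : F} (hx : x ≠ 0) (hy : y ≠ 0) :
    WithZero.log (w.valuation F (x / y)) =
      WithZero.log (w.valuation F x) - WithZero.log (w.valuation F y) := by
  rw [map_div₀, WithZero.log_div ((Valuation.ne_zero_iff _).2 hx) ((Valuation.ne_zero_iff _).2 hy)]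

omit [Field K] [NumberField K] [Algebra K F] in
theorem glob_log_pow (w : HeightOneSpectrum (𝓞 F)) (x : F) (n : ℕ) :
    WithZero.log (w.valuation F (x ^ n)) = n * WithZero.log (w.valuation F x) := by
  rw [map_pow, WithZero.log_pow, nsmul_eq_mul]

omit [Field K] [NumberField K] [Algebra K F] in
/-- finiteness of the divisor of a nonzero element -/
theorem glob_finite_log_ne_zero {x : F} (hx : x ≠ 0) :
    {w : HeightOneSpectrum (𝓞 F) | WithZero.log (w.valuation F x) ≠ 0}.Finite := by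
  have h1 := HeightOneSpectrum.Support.finite (𝓞 F) x
  have h2 := HeightOneSpectrum.Support.finite (𝓞 F) x⁻¹
  refine (h1.union h2).subset ?_
  intro w hw
  have hv : w.valuation F x ≠ 0 := (Valuation.ne_zero_iff _).2 hx
  rcases lt_trichotomy (w.valuation F x) 1 with hlt | heq | hgt
  · right
    show 1 < w.valuation F x⁻¹
    rw [map_inv₀]
    exact (one_lt_inv₀ (zero_lt_iff.2 hv)).2 hlt
  · exfalso
    apply hw
    rw [heq, WithZero.log_one]
  · left
    exact hgt

end Single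

section Tower

variable (S : Finset Nat.Primes) {K F F' : Type} [Field K] [NumberField K] [Field F]
  [NumberField F] [Field F'] [NumberField F'] [Algebra K F] [Algebra K F'] [Algebra F F']
  [IsScalarTower K F F']

omit [Field K] [NumberField K] [Algebra K F] [Algebra K F'] [IsScalarTower K F F'] in
/-- (G3) -/
theorem glob_above_under_iff (w' : HeightOneSpectrum (𝓞 F')) :
    GlAbove S F (w'.under (𝓞 F)) ↔ GlAbove S F' w' := by
  have h : ∀ q : ℕ, ((q : 𝓞 F) ∈ (w'.under (𝓞 F)).asIdeal ↔ (q : 𝓞 F') ∈ w'.asIdeal) := by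
    intro q
    show algebraMap (𝓞 F) (𝓞 F') (q : 𝓞 F) ∈ w'.asIdeal ↔ _
    rw [map_natCast]
  constructor
  · rintro ⟨q, hq, hmem⟩
    exact ⟨q, hq, (h _).1 hmem⟩
  · rintro ⟨q, hq, hmem⟩
    exact ⟨q, hq, (h _).2 hmem⟩

/-- (G1) in an `S`-field tower `K ⊆ F ⊆ F'` the primes of `F'` outside `S` are unramified
over `F` -/
theorem glob_ramIdx_eq_one (hur : GlUnramOutside S K F') (w' : HeightOneSpectrum (𝓞 F'))
    (hw' : ¬ GlAbove S F' w') : gfiRamIdx F w' = 1 := by
  have hunr : Algebra.IsUnramifiedAt (𝓞 K) w'.asIdeal :=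
    hur w'.asIdeal w'.ne_bot (fun q hq hmem => hw' ⟨q, hq, hmem⟩)
  have h1 : w'.asIdeal.ramificationIdx (𝓞 K) = 1 := Ideal.ramificationIdx_eq_one w'.asIdeal (𝓞 K)
  have h2 : w'.asIdeal.ramificationIdx (𝓞 F) ∣ w'.asIdeal.ramificationIdx (𝓞 K) :=
    Ideal.ramificationIdx_above_dvd (w'.under (𝓞 F)).asIdeal w'.asIdeal
  rw [h1, Nat.dvd_one] at h2
  unfold gfiRamIdx
  rw [Ideal.ramificationIdx'_eq_ramificationIdx (w'.under (𝓞 F)).asIdeal w'.asIdeal
    (w'.under (𝓞 F)).ne_bot, h2]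

/-- (G4) -/
theorem glob_log_algebraMap (hur : GlUnramOutside S K F') (w' : HeightOneSpectrum (𝓞 F'))
    (hw' : ¬ GlAbove S F' w') (x : F) :
    WithZero.log (w'.valuation F' (algebraMap F F' x)) =
      WithZero.log ((w'.under (𝓞 F)).valuation F x) := by
  rw [gfi_valuation_algebraMap, glob_ramIdx_eq_one S hur w' hw', pow_one]

/-- (G2) -/
theorem glob_under_primeMap [Normal K F] (σ : F' ≃ₐ[K] F') (w' : HeightOneSpectrum (𝓞 F')) :
    (gfiPrimeMap σ w').under (𝓞 F) =
      gfiPrimeMap (AlgEquiv.restrictNormalHom F σ) (w'.under (𝓞 F)) := by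
  apply HeightOneSpectrum.ext
  ext a
  -- `a ∈ σ(w') ∩ 𝓞 F ↔ σ̄⁻¹ a ∈ w' ∩ 𝓞 F`
  have hcomm : ∀ b : 𝓞 F, gfiIntAut σ (algebraMap (𝓞 F) (𝓞 F') b) =
      algebraMap (𝓞 F) (𝓞 F') (gfiIntAut (AlgEquiv.restrictNormalHom F σ) b) := by
    intro b
    apply RingOfIntegers.ext
    show σ (algebraMap F F' (b : F)) = algebraMap F F' ((AlgEquiv.restrictNormalHom F σ) (b : F))
    exact (AlgEquiv.restrictNormal_commutes σ F (b : F)).symm
  obtain ⟨b, rfl⟩ := (gfiIntAut (AlgEquiv.restrictNormalHom F σ)).surjective a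
  rw [mem_gfiPrimeMap]
  show algebraMap (𝓞 F) (𝓞 F') (gfiIntAut (AlgEquiv.restrictNormalHom F σ) b) ∈
    (gfiPrimeMap σ w').asIdeal ↔ algebraMap (𝓞 F) (𝓞 F') b ∈ w'.asIdeal
  rw [← hcomm, mem_gfiPrimeMap]

end Tower

end Fermat.Agent.S55
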