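/-
S55 / Global, leaf OB-K1: the Kummer closure `F' = F(γ : γ^p = σ t, σ ∈ Gal(F/K), t ∈ T)` of a
finite Galois extension `F / K` of number fields (pure field theory).
-/
import Mathlib

set_option autoImplicit false

noncomputable section

namespace Fermat.Agent.S55

open scoped NumberField
open NumberField IsDedekindDomain

section KummerClosure

variable (p : ℕ) (K F : Type) [Field K] [Field F] [Algebra K F] (T : Finset F)

/-- the `p`-th roots, in the algebraic closure, of the conjugates of the elements of `T` -/
def globkfRoots : Set (AlgebraicClosure F) :=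
  {y | ∃ σ : F ≃ₐ[K] F, ∃ t ∈ T, y ^ p = algebraMap F (AlgebraicClosure F) (σ t)}

/-- the Kummer closure as an intermediate field of the algebraic closure -/
def globkfField : IntermediateField F (AlgebraicClosure F) :=
  IntermediateField.adjoin F (globkfRoots p K F T)

variable {p K F T}

theorem globkf_finite_roots (hp : p ≠ 0) [FiniteDimensional K F] :
    (globkfRoots p K F T).Finite := by
  classical
  have hfin : Finite (F ≃ₐ[K] F) := inferInstance
  have hsub : globkfRoots p K F T ⊆
      ⋃ σ : F ≃ₐ[K] F, ⋃ t ∈ (T : Set F),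
        {y : AlgebraicClosure F | y ^ p = algebraMap F (AlgebraicClosure F) (σ t)} := by
    rintro y ⟨σ, t, ht, hy⟩
    exact Set.mem_iUnion.mpr ⟨σ, Set.mem_biUnion (Finset.mem_coe.mpr ht) hy⟩
  refine Set.Finite.subset ?_ hsub
  refine Set.finite_iUnion fun σ => Set.Finite.biUnion T.finite_toSet fun t _ => ?_
  have hsub' : {y : AlgebraicClosure F | y ^ p = algebraMap F (AlgebraicClosure F) (σ t)} ⊆
      ((Polynomial.nthRoots p (algebraMap F (AlgebraicClosure F) (σ t))).toFinset : Set _) := by
    intro y hy
    rw [Finset.mem_coe, Multiset.mem_toFinset, Polynomial.mem_nthRoots (Nat.pos_of_ne_zero hp)]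
    exact hy
  exact Set.Finite.subset (Finset.finite_toSet _) hsub'

theorem globkf_finiteDimensional (hp : p ≠ 0) [FiniteDimensional K F] :
    FiniteDimensional F (globkfField p K F T) := by
  have : Finite (globkfRoots p K F T) := (globkf_finite_roots (T := T) hp).to_subtype
  exact IntermediateField.finiteDimensional_adjoin
    fun x _ => Algebra.IsIntegral.isIntegral x

/-- every `K`-automorphism of the algebraic closure preserves the Kummer closure -/
theorem globkf_map_le [Normal K F] (s : AlgebraicClosure F ≃ₐ[K] AlgebraicClosure F)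
    (x : AlgebraicClosure F) (hx : x ∈ globkfField p K F T) : s x ∈ globkfField p K F T := by
  induction hx using IntermediateField.adjoin_induction with
  | mem y hy =>
    obtain ⟨σ, t, ht, hy⟩ := hy
    refine IntermediateField.subset_adjoin _ _ ⟨s.restrictNormal F * σ, t, ht, ?_⟩
    rw [← map_pow, hy, AlgEquiv.mul_apply, AlgEquiv.restrictNormal_commutes]
  | algebraMap f =>
    rw [← AlgEquiv.restrictNormal_commutes s F f]
    exact IntermediateField.algebraMap_mem _ _
  | add y z _ _ hy hz =>
    rw [map_add]
    exact add_mem hy hz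
  | inv y _ hy =>
    rw [map_inv₀]
    exact inv_mem hy
  | mul y z _ _ hy hz =>
    rw [map_mul]
    exact mul_mem hy hz

theorem globkf_normal [Normal K F] :
    Normal K ((globkfField p K F T).restrictScalars K) := by
  rw [IntermediateField.normal_iff_forall_map_le']
  intro s y hy
  obtain ⟨x, hx, rfl⟩ := hy
  exact globkf_map_le s x hx

/-- the roots generate the Kummer closure (as a field over `F`, inside itself) -/
theorem globkf_adjoin_eq_top :
    IntermediateField.adjoin F
      {x : globkfField p K F T | (x : AlgebraicClosure F) ∈ globkfRoots p K F T} = ⊤ := by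
  rw [eq_top_iff]
  rintro ⟨x, hx⟩ -
  induction hx using IntermediateField.adjoin_induction with
  | mem y hy => exact IntermediateField.subset_adjoin _ _ hy
  | algebraMap f =>
    exact IntermediateField.algebraMap_mem
      (IntermediateField.adjoin F
        {x : globkfField p K F T | (x : AlgebraicClosure F) ∈ globkfRoots p K F T}) f
  | add y z hy hz hy' hz' =>
    exact add_mem hy' hz'
  | inv y hy hy' =>
    exact inv_mem hy'
  | mul y z hy hz hy' hz' =>
    exact mul_mem hy' hz'

end KummerClosure

/-- (OB-K1) -/
theorem glob_exists_kummer_closure (p : ℕ) (hp : p ≠ 0)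
    (K F : Type) [Field K] [NumberField K] [Field F] [NumberField F] [Algebra K F] [IsGalois K F]
    (T : Finset F) :
    ∃ (F' : Type) (_ : Field F') (_ : NumberField F') (_ : Algebra K F') (_ : Algebra F F')
      (_ : IsScalarTower K F F') (_ : IsGalois K F') (Γ : Set F'),
      IntermediateField.adjoin F Γ = ⊤ ∧
      (∀ γ ∈ Γ, ∃ σ : F ≃ₐ[K] F, ∃ t ∈ T, γ ^ p = algebraMap F F' (σ t)) ∧
      (∀ t ∈ T, ∃ γ ∈ Γ, γ ^ p = algebraMap F F' t) := by
  have hfd : FiniteDimensional F (globkfField p K F T) := globkf_finiteDimensional hp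
  have hNF : NumberField (globkfField p K F T) := NumberField.of_module_finite F _
  have hnormal : Normal K (globkfField p K F T) := globkf_normal (p := p) (K := K) (F := F) (T := T)
  have hGal : IsGalois K (globkfField p K F T) := ⟨⟩
  refine ⟨globkfField p K F T, inferInstance, hNF, inferInstance, inferInstance, inferInstance,
    hGal, {x : globkfField p K F T | (x : AlgebraicClosure F) ∈ globkfRoots p K F T},
    globkf_adjoin_eq_top, ?_, ?_⟩
  · rintro γ ⟨σ, t, ht, hγ⟩
    exact ⟨σ, t, ht, Subtype.ext hγ⟩
  · intro t ht
    obtain ⟨y, hy⟩ := IsAlgClosed.exists_pow_nat_eq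
      (algebraMap F (AlgebraicClosure F) t) (Nat.pos_of_ne_zero hp)
    have hmem : y ∈ globkfRoots p K F T := ⟨1, t, ht, by rw [hy, AlgEquiv.one_apply]⟩
    exact ⟨⟨y, IntermediateField.subset_adjoin _ _ hmem⟩, hmem, Subtype.ext hy⟩

end Fermat.Agent.S55
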