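import Fermat.Agent.S55.Global.Defs
import Fermat.Agent.S55.Global.TowerDefs
import Fermat.Agent.S55.GFI.Defs
import Fermat.Agent.S55.Global.ObGlue

/-!
# S55 / Global, leaf (OB-A): elementary Shapiro in degree 1 on the places outside `S`

`glob_exists_D0`: for a `1`-cochain `g` of `Gal(F/K)` in `Fˣ` with `d¹ g = c ^ p` whose
log-valuations `L_w(g σ)` are divisible by `p` for `σ` in the stabiliser of `w` (`w` outside `S`),
there is a divisor `D₀` with `L_w(g σ) ≡ D₀(σ⁻¹ w) - D₀(w) mod p` outside `S`.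

The group-theoretic core is `globsh_abstract` (a group acting on a set, a "cocycle modulo `p`"
`D : G → X → ℤ` which is trivial on stabilisers is a coboundary modulo `p`).
-/

set_option autoImplicit false

noncomputable section

namespace Fermat.Agent.S55

open scoped NumberField
open NumberField IsDedekindDomain

/-- Abstract Shapiro in degree `1`: a group `G` acting on a set `X` through `act`, a function
`D : G → X → ℤ` satisfying the cocycle rule modulo `p` and trivial modulo `p` on the stabilisers of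
the points satisfying `P`, is a coboundary modulo `p` on these points. -/
theorem globsh_abstract {G X : Type*} [Group G] (act : G → X → X)
    (h1 : ∀ w, act 1 w = w) (hmul : ∀ σ τ w, act (σ * τ) w = act σ (act τ w))
    (D : G → X → ℤ) (p : ℤ) (P : X → Prop) (hP : ∀ σ w, P (act σ w) ↔ P w)
    (hcoc : ∀ σ τ w, p ∣ D (σ * τ) w - (D σ w + D τ (act σ⁻¹ w)))
    (hloc : ∀ w, P w → ∀ σ, act σ w = w → p ∣ D σ w) :
    ∃ D₀ : X → ℤ, (∀ w, D₀ w ≠ 0 → ∃ τ, D τ w ≠ 0) ∧
      ∀ σ w, P w → p ∣ D σ w - (D₀ (act σ⁻¹ w) - D₀ w) := by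
  classical
  have hinv : ∀ σ w, act σ⁻¹ (act σ w) = w := by
    intro σ w
    rw [← hmul, inv_mul_cancel, h1]
  let s : Setoid X :=
    { r := fun w w' => ∃ σ, act σ w = w'
      iseqv :=
        { refl := fun w => ⟨1, h1 w⟩
          symm := by
            rintro w w' ⟨σ, rfl⟩
            exact ⟨σ⁻¹, hinv σ w⟩
          trans := by
            rintro w w' w'' ⟨σ, rfl⟩ ⟨τ, rfl⟩
            exact ⟨τ * σ, hmul τ σ w⟩ } }
  let rep : X → X := fun w => (Quotient.mk s w).out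
  have hrep : ∀ w, ∃ τ, act τ (rep w) = w := fun w =>
    Quotient.exact (Quotient.out_eq (Quotient.mk s w))
  have hrep_eq : ∀ σ w, rep (act σ w) = rep w := by
    intro σ w
    have : Quotient.mk s (act σ w) = Quotient.mk s w :=
      Quotient.sound (s.symm ⟨σ, rfl⟩)
    show (Quotient.mk s (act σ w)).out = (Quotient.mk s w).out
    rw [this]
  choose τ hτ using hrep
  refine ⟨fun w => - D (τ w) w, ?_, ?_⟩
  · intro w hw
    refine ⟨τ w, fun h => hw ?_⟩
    show - D (τ w) w = 0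
    rw [h, neg_zero]
  · intro σ w hw
    set w' := act σ⁻¹ w with hw'
    have hrw : rep w' = rep w := hrep_eq σ⁻¹ w
    set ρ := (τ w)⁻¹ * (σ * τ w') with hρ
    have hσw' : act σ w' = w := by
      have := hinv σ⁻¹ w
      rwa [inv_inv] at this
    have hτinv : act (τ w)⁻¹ w = rep w := by
      have := hinv (τ w) (rep w)
      rwa [hτ w] at this
    have hfix : act ρ (rep w) = rep w := by
      rw [hρ, hmul, hmul, ← hrw, hτ w', hσw', hrw, hτinv]
    have hPrep : P (rep w) := by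
      rw [← hτinv]
      exact (hP _ _).2 hw
    have hprod : σ * τ w' = τ w * ρ := by
      rw [hρ, mul_inv_cancel_left]
    have e1 := hcoc σ (τ w') w
    have e2 := hcoc (τ w) ρ w
    rw [← hprod, hτinv] at e2
    have e3 := hloc (rep w) hPrep ρ hfix
    rw [← hw'] at e1
    have key : D σ w - (-D (τ w') w' - -D (τ w) w) =
        (D (σ * τ w') w - (D (τ w) w + D ρ (rep w)) -
          (D (σ * τ w') w - (D σ w + D (τ w') w'))) + D ρ (rep w) := by
      ring
    show p ∣ D σ w - (-D (τ w') w' - -D (τ w) w)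
    rw [key]
    exact dvd_add (dvd_sub e2 e1) e3

section Concrete

variable {K F : Type} [Field K] [NumberField K] [Field F] [NumberField F] [Algebra K F]

omit [NumberField K] [NumberField F] in
theorem globsh_intAut_mul (σ τ : F ≃ₐ[K] F) :
    (gfiIntAut (σ * τ) : 𝓞 F →+* 𝓞 F) =
      (gfiIntAut σ : 𝓞 F →+* 𝓞 F).comp (gfiIntAut τ : 𝓞 F →+* 𝓞 F) := by
  ext x
  rfl

theorem globsh_primeMap_one (w : HeightOneSpectrum (𝓞 F)) :
    gfiPrimeMap (1 : F ≃ₐ[K] F) w = w := by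
  apply HeightOneSpectrum.ext
  rw [gfiPrimeMap_asIdeal]
  have : (gfiIntAut (1 : F ≃ₐ[K] F) : 𝓞 F →+* 𝓞 F) = RingHom.id (𝓞 F) := by
    ext x
    rfl
  rw [this, Ideal.map_id]

theorem globsh_primeMap_mul (σ τ : F ≃ₐ[K] F) (w : HeightOneSpectrum (𝓞 F)) :
    gfiPrimeMap (σ * τ) w = gfiPrimeMap σ (gfiPrimeMap τ w) := by
  apply HeightOneSpectrum.ext
  rw [gfiPrimeMap_asIdeal, gfiPrimeMap_asIdeal, gfiPrimeMap_asIdeal, Ideal.map_map,
    globsh_intAut_mul]

end Concrete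

/-- (OB-A) -/
theorem glob_exists_D0 {p : ℕ} [Fact p.Prime] (S : Finset Nat.Primes)
    (K F : Type) [Field K] [NumberField K] [Field F] [NumberField F] [Algebra K F] [IsGalois K F]
    (g : (F ≃ₐ[K] F) → Fˣ) (c : (F ≃ₐ[K] F) × (F ≃ₐ[K] F) → Fˣ)
    (hgc : ∀ σ τ : F ≃ₐ[K] F, glD1 g (σ, τ) = c (σ, τ) ^ p)
    (hloc : ∀ w : HeightOneSpectrum (𝓞 F), ¬ GlAbove S F w → ∀ σ : F ≃ₐ[K] F,
      gfiPrimeMap σ w = w → (p : ℤ) ∣ WithZero.log (w.valuation F ((g σ : Fˣ) : F))) :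
    ∃ D₀ : HeightOneSpectrum (𝓞 F) → ℤ, (Function.support D₀).Finite ∧
      ∀ (σ : F ≃ₐ[K] F) (w : HeightOneSpectrum (𝓞 F)), ¬ GlAbove S F w →
        (p : ℤ) ∣ WithZero.log (w.valuation F ((g σ : Fˣ) : F)) -
          (D₀ (gfiPrimeMap σ.symm w) - D₀ w) := by
  have hcoc : ∀ (σ τ : F ≃ₐ[K] F) (w : HeightOneSpectrum (𝓞 F)),
      (p : ℤ) ∣ WithZero.log (w.valuation F ((g (σ * τ) : Fˣ) : F)) -
        (WithZero.log (w.valuation F ((g σ : Fˣ) : F)) +
          WithZero.log ((gfiPrimeMap σ⁻¹ w).valuation F ((g τ : Fˣ) : F))) := by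
    intro σ τ w
    have h := congrArg (fun u : Fˣ => (u : F)) (hgc σ τ)
    have h' : σ ((g τ : Fˣ) : F) / ((g (σ * τ) : Fˣ) : F) * ((g σ : Fˣ) : F) =
        ((c (σ, τ) : Fˣ) : F) ^ p := by
      simpa [glD1] using h
    have hl : WithZero.log (w.valuation F
        (σ ((g τ : Fˣ) : F) / ((g (σ * τ) : Fˣ) : F) * ((g σ : Fˣ) : F))) =
        WithZero.log (w.valuation F (((c (σ, τ) : Fˣ) : F) ^ p)) := by
      rw [h']
    have n1 : σ ((g τ : Fˣ) : F) ≠ 0 := by
      rw [Ne, EmbeddingLike.map_eq_zero_iff]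
      exact Units.ne_zero _
    have n2 : ((g (σ * τ) : Fˣ) : F) ≠ 0 := Units.ne_zero _
    have n3 : ((g σ : Fˣ) : F) ≠ 0 := Units.ne_zero _
    rw [glob_log_mul w (div_ne_zero n1 n2) n3, glob_log_div w n1 n2, glob_log_pow,
      glob_log_aut] at hl
    refine ⟨- WithZero.log (w.valuation F ((c (σ, τ) : Fˣ) : F)), ?_⟩
    have e : (σ⁻¹ : F ≃ₐ[K] F) = σ.symm := rfl
    rw [e]
    linarith
  obtain ⟨D₀, hsupp, hD₀⟩ := globsh_abstract (G := F ≃ₐ[K] F)
    (X := HeightOneSpectrum (𝓞 F)) (fun σ w => gfiPrimeMap σ w)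
    globsh_primeMap_one globsh_primeMap_mul
    (fun σ w => WithZero.log (w.valuation F ((g σ : Fˣ) : F))) (p : ℤ)
    (fun w => ¬ GlAbove S F w)
    (fun σ w => not_congr (glob_above_primeMap_iff S σ w)) hcoc hloc
  refine ⟨D₀, ?_, fun σ w hw => hD₀ σ w hw⟩
  have hfin : (⋃ τ : F ≃ₐ[K] F,
      {w : HeightOneSpectrum (𝓞 F) | WithZero.log (w.valuation F ((g τ : Fˣ) : F)) ≠ 0}).Finite :=
    Set.finite_iUnion fun τ => glob_finite_log_ne_zero (Units.ne_zero (g τ))
  refine hfin.subset ?_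
  intro w hw
  obtain ⟨τ, hτ⟩ := hsupp w hw
  exact Set.mem_iUnion.2 ⟨τ, hτ⟩

end Fermat.Agent.S55
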